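import Mathlib

/-!
# Fixed points of elements of `GL (Fin 2) k` acting on `OnePoint k`

Scalar elements fix everything, parabolic elements fix exactly one point (Mathlib),
elements whose discriminant is a nonzero square fix exactly two points.
-/

set_option autoImplicit false

namespace Fermat.Agent.TW.Dickson.FixedPts78

open Matrix OnePoint Polynomial
open scoped MatrixGroups

variable {k : Type*} [Field k]

/-- A matrix of `GL (Fin 2) k` is scalar iff off-diagonal entries vanish and diagonal entries
agree. -/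
lemma mem_range_scalar_iff (g : GL (Fin 2) k) :
    g.val ∈ Set.range (Matrix.scalar (Fin 2)) ↔ g 0 1 = 0 ∧ g 1 0 = 0 ∧ g 0 0 = g 1 1 := by
  constructor
  · rintro ⟨a, ha⟩
    have h := ha.symm
    refine ⟨?_, ?_, ?_⟩
    · have := congrFun (congrFun h 0) 1; simpa using this
    · have := congrFun (congrFun h 1) 0; simpa using this
    · have h0 := congrFun (congrFun h 0) 0
      have h1 := congrFun (congrFun h 1) 1
      simp at h0 h1
      rw [h0, h1]
  · rintro ⟨h01, h10, hd⟩
    refine ⟨g 0 0, ?_⟩
    ext i j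
    fin_cases i <;> fin_cases j <;> simp [h01, h10, hd]

lemma det_eq (g : GL (Fin 2) k) : g.val.det = g 0 0 * g 1 1 - g 0 1 * g 1 0 := by
  rw [Matrix.det_fin_two]

lemma det_ne_zero' (g : GL (Fin 2) k) : g 0 0 * g 1 1 - g 0 1 * g 1 0 ≠ 0 := by
  rw [← det_eq]; exact g.det_ne_zero

variable [DecidableEq k]

/-- Scalar elements act trivially on `OnePoint k`. -/
lemma smul_eq_self_of_scalar {g : GL (Fin 2) k} (h01 : g 0 1 = 0) (h10 : g 1 0 = 0)
    (hd : g 0 0 = g 1 1) (x : OnePoint k) : g • x = x := by
  have hdet := det_ne_zero' g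
  rw [h01, hd, zero_mul, sub_zero] at hdet
  have h11 : g 1 1 ≠ 0 := fun h => hdet (by rw [h, mul_zero])
  cases x with
  | infty => simp [smul_infty_eq_ite, h10]
  | coe c =>
    rw [smul_some_eq_ite]
    simp only [h10, zero_mul, zero_add, h11, if_false, h01, add_zero, hd]
    rw [OnePoint.coe_eq_coe]
    field_simp

/-- Elements with nonzero square discriminant have exactly two fixed points. -/
lemma exists_two_fixed [NeZero (2 : k)] {g : GL (Fin 2) k} {d : k} (hd : d ≠ 0)
    (hdisc : g.val.discr = d * d) :
    ∃ x₁ x₂ : OnePoint k, x₁ ≠ x₂ ∧ ∀ x, g • x = x ↔ x = x₁ ∨ x = x₂ := by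
  have hdisc' : (g 0 0 - g 1 1) ^ 2 + 4 * g 0 1 * g 1 0 = d * d := by
    rw [← hdisc, discr_fin_two, trace_fin_two, det_fin_two]; ring
  by_cases h10 : g 1 0 = 0
  · have hne : g 1 1 - g 0 0 ≠ 0 := by
      intro h
      have h' : g 0 0 - g 1 1 = 0 := by linear_combination -h
      rw [h', h10] at hdisc'
      apply hd
      have : d * d = 0 := by rw [← hdisc']; ring
      exact mul_self_eq_zero.mp this
    refine ⟨∞, ((g 0 1 / (g 1 1 - g 0 0) : k) : OnePoint k), infty_ne_coe _, fun x => ?_⟩
    cases x with
    | infty => simp [smul_infty_eq_self_iff, h10]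
    | coe c =>
      rw [← GeneralLinearGroup.fixpointPolynomial_aeval_eq_zero_iff]
      simp only [GeneralLinearGroup.fixpointPolynomial, h10, map_zero, zero_mul, zero_add, map_sub,
        map_mul, aeval_C, aeval_X, Algebra.algebraMap_self_apply, coe_ne_infty, false_or,
        coe_eq_coe]
      rw [sub_eq_zero, eq_div_iff hne, mul_comm]
  · have h2 : (2 : k) ≠ 0 := NeZero.ne _
    have hq : discrim (g 1 0) (g 1 1 - g 0 0) (-g 0 1) = d * d := by
      rw [discrim, ← hdisc']; ring
    refine ⟨(((-(g 1 1 - g 0 0) + d) / (2 * g 1 0) : k) : OnePoint k),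
      (((-(g 1 1 - g 0 0) - d) / (2 * g 1 0) : k) : OnePoint k), ?_, fun x => ?_⟩
    · rw [Ne, coe_eq_coe]
      intro h
      have h20 : (2 : k) * g 1 0 ≠ 0 := mul_ne_zero h2 h10
      rw [div_left_inj' h20] at h
      apply hd
      have : (2 : k) * d = 0 := by linear_combination h
      exact (mul_eq_zero.mp this).resolve_left h2
    · cases x with
      | infty => simp [smul_infty_eq_self_iff, h10]
      | coe c =>
        rw [← GeneralLinearGroup.fixpointPolynomial_aeval_eq_zero_iff]
        simp only [GeneralLinearGroup.fixpointPolynomial, map_sub, map_mul, map_add, aeval_C,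
          aeval_X, aeval_X_pow, Algebra.algebraMap_self_apply, coe_eq_coe]
        rw [← quadratic_eq_zero_iff h10 hq c]
        constructor <;> intro h <;> linear_combination h

end Fermat.Agent.TW.Dickson.FixedPts78
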