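import Mathlib

/-!
# Twisted cocycles on subgroups of `GL (Fin 2) k` with values in trace-zero matrices

The action is `g • X = det g • (g X g⁻¹)`.  Cocycles are functions on the ambient group
`GL (Fin 2) k` satisfying the cocycle identity on a subgroup `G`.
-/

set_option autoImplicit false
set_option linter.unusedSectionVars false

namespace Fermat.Agent.TW.Dickson.Cohom78

open Matrix
open scoped MatrixGroups

variable {k : Type*} [Field k]

/-- The twisted adjoint action. -/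
def act (g : GL (Fin 2) k) (X : Matrix (Fin 2) (Fin 2) k) : Matrix (Fin 2) (Fin 2) k :=
  g.val.det • (g.val * X * (g⁻¹ : GL (Fin 2) k).val)

lemma act_one (X : Matrix (Fin 2) (Fin 2) k) : act 1 X = X := by
  simp [act]

lemma act_mul (g h : GL (Fin 2) k) (X : Matrix (Fin 2) (Fin 2) k) :
    act (g * h) X = act g (act h X) := by
  simp only [act, _root_.mul_inv_rev, Units.val_mul, Matrix.det_mul, Matrix.mul_smul,
    Matrix.smul_mul, smul_smul, Matrix.mul_assoc]

lemma act_add (g : GL (Fin 2) k) (X Y : Matrix (Fin 2) (Fin 2) k) :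
    act g (X + Y) = act g X + act g Y := by
  simp only [act, Matrix.mul_add, Matrix.add_mul, smul_add]

lemma act_zero (g : GL (Fin 2) k) : act g (0 : Matrix (Fin 2) (Fin 2) k) = 0 := by
  simp [act]

lemma act_neg (g : GL (Fin 2) k) (X : Matrix (Fin 2) (Fin 2) k) : act g (-X) = -act g X := by
  simp [act]

lemma act_sub (g : GL (Fin 2) k) (X Y : Matrix (Fin 2) (Fin 2) k) :
    act g (X - Y) = act g X - act g Y := by
  rw [sub_eq_add_neg, act_add, act_neg, sub_eq_add_neg]

lemma act_smul (g : GL (Fin 2) k) (c : k) (X : Matrix (Fin 2) (Fin 2) k) :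
    act g (c • X) = c • act g X := by
  simp only [act, Matrix.mul_smul, Matrix.smul_mul, smul_smul, mul_comm]

lemma act_sum {ι : Type*} (s : Finset ι) (g : GL (Fin 2) k)
    (f : ι → Matrix (Fin 2) (Fin 2) k) : act g (∑ i ∈ s, f i) = ∑ i ∈ s, act g (f i) := by
  classical
  induction s using Finset.induction_on with
  | empty => simp [act_zero]
  | insert a s ha ih => rw [Finset.sum_insert ha, Finset.sum_insert ha, act_add, ih]

lemma trace_act (g : GL (Fin 2) k) (X : Matrix (Fin 2) (Fin 2) k) :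
    (act g X).trace = g.val.det * X.trace := by
  rw [act, Matrix.trace_smul, Matrix.trace_mul_comm, ← Matrix.mul_assoc, ← Units.val_mul,
    inv_mul_cancel, Units.val_one, Matrix.one_mul, smul_eq_mul]

/-- `ψ` is a cocycle on `G`. -/
structure IsCocycleOn (G : Subgroup (GL (Fin 2) k))
    (ψ : GL (Fin 2) k → Matrix (Fin 2) (Fin 2) k) : Prop where
  tr : ∀ g ∈ G, (ψ g).trace = 0
  mul : ∀ g ∈ G, ∀ h ∈ G, ψ (g * h) = ψ g + act g (ψ h)

/-- `ψ` is a coboundary on `G`. -/
def IsCoboundaryOn (G : Subgroup (GL (Fin 2) k))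
    (ψ : GL (Fin 2) k → Matrix (Fin 2) (Fin 2) k) : Prop :=
  ∃ Y : Matrix (Fin 2) (Fin 2) k, Y.trace = 0 ∧ ∀ g ∈ G, ψ g = act g Y - Y

variable {G : Subgroup (GL (Fin 2) k)} {ψ : GL (Fin 2) k → Matrix (Fin 2) (Fin 2) k}

lemma IsCocycleOn.map_one (h : IsCocycleOn G ψ) : ψ 1 = 0 := by
  have := h.mul 1 G.one_mem 1 G.one_mem
  rw [mul_one, act_one] at this
  exact left_eq_add.mp this

/-- Subtracting a coboundary from a cocycle. -/
lemma IsCocycleOn.sub_coboundary (h : IsCocycleOn G ψ) {Y : Matrix (Fin 2) (Fin 2) k}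
    (hY : Y.trace = 0) : IsCocycleOn G (fun g => ψ g - (act g Y - Y)) where
  tr g hg := by
    rw [Matrix.trace_sub, Matrix.trace_sub, h.tr g hg, trace_act, hY]; simp
  mul g hg g' hg' := by
    rw [h.mul g hg g' hg', act_mul, act_sub, act_sub]
    abel

lemma isCoboundaryOn_of_sub (Y : Matrix (Fin 2) (Fin 2) k) (hY : Y.trace = 0)
    (h : IsCoboundaryOn G (fun g => ψ g - (act g Y - Y))) : IsCoboundaryOn G ψ := by
  obtain ⟨Z, hZ, hZ'⟩ := h
  refine ⟨Z + Y, by rw [Matrix.trace_add, hZ, hY, add_zero], fun g hg => ?_⟩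
  have := hZ' g hg
  rw [act_add]
  rw [sub_eq_iff_eq_add] at this
  rw [this]; abel

lemma trace_sum_eq_zero {ι : Type*} (s : Finset ι) (f : ι → Matrix (Fin 2) (Fin 2) k)
    (hf : ∀ i ∈ s, (f i).trace = 0) : (∑ i ∈ s, f i).trace = 0 := by
  rw [Matrix.trace_sum]
  exact Finset.sum_eq_zero hf

/-- If `S = m • ψ x + act x S` for all `x ∈ G` with `m` invertible, then `ψ` is a coboundary. -/
lemma isCoboundaryOn_of_key (S : Matrix (Fin 2) (Fin 2) k) (hS : S.trace = 0) (m : k)
    (hm : m ≠ 0) (key : ∀ x ∈ G, S = m • ψ x + act x S) : IsCoboundaryOn G ψ := by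
  refine ⟨-(m⁻¹ • S), by rw [Matrix.trace_neg, Matrix.trace_smul, hS]; simp, fun x hx => ?_⟩
  have h1 := key x hx
  have h3 : S - act x S = m • ψ x := sub_eq_of_eq_add h1
  have h2 : ψ x = m⁻¹ • (S - act x S) := by
    rw [h3, smul_smul, inv_mul_cancel₀ hm, one_smul]
  rw [h2, act_neg, act_smul, smul_sub]
  abel

section transport

/-- Plain conjugation of matrices. -/
def conjM (h : GL (Fin 2) k) (X : Matrix (Fin 2) (Fin 2) k) : Matrix (Fin 2) (Fin 2) k :=
  h.val * X * (h⁻¹ : GL (Fin 2) k).val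

lemma trace_conjM (h : GL (Fin 2) k) (X : Matrix (Fin 2) (Fin 2) k) :
    (conjM h X).trace = X.trace := by
  rw [conjM, Matrix.trace_mul_comm, ← Matrix.mul_assoc, ← Units.val_mul, inv_mul_cancel,
    Units.val_one, Matrix.one_mul]

lemma conjM_add (h : GL (Fin 2) k) (X Y : Matrix (Fin 2) (Fin 2) k) :
    conjM h (X + Y) = conjM h X + conjM h Y := by
  simp only [conjM, Matrix.mul_add, Matrix.add_mul]

lemma conjM_sub (h : GL (Fin 2) k) (X Y : Matrix (Fin 2) (Fin 2) k) :
    conjM h (X - Y) = conjM h X - conjM h Y := by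
  simp only [conjM, Matrix.mul_sub, Matrix.sub_mul]

lemma conjM_conjM_inv (h : GL (Fin 2) k) (X : Matrix (Fin 2) (Fin 2) k) :
    conjM h⁻¹ (conjM h X) = X := by
  simp only [conjM, inv_inv, Matrix.mul_assoc, Units.inv_mul, Matrix.mul_one]
  rw [← Matrix.mul_assoc, Units.inv_mul, Matrix.one_mul]

lemma conjM_act (h g : GL (Fin 2) k) (X : Matrix (Fin 2) (Fin 2) k) :
    conjM h (act g X) = act (h * g * h⁻¹) (conjM h X) := by
  have hdet : (h * g * h⁻¹ : GL (Fin 2) k).val.det = g.val.det := by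
    rw [Units.val_mul, Units.val_mul, Matrix.det_mul, Matrix.det_mul, mul_comm, ← mul_assoc,
      ← Matrix.det_mul, ← Units.val_mul, inv_mul_cancel, Units.val_one, Matrix.det_one, one_mul]
  rw [act, act, hdet, conjM, conjM, Matrix.mul_smul, Matrix.smul_mul]
  congr 1
  simp only [_root_.mul_inv_rev, inv_inv, Units.val_mul, Matrix.mul_assoc]
  congr 2
  rw [← Matrix.mul_assoc (h⁻¹ : GL (Fin 2) k).val, Units.inv_mul, Matrix.one_mul]
  congr 1
  rw [Units.inv_mul_cancel_left]

/-- The conjugated subgroup `h G h⁻¹`. -/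
def conjSub (h : GL (Fin 2) k) (G : Subgroup (GL (Fin 2) k)) : Subgroup (GL (Fin 2) k) :=
  G.comap (MulAut.conj h⁻¹).toMonoidHom

lemma mem_conjSub {h g : GL (Fin 2) k} : g ∈ conjSub h G ↔ h⁻¹ * g * h ∈ G := by
  simp [conjSub, Subgroup.mem_comap]

lemma conj_mem_conjSub {h g : GL (Fin 2) k} (hg : g ∈ G) : h * g * h⁻¹ ∈ conjSub h G := by
  rw [mem_conjSub]
  have : h⁻¹ * (h * g * h⁻¹) * h = g := by group
  rw [this]; exact hg

/-- The conjugated cocycle. -/
def conjCoc (h : GL (Fin 2) k) (ψ : GL (Fin 2) k → Matrix (Fin 2) (Fin 2) k) :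
    GL (Fin 2) k → Matrix (Fin 2) (Fin 2) k :=
  fun g => conjM h (ψ (h⁻¹ * g * h))

lemma IsCocycleOn.conj (hψ : IsCocycleOn G ψ) (h : GL (Fin 2) k) :
    IsCocycleOn (conjSub h G) (conjCoc h ψ) where
  tr g hg := by
    rw [conjCoc, trace_conjM]
    exact hψ.tr _ (mem_conjSub.mp hg)
  mul g hg g' hg' := by
    have h1 : h⁻¹ * (g * g') * h = (h⁻¹ * g * h) * (h⁻¹ * g' * h) := by group
    have h2 : h * (h⁻¹ * g * h) * h⁻¹ = g := by group
    simp only [conjCoc]
    rw [h1, hψ.mul _ (mem_conjSub.mp hg) _ (mem_conjSub.mp hg'), conjM_add, conjM_act, h2]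

lemma isCoboundaryOn_of_conj (h : GL (Fin 2) k)
    (hc : IsCoboundaryOn (conjSub h G) (conjCoc h ψ)) : IsCoboundaryOn G ψ := by
  obtain ⟨Y, hY, hY'⟩ := hc
  refine ⟨conjM h⁻¹ Y, by rw [trace_conjM, hY], fun g hg => ?_⟩
  have h1 := hY' (h * g * h⁻¹) (conj_mem_conjSub hg)
  have h2 : h⁻¹ * (h * g * h⁻¹) * h = g := by group
  simp only [conjCoc] at h1
  rw [h2] at h1
  have h3 := congrArg (conjM h⁻¹) h1
  rw [conjM_conjM_inv, conjM_sub, conjM_act] at h3
  have h4 : h⁻¹ * (h * g * h⁻¹) * h⁻¹⁻¹ = g := by group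
  rw [h4] at h3
  exact h3

end transport

section finite

variable [Fintype k] [DecidableEq k]

/-- Averaging: if `|G|` is invertible in `k`, every cocycle on `G` is a coboundary. -/
theorem isCoboundaryOn_of_card_ne_zero (h : IsCocycleOn G ψ) (hc : (Nat.card G : k) ≠ 0) :
    IsCoboundaryOn G ψ := by
  classical
  let S : Matrix (Fin 2) (Fin 2) k := ∑ g : G, ψ g
  have hS : S.trace = 0 := trace_sum_eq_zero _ _ (fun g _ => h.tr g g.2)
  refine isCoboundaryOn_of_key S hS (Nat.card G : k) hc (fun x hx => ?_)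
  calc S = ∑ g : G, ψ (((⟨x, hx⟩ : G) * g : G) : GL (Fin 2) k) :=
        (Equiv.sum_comp (Equiv.mulLeft (⟨x, hx⟩ : G)) (fun g : G => ψ g)).symm
    _ = ∑ g : G, (ψ x + act x (ψ g)) := by
        refine Finset.sum_congr rfl fun g _ => ?_
        exact h.mul x hx g g.2
    _ = (Nat.card G : k) • ψ x + act x S := by
        rw [Finset.sum_add_distrib, Finset.sum_const, ← act_sum, Finset.card_univ,
          Nat.card_eq_fintype_card, Nat.cast_smul_eq_nsmul]

/-- A central scalar element acting non-trivially kills all cocycles. -/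
theorem isCoboundaryOn_of_scalar (h : IsCocycleOn G ψ) {z : GL (Fin 2) k} (hz : z ∈ G) {c : k}
    (hzc : z.val = Matrix.scalar (Fin 2) c) (hc : c * c ≠ 1) : IsCoboundaryOn G ψ := by
  have hc0 : c ≠ 0 := by
    rintro rfl
    have := z.det_ne_zero
    rw [hzc] at this
    simp at this
  have hact : ∀ X : Matrix (Fin 2) (Fin 2) k, act z X = (c * c) • X := by
    intro X
    have hinv : (z⁻¹ : GL (Fin 2) k).val = Matrix.scalar (Fin 2) c⁻¹ := by
      apply Units.inv_eq_of_mul_eq_one_right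
      rw [hzc, ← map_mul, mul_inv_cancel₀ hc0, map_one]
    rw [act, hinv, hzc, Matrix.scalar_apply, Matrix.scalar_apply, ← Matrix.smul_eq_diagonal_mul,
      ← Matrix.smul_eq_mul_diagonal, Matrix.det_diagonal, smul_smul, smul_smul]
    congr 1
    simp only [Finset.prod_const, Finset.card_univ, Fintype.card_fin]
    field_simp
  have hcomm : ∀ g ∈ G, ((c * c) - 1) • ψ g = act g (ψ z) - ψ z := by
    intro g hg
    have h1 := h.mul z hz g hg
    have h2 := h.mul g hg z hz
    have h3 : z * g = g * z := by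
      apply Units.ext
      rw [Units.val_mul, Units.val_mul, hzc]
      exact (Matrix.scalar_commute c (fun _ => Commute.all _ _) g.val).eq
    rw [h3, h2, hact] at h1
    rw [sub_smul, one_smul]
    have h4 : (c * c) • ψ g = ψ g + act g (ψ z) - ψ z := by
      rw [h1]; abel
    rw [h4]; abel
  have hne : c * c - 1 ≠ 0 := sub_ne_zero.mpr hc
  refine ⟨(c * c - 1)⁻¹ • ψ z, by rw [Matrix.trace_smul, h.tr z hz, smul_zero], fun g hg => ?_⟩
  rw [act_smul, ← smul_sub, ← hcomm g hg, smul_smul, inv_mul_cancel₀ hne, one_smul]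

/-- If a cocycle on `G` vanishes on a subgroup `P ≤ G` whose index in `G` is invertible in `k`,
it is a coboundary. -/
theorem isCoboundaryOn_of_vanish (h : IsCocycleOn G ψ) (P : Subgroup (GL (Fin 2) k))
    (hPG : P ≤ G) (hP : ∀ g ∈ P, ψ g = 0) (hidx : ((P.subgroupOf G).index : k) ≠ 0) :
    IsCoboundaryOn G ψ := by
  classical
  have : Fintype (G ⧸ P.subgroupOf G) := Fintype.ofFinite _
  let S : Matrix (Fin 2) (Fin 2) k := ∑ c : G ⧸ P.subgroupOf G, ψ (c.out : G)
  have hS : S.trace = 0 := trace_sum_eq_zero _ _ (fun c _ => h.tr _ (c.out : G).2)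
  refine isCoboundaryOn_of_key S hS ((P.subgroupOf G).index : k) hidx (fun x hx => ?_)
  have hconst : ∀ c : G ⧸ P.subgroupOf G,
      ψ ((((⟨x, hx⟩ : G) • c).out : G) : GL (Fin 2) k) = ψ x + act x (ψ (c.out : G)) := by
    intro c
    have h1 : (⟨x, hx⟩ : G) • c = QuotientGroup.mk ((⟨x, hx⟩ : G) * c.out) := by
      conv_lhs => rw [← QuotientGroup.out_eq' c]
      rfl
    obtain ⟨u, hu⟩ := QuotientGroup.mk_out_eq_mul (P.subgroupOf G) ((⟨x, hx⟩ : G) * c.out)
    rw [h1, hu]
    have hu' : ((u : G) : GL (Fin 2) k) ∈ P := Subgroup.mem_subgroupOf.mp u.2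
    have h2 : ((((⟨x, hx⟩ : G) * c.out * (u : G) : G)) : GL (Fin 2) k)
        = (x * ((c.out : G) : GL (Fin 2) k)) * ((u : G) : GL (Fin 2) k) := rfl
    rw [h2, h.mul _ (G.mul_mem hx (c.out : G).2) _ (hPG hu'), hP _ hu', act_zero, add_zero,
      h.mul x hx _ (c.out : G).2]
  calc S = ∑ c : G ⧸ P.subgroupOf G, ψ ((((⟨x, hx⟩ : G) • c).out : G) : GL (Fin 2) k) :=
        (Equiv.sum_comp (MulAction.toPerm (⟨x, hx⟩ : G))
          (fun c : G ⧸ P.subgroupOf G => ψ ((c.out : G) : GL (Fin 2) k))).symm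
    _ = ∑ c : G ⧸ P.subgroupOf G, (ψ x + act x (ψ (c.out : G))) :=
        Finset.sum_congr rfl fun c _ => hconst c
    _ = ((P.subgroupOf G).index : k) • ψ x + act x S := by
        rw [Finset.sum_add_distrib, Finset.sum_const, ← act_sum, Finset.card_univ,
          Subgroup.index, Nat.card_eq_fintype_card, Nat.cast_smul_eq_nsmul]

end finite

end Fermat.Agent.TW.Dickson.Cohom78
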