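import Mathlib
import Fermat.Agent.TW.Dickson.FixedPts78

/-!
# The double count for a finite subgroup of `SL₂(k)` acting on `OnePoint k`
-/

set_option autoImplicit false
set_option linter.unusedSectionVars false

namespace Fermat.Agent.TW.Dickson.Count78

open Matrix OnePoint
open scoped MatrixGroups
open Fermat.Agent.TW.Dickson.FixedPts78

variable {k : Type*} [Field k] [DecidableEq k] [Fintype k]

/-- Standing hypotheses on a subgroup `H` of `GL (Fin 2) k`: determinant one, contains `-1`,
all elements have their eigenvalues in `k`, characteristic `≠ 2`. -/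
structure Std (H : Subgroup (GL (Fin 2) k)) : Prop where
  det_one : ∀ g ∈ H, g.val.det = 1
  neg_one_mem : (-1 : GL (Fin 2) k) ∈ H
  split : ∀ g ∈ H, IsSquare g.val.discr
  two_ne : (2 : k) ≠ 0

variable (H : Subgroup (GL (Fin 2) k))

/-- Number of elements of `H` fixing `x`. -/
noncomputable def sCard (x : OnePoint k) : ℕ := Nat.card (MulAction.stabilizer H x)

/-- Number of parabolic elements of `H` fixing `x`. -/
noncomputable def parCard (x : OnePoint k) : ℕ :=
  Nat.card {g : H // (g : GL (Fin 2) k).IsParabolic ∧ g • x = x}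

/-- Number of unipotent parabolic elements of `H` fixing `x`. -/
noncomputable def uCard (x : OnePoint k) : ℕ :=
  Nat.card {g : H // (g : GL (Fin 2) k).IsParabolic ∧ (g : GL (Fin 2) k).val.trace = 2 ∧ g • x = x}

variable {H}

lemma scalar_eq_one_or_neg_one (hH : Std H) {g : GL (Fin 2) k} (hg : g ∈ H)
    (hs : g.val ∈ Set.range (Matrix.scalar (Fin 2))) : g = 1 ∨ g = -1 := by
  rw [mem_range_scalar_iff] at hs
  obtain ⟨h01, h10, hd⟩ := hs
  have hdet := hH.det_one g hg
  rw [det_eq, h01, hd, zero_mul, sub_zero] at hdet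
  have h11 : g 1 1 = 1 ∨ g 1 1 = -1 := mul_self_eq_one_iff.mp hdet
  rcases h11 with h11 | h11
  · left
    ext i j
    fin_cases i <;> fin_cases j <;> simp [h01, h10, hd, h11]
  · right
    ext i j
    fin_cases i <;> fin_cases j <;> simp [h01, h10, hd, h11]

lemma one_ne_neg_one (hH : Std H) : (1 : GL (Fin 2) k) ≠ -1 := by
  intro h
  have h00 : ((1 : GL (Fin 2) k) : Matrix (Fin 2) (Fin 2) k) 0 0
      = ((-1 : GL (Fin 2) k) : Matrix (Fin 2) (Fin 2) k) 0 0 := by rw [← h]
  simp at h00
  apply hH.two_ne
  linear_combination h00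

lemma card_onePoint : Fintype.card (OnePoint k) = Fintype.card k + 1 :=
  Fintype.card_option

open scoped Classical in
/-- Number of fixed points of an element of `H`, plus one if it is parabolic. -/
lemma fix_count (hH : Std H) (g : GL (Fin 2) k) (hg : g ∈ H) :
    ∑ x : OnePoint k, ((if g • x = x then 1 else 0) +
      (if g.IsParabolic ∧ g • x = x then 1 else 0) : ℕ)
    = 2 + (if g = 1 ∨ g = -1 then Fintype.card k - 1 else 0) := by
  classical
  have : NeZero (2 : k) := ⟨hH.two_ne⟩
  have hk : 1 ≤ Fintype.card k := Fintype.card_pos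
  by_cases hs : g.val ∈ Set.range (Matrix.scalar (Fin 2))
  · -- scalar
    have h1 := scalar_eq_one_or_neg_one hH hg hs
    have hnp : ¬ g.IsParabolic := fun h => h.1 hs
    rw [if_pos h1]
    rw [mem_range_scalar_iff] at hs
    have hfix : ∀ x : OnePoint k, g • x = x := smul_eq_self_of_scalar hs.1 hs.2.1 hs.2.2
    simp only [hfix, if_true, hnp, false_and, if_false, add_zero, Finset.sum_const,
      Finset.card_univ, card_onePoint, smul_eq_mul, mul_one]
    omega
  · have h1 : ¬ (g = 1 ∨ g = -1) := by
      rintro (h | h)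
      · exact hs ⟨1, by rw [h]; simp⟩
      · exact hs ⟨-1, by rw [h]; ext i j; fin_cases i <;> fin_cases j <;> simp⟩
    rw [if_neg h1, add_zero]
    by_cases hp : g.IsParabolic
    · -- parabolic
      have hfix : ∀ x : OnePoint k, g • x = x ↔ x = g.parabolicFixedPoint :=
        fun x => hp.smul_eq_self_iff
      simp only [hfix, hp, true_and]
      rw [Finset.sum_add_distrib]
      simp
    · -- hyperbolic
      have hd : g.val.discr ≠ 0 := fun h => hp ⟨hs, h⟩
      obtain ⟨d, hd'⟩ := hH.split g hg
      have hd0 : d ≠ 0 := by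
        rintro rfl
        exact hd (by rw [hd', mul_zero])
      obtain ⟨x₁, x₂, hne, hfix⟩ := exists_two_fixed hd0 hd'
      simp only [hp, false_and, if_false, add_zero, hfix]
      rw [← Finset.card_filter]
      have : (Finset.univ.filter fun x : OnePoint k => x = x₁ ∨ x = x₂) = {x₁, x₂} := by
        ext x; simp
      rw [this, Finset.card_pair hne]

open scoped Classical in
lemma sCard_eq_sum (x : OnePoint k) :
    sCard H x = ∑ g : H, (if g • x = x then 1 else 0) := by
  have : Nat.card (MulAction.stabilizer H x) = Nat.card {g : H // g • x = x} := rfl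
  rw [sCard, this, Nat.card_eq_fintype_card, Fintype.card_subtype, Finset.card_filter]

open scoped Classical in
lemma parCard_eq_sum (x : OnePoint k) :
    parCard H x = ∑ g : H, (if (g : GL (Fin 2) k).IsParabolic ∧ g • x = x then 1 else 0) := by
  rw [parCard, Nat.card_eq_fintype_card, Fintype.card_subtype, Finset.card_filter]

open scoped Classical in
/-- The basic double count. -/
theorem sum_identity (hH : Std H) :
    ∑ x : OnePoint k, (sCard H x + parCard H x) + 4
      = 2 * (Fintype.card k + 1) + 2 * Nat.card H := by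
  have hk : 1 ≤ Fintype.card k := Fintype.card_pos
  have h1 : ∑ x : OnePoint k, (sCard H x + parCard H x)
      = ∑ g : H, ∑ x : OnePoint k, ((if g • x = x then 1 else 0) +
          (if (g : GL (Fin 2) k).IsParabolic ∧ g • x = x then 1 else 0) : ℕ) := by
    rw [Finset.sum_comm]
    refine Finset.sum_congr rfl fun x _ => ?_
    rw [sCard_eq_sum, parCard_eq_sum, ← Finset.sum_add_distrib]
  have h2 : ∀ g : H, ∑ x : OnePoint k, ((if g • x = x then 1 else 0) +
          (if (g : GL (Fin 2) k).IsParabolic ∧ g • x = x then 1 else 0) : ℕ)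
      = 2 + (if g = 1 ∨ g = ⟨-1, hH.neg_one_mem⟩ then Fintype.card k - 1 else 0) := by
    intro g
    have := fix_count hH g.1 g.2
    have e : ((g : GL (Fin 2) k) = 1 ∨ (g : GL (Fin 2) k) = -1) ↔
        (g = 1 ∨ g = ⟨-1, hH.neg_one_mem⟩) := by
      constructor
      · rintro (h | h)
        · left; exact Subtype.ext h
        · right; exact Subtype.ext h
      · rintro (h | h)
        · left; rw [h]; rfl
        · right; rw [h]
    simp only [e] at this
    exact this
  rw [h1, Finset.sum_congr rfl (fun g _ => h2 g), Finset.sum_add_distrib, Finset.sum_const,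
    Finset.card_univ, ← Nat.card_eq_fintype_card, Finset.sum_ite, Finset.sum_const,
    Finset.sum_const_zero]
  have hcard : (Finset.univ.filter fun g : H => g = 1 ∨ g = ⟨-1, hH.neg_one_mem⟩).card = 2 := by
    have : (Finset.univ.filter fun g : H => g = 1 ∨ g = ⟨-1, hH.neg_one_mem⟩)
        = {1, ⟨-1, hH.neg_one_mem⟩} := by ext g; simp
    rw [this, Finset.card_pair]
    intro h
    exact one_ne_neg_one hH (congrArg Subtype.val h)
  rw [hcard]
  simp only [smul_eq_mul, add_zero]
  omega

lemma sCard_smul (h : H) (x : OnePoint k) : sCard H (h • x) = sCard H x :=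
  (Nat.card_congr (MulAction.stabilizerEquivStabilizer (g := h) rfl).toEquiv).symm

lemma parCard_smul (h : H) (x : OnePoint k) : parCard H (h • x) = parCard H x := by
  refine Nat.card_congr
    { toFun := fun g => ⟨h⁻¹ * g.1 * h, ?_, ?_⟩
      invFun := fun g => ⟨h * g.1 * h⁻¹, ?_, ?_⟩
      left_inv := fun g => by ext; simp [mul_assoc]
      right_inv := fun g => by ext; simp [mul_assoc] }
  · have := (GeneralLinearGroup.isParabolic_conj_iff' (h : GL (Fin 2) k) (g.1 : GL (Fin 2) k)).mpr
      g.2.1
    simpa using this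
  · rw [mul_smul, mul_smul, g.2.2, inv_smul_smul]
  · have := (GeneralLinearGroup.isParabolic_conj_iff (h : GL (Fin 2) k) (g.1 : GL (Fin 2) k)).mpr
      g.2.1
    simpa using this
  · rw [mul_smul, mul_smul, inv_smul_smul, g.2.2]

lemma neg_one_smul' (x : OnePoint k) : (-1 : GL (Fin 2) k) • x = x :=
  smul_eq_self_of_scalar (by simp) (by simp) (by simp) x

lemma two_dvd_sCard (hH : Std H) (x : OnePoint k) : 2 ∣ sCard H x := by
  let m : MulAction.stabilizer H x := ⟨⟨-1, hH.neg_one_mem⟩, neg_one_smul' x⟩
  have h2 : orderOf m = 2 := by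
    refine orderOf_eq_prime ?_ ?_
    · ext; simp [m]
    · intro h
      have := congrArg (fun t : MulAction.stabilizer H x => ((t : H) : GL (Fin 2) k)) h
      exact one_ne_neg_one hH this.symm
  rw [← h2]
  exact orderOf_dvd_natCard m

lemma two_le_sCard (hH : Std H) (x : OnePoint k) : 2 ≤ sCard H x :=
  Nat.le_of_dvd (Nat.card_pos) (two_dvd_sCard hH x)

lemma orbit_ncard_mul_sCard (x : OnePoint k) :
    (MulAction.orbit H x).ncard * sCard H x = Nat.card H := by
  rw [← MulAction.index_stabilizer, mul_comm, sCard, Subgroup.card_mul_index]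

lemma trace_of_parabolic (hH : Std H) {g : GL (Fin 2) k} (hg : g ∈ H) (hp : g.IsParabolic) :
    g.val.trace = 2 ∨ g.val.trace = -2 := by
  have h := hp.2
  rw [discr_fin_two, hH.det_one g hg] at h
  have : (g.val.trace - 2) * (g.val.trace + 2) = 0 := by linear_combination h
  rcases mul_eq_zero.mp this with h | h
  · left; linear_combination h
  · right; linear_combination h

open scoped Classical in
lemma uCard_eq_sum (x : OnePoint k) :
    uCard H x = ∑ g : H, (if (g : GL (Fin 2) k).IsParabolic ∧
      (g : GL (Fin 2) k).val.trace = 2 ∧ g • x = x then 1 else 0) := by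
  rw [uCard, Nat.card_eq_fintype_card, Fintype.card_subtype, Finset.card_filter]

open scoped Classical in
lemma parCard_eq_two_mul_uCard (hH : Std H) (x : OnePoint k) : parCard H x = 2 * uCard H x := by
  rw [parCard_eq_sum, uCard_eq_sum, two_mul]
  have hsplit : ∀ g : H, (if (g : GL (Fin 2) k).IsParabolic ∧ g • x = x then 1 else 0 : ℕ)
      = (if (g : GL (Fin 2) k).IsParabolic ∧ (g : GL (Fin 2) k).val.trace = 2 ∧ g • x = x
          then 1 else 0)
        + (if (g : GL (Fin 2) k).IsParabolic ∧ (g : GL (Fin 2) k).val.trace = -2 ∧ g • x = x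
          then 1 else 0) := by
    intro g
    by_cases hp : (g : GL (Fin 2) k).IsParabolic
    · by_cases hx : g • x = x
      · rcases trace_of_parabolic hH g.2 hp with ht | ht
        · have hne : ¬ ((g : GL (Fin 2) k).val.trace = -2) := by
            rw [ht]; intro h
            have : (2 : k) * 2 = 0 := by linear_combination h
            exact hH.two_ne (mul_self_eq_zero.mp this)
          simp [hp, hx, ht, hne]
          intro h; exact (hne (ht ▸ h)).elim
        · have hne : ¬ ((g : GL (Fin 2) k).val.trace = 2) := by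
            rw [ht]; intro h
            have : (2 : k) * 2 = 0 := by linear_combination -h
            exact hH.two_ne (mul_self_eq_zero.mp this)
          simp [hp, hx, ht, hne]
          intro h; exact (hne (ht ▸ h)).elim
      · simp [hx]
    · simp [hp]
  rw [Finset.sum_congr rfl (fun g _ => hsplit g), Finset.sum_add_distrib]
  congr 1
  -- reindex the second sum by `g ↦ -g`
  let m : H := ⟨-1, hH.neg_one_mem⟩
  rw [← Equiv.sum_comp (Equiv.mulLeft m)]
  refine Finset.sum_congr rfl fun g _ => ?_
  have h1 : ((Equiv.mulLeft m g : H) : GL (Fin 2) k) = -(g : GL (Fin 2) k) := by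
    simp [m]
  have h2 : (Equiv.mulLeft m g : H) • x = g • x := by
    change (m * g) • x = g • x
    rw [mul_smul]
    exact neg_one_smul' _
  rw [h2]
  simp only [h1]
  have h3 : (-(g : GL (Fin 2) k)).IsParabolic ↔ (g : GL (Fin 2) k).IsParabolic := by
    simp [GeneralLinearGroup.IsParabolic]
  have h4 : (-(g : GL (Fin 2) k)).val.trace = -2 ↔ (g : GL (Fin 2) k).val.trace = 2 := by
    simp [Matrix.trace_neg]
  simp only [h3, h4]

open scoped Classical in
/-- The double count in terms of unipotent elements. -/
theorem sum_identity' (hH : Std H) :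
    ∑ x : OnePoint k, (sCard H x + 2 * uCard H x) + 4
      = 2 * (Fintype.card k + 1) + 2 * Nat.card H := by
  rw [← sum_identity hH]
  congr 1
  refine Finset.sum_congr rfl fun x _ => ?_
  rw [parCard_eq_two_mul_uCard hH]

lemma uCard_smul (h : H) (x : OnePoint k) : uCard H (h • x) = uCard H x := by
  refine Nat.card_congr
    { toFun := fun g => ⟨h⁻¹ * g.1 * h, ?_, ?_, ?_⟩
      invFun := fun g => ⟨h * g.1 * h⁻¹, ?_, ?_, ?_⟩
      left_inv := fun g => by ext; simp [mul_assoc]
      right_inv := fun g => by ext; simp [mul_assoc] }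
  · have := (GeneralLinearGroup.isParabolic_conj_iff' (h : GL (Fin 2) k) (g.1 : GL (Fin 2) k)).mpr
      g.2.1
    simpa using this
  · have := g.2.2.1
    simp only [Subgroup.coe_mul, Subgroup.coe_inv, Units.val_mul, Matrix.coe_units_inv]
    rw [Matrix.trace_mul_comm, ← mul_assoc, Matrix.mul_nonsing_inv _ (by
      rw [isUnit_iff_ne_zero]; exact (h : GL (Fin 2) k).det_ne_zero), one_mul]
    exact this
  · rw [mul_smul, mul_smul, g.2.2.2, inv_smul_smul]
  · have := (GeneralLinearGroup.isParabolic_conj_iff (h : GL (Fin 2) k) (g.1 : GL (Fin 2) k)).mpr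
      g.2.1
    simpa using this
  · have := g.2.2.1
    simp only [Subgroup.coe_mul, Subgroup.coe_inv, Units.val_mul, Matrix.coe_units_inv]
    rw [Matrix.trace_mul_comm, ← mul_assoc, Matrix.nonsing_inv_mul _ (by
      rw [isUnit_iff_ne_zero]; exact (h : GL (Fin 2) k).det_ne_zero), one_mul]
    exact this
  · rw [mul_smul, mul_smul, inv_smul_smul, g.2.2.2]

end Fermat.Agent.TW.Dickson.Count78
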