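import Mathlib
import Fermat.Agent.TW.Dickson.Count78

/-!
# The stabiliser of `∞` in a finite subgroup of `SL₂(k)`
-/

set_option autoImplicit false
set_option linter.unusedSectionVars false

namespace Fermat.Agent.TW.Dickson.Borel78

open Matrix OnePoint
open scoped MatrixGroups
open Fermat.Agent.TW.Dickson.FixedPts78 Fermat.Agent.TW.Dickson.Count78

/-- A subset of a group stable under right multiplication by a subgroup has cardinality divisible
by the order of the subgroup. -/
@[to_additive]
lemma card_dvd_of_mul_mem {Γ : Type*} [Group Γ] (S : Subgroup Γ) (T : Set Γ)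
    (h : ∀ t ∈ T, ∀ s ∈ S, t * s ∈ T) : Nat.card S ∣ Nat.card T := by
  have hT : T = QuotientGroup.mk ⁻¹' ((QuotientGroup.mk : Γ → Γ ⧸ S) '' T) := by
    ext x
    constructor
    · intro hx; exact ⟨x, hx, rfl⟩
    · rintro ⟨y, hy, hxy⟩
      have h1 := QuotientGroup.eq.mp hxy
      have h2 := h y hy _ h1
      simpa using h2
  have e := QuotientGroup.preimageMkEquivSubgroupProdSet S ((QuotientGroup.mk : Γ → Γ ⧸ S) '' T)
  have h3 : Nat.card T = Nat.card S * Nat.card ((QuotientGroup.mk : Γ → Γ ⧸ S) '' T) := by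
    rw [← Nat.card_prod, ← Nat.card_congr e, ← hT]
  exact Dvd.intro _ h3.symm

variable {k : Type*} [Field k] [DecidableEq k] [Fintype k]

/-- upper unipotent matrices -/
abbrev uu (t : k) : GL (Fin 2) k := GeneralLinearGroup.upperRightHom t

lemma uu_add (s t : k) : uu (s + t) = uu s * uu t :=
  AddChar.map_add_eq_mul _ _ _

lemma uu_zero : uu (0 : k) = 1 := AddChar.map_zero_eq_one _

lemma uu_neg (t : k) : uu (-t) = (uu t)⁻¹ := AddChar.map_neg_eq_inv _ _

@[simp] lemma uu_00 (t : k) : (uu t) 0 0 = 1 := by simp [uu]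
@[simp] lemma uu_01 (t : k) : (uu t) 0 1 = t := by simp [uu]
@[simp] lemma uu_10 (t : k) : (uu t) 1 0 = 0 := by simp [uu]
@[simp] lemma uu_11 (t : k) : (uu t) 1 1 = 1 := by simp [uu]

lemma uu_injective : Function.Injective (uu : k → GL (Fin 2) k) :=
  GeneralLinearGroup.injective_upperRightHom

/-- `u_t` acts on finite points by translation. -/
lemma uu_smul_coe (t c : k) : uu t • (c : OnePoint k) = ((c + t : k) : OnePoint k) := by
  rw [smul_some_eq_ite]
  simp

lemma uu_smul_infty (t : k) : uu t • (∞ : OnePoint k) = ∞ := by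
  rw [smul_infty_eq_self_iff]; simp

/-- An upper triangular matrix with `g 0 0 = g 1 1 = 1` is `u_{g 0 1}`. -/
lemma eq_uu_of {g : GL (Fin 2) k} (h10 : g 1 0 = 0) (h00 : g 0 0 = 1) (h11 : g 1 1 = 1) :
    g = uu (g 0 1) := by
  ext i j
  fin_cases i <;> fin_cases j <;> simp [h10, h00, h11]

variable (H : Subgroup (GL (Fin 2) k))

/-- The additive group of `t` with `u_t ∈ H`. -/
def A : AddSubgroup k where
  carrier := {t | uu t ∈ H}
  zero_mem' := by
    change uu 0 ∈ H
    rw [uu_zero]; exact H.one_mem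
  add_mem' := by
    intro a b ha hb
    change uu (a + b) ∈ H
    rw [uu_add]; exact H.mul_mem ha hb
  neg_mem' := by
    intro a ha
    change uu (-a) ∈ H
    rw [uu_neg]; exact H.inv_mem ha

lemma mem_A_iff (t : k) : t ∈ A H ↔ uu t ∈ H := Iff.rfl

/-- The stabiliser of `∞` in `H`. -/
abbrev Sinf : Subgroup H := MulAction.stabilizer H (∞ : OnePoint k)

lemma mem_Sinf_iff (g : H) : g ∈ Sinf H ↔ (g : GL (Fin 2) k) 1 0 = 0 := by
  rw [MulAction.mem_stabilizer_iff]
  exact smul_infty_eq_self_iff

lemma g00_ne_zero {g : GL (Fin 2) k} (h : g 1 0 = 0) : g 0 0 ≠ 0 := by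
  intro h0
  have := det_ne_zero' g
  rw [h0, h] at this
  simp at this

/-- The character `g ↦ g 0 0` of the stabiliser of `∞`. -/
def phi : Sinf H →* kˣ where
  toFun g := Units.mk0 (((g : H) : GL (Fin 2) k) 0 0) (g00_ne_zero ((mem_Sinf_iff H g.1).mp g.2))
  map_one' := by ext; simp
  map_mul' := fun g h => by
    ext
    have h10 := (mem_Sinf_iff H h.1).mp h.2
    simp [Matrix.mul_apply, Fin.sum_univ_two, h10]

lemma phi_apply (g : Sinf H) : ((phi H g : kˣ) : k) = ((g : H) : GL (Fin 2) k) 0 0 := rfl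

variable {H}

lemma g11_of_mem_Sinf (hH : Std H) (g : Sinf H) :
    ((g : H) : GL (Fin 2) k) 0 0 * ((g : H) : GL (Fin 2) k) 1 1 = 1 := by
  have h10 := (mem_Sinf_iff H g.1).mp g.2
  have hdet := hH.det_one _ g.1.2
  rw [det_eq, h10, mul_zero, sub_zero] at hdet
  exact hdet

/-- The kernel of `phi` is `{u_t : t ∈ A}`. -/
noncomputable def kerPhiEquiv (hH : Std H) : (phi H).ker ≃ A H where
  toFun g := ⟨((g : Sinf H) : H).1 0 1, by
    have h10 := (mem_Sinf_iff H g.1.1).mp g.1.2
    have h00 : ((g : Sinf H) : H).1 0 0 = 1 := by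
      have := g.2
      rw [MonoidHom.mem_ker] at this
      have := congrArg (fun u : kˣ => (u : k)) this
      simpa [phi_apply] using this
    have h11 : ((g : Sinf H) : H).1 1 1 = 1 := by
      have := g11_of_mem_Sinf hH g.1
      rw [h00, one_mul] at this
      exact this
    rw [mem_A_iff, ← eq_uu_of h10 h00 h11]
    exact g.1.1.2⟩
  invFun t := ⟨⟨⟨uu t.1, t.2⟩, by
      rw [mem_Sinf_iff]; simp⟩, by
      rw [MonoidHom.mem_ker]; ext; simp [phi_apply]⟩
  left_inv g := by
    have h10 := (mem_Sinf_iff H g.1.1).mp g.1.2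
    have h00 : ((g : Sinf H) : H).1 0 0 = 1 := by
      have := g.2
      rw [MonoidHom.mem_ker] at this
      have := congrArg (fun u : kˣ => (u : k)) this
      simpa [phi_apply] using this
    have h11 : ((g : Sinf H) : H).1 1 1 = 1 := by
      have := g11_of_mem_Sinf hH g.1
      rw [h00, one_mul] at this
      exact this
    apply Subtype.ext; apply Subtype.ext; apply Subtype.ext
    exact (eq_uu_of h10 h00 h11).symm
  right_inv t := by
    apply Subtype.ext
    simp

lemma card_ker_phi (hH : Std H) : Nat.card (phi H).ker = Nat.card (A H) :=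
  Nat.card_congr (kerPhiEquiv hH)

lemma sCard_infty (hH : Std H) :
    sCard H (∞ : OnePoint k) = Nat.card (A H) * Nat.card (phi H).range := by
  rw [sCard, ← card_ker_phi hH, ← Subgroup.index_ker, Subgroup.card_mul_index]

variable (H) in
/-- The squaring map on the image of `phi`. -/
def sqE : (phi H).range →* kˣ := (powMonoidHom 2).comp (phi H).range.subtype

lemma sqE_apply (a : (phi H).range) : sqE H a = (a : kˣ) ^ 2 := rfl

/-- The element `-1` of the stabiliser of `∞`. -/
def negOneSinf (hH : Std H) : Sinf H := ⟨⟨-1, hH.neg_one_mem⟩, neg_one_smul' _⟩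

lemma phi_negOne (hH : Std H) : phi H (negOneSinf hH) = -1 := by
  ext; simp [phi_apply, negOneSinf]

lemma card_ker_sqE (hH : Std H) : Nat.card (sqE H).ker = 2 := by
  rw [Nat.card_eq_two_iff]
  refine ⟨1, ⟨⟨-1, ⟨negOneSinf hH, phi_negOne hH⟩⟩, ?_⟩, ?_, ?_⟩
  · rw [MonoidHom.mem_ker, sqE_apply]; simp
  · intro h
    have h1 := congrArg (fun a : (sqE H).ker => (((a : (phi H).range) : kˣ) : k)) h
    simp only [OneMemClass.coe_one, Units.val_one, Units.val_neg] at h1
    apply hH.two_ne
    linear_combination h1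
  · ext a
    simp only [Set.mem_insert_iff, Set.mem_singleton_iff, Set.mem_univ, iff_true]
    have ha := a.2
    rw [MonoidHom.mem_ker, sqE_apply] at ha
    have ha' : ((a : (phi H).range) : kˣ) = 1 ∨ ((a : (phi H).range) : kˣ) = -1 := by
      have : (((a : (phi H).range) : kˣ) : k) * (((a : (phi H).range) : kˣ) : k) = 1 := by
        have := congrArg (fun u : kˣ => (u : k)) ha
        simpa [sq] using this
      rcases mul_self_eq_one_iff.mp this with h | h
      · left; ext; exact h
      · right; ext; simpa using h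
    rcases ha' with h | h
    · left; apply Subtype.ext; apply Subtype.ext; exact h
    · right; apply Subtype.ext; apply Subtype.ext; exact h

lemma card_range_phi (hH : Std H) :
    Nat.card (phi H).range = 2 * Nat.card (sqE H).range := by
  have h := Subgroup.card_mul_index (sqE H).ker
  rw [card_ker_sqE hH, Subgroup.index_ker] at h
  exact h.symm

/-- `|Stab(∞)| = 2 q e`. -/
lemma sCard_infty' (hH : Std H) :
    sCard H (∞ : OnePoint k) = 2 * Nat.card (A H) * Nat.card (sqE H).range := by
  rw [sCard_infty hH, card_range_phi hH]; ring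

/-- Conjugation by an element of the stabiliser of `∞` multiplies `t` by `a²`. -/
lemma sq_mul_mem_A (hH : Std H) (g : Sinf H) {t : k} (ht : t ∈ A H) :
    ((phi H g : kˣ) : k) ^ 2 * t ∈ A H := by
  rw [mem_A_iff]
  have h10 := (mem_Sinf_iff H g.1).mp g.2
  have hd := g11_of_mem_Sinf hH g
  have hconj : uu (((phi H g : kˣ) : k) ^ 2 * t) * ((g : H) : GL (Fin 2) k)
      = ((g : H) : GL (Fin 2) k) * uu t := by
    ext i j
    fin_cases i <;> fin_cases j <;>
      simp [Matrix.mul_apply, Fin.sum_univ_two, h10, phi_apply]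
    linear_combination (((g : H) : GL (Fin 2) k) 0 0 * t) * hd
  have h2 : uu (((phi H g : kˣ) : k) ^ 2 * t)
      = ((g : H) : GL (Fin 2) k) * uu t * ((g : H) : GL (Fin 2) k)⁻¹ := by
    rw [← hconj]; group
  rw [h2]
  exact H.mul_mem (H.mul_mem g.1.2 ht) (H.inv_mem g.1.2)

/-- `e ∣ q - 1`. -/
lemma card_range_sqE_dvd (hH : Std H) : Nat.card (sqE H).range ∣ Nat.card (A H) - 1 := by
  classical
  let T : Set kˣ := {u | (u : k) ∈ A H}
  have hT : Nat.card T = Nat.card (A H) - 1 := by
    have e : T ≃ {t : A H // t ≠ 0} :=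
      { toFun := fun u => ⟨⟨(u.1 : k), u.2⟩, fun h => u.1.ne_zero (congrArg Subtype.val h)⟩
        invFun := fun t => ⟨Units.mk0 (t.1 : k) (fun h => t.2 (Subtype.ext h)), t.1.2⟩
        left_inv := fun u => by ext; simp
        right_inv := fun t => by ext; simp }
    rw [Nat.card_congr e]
    have : Fintype (A H) := Fintype.ofFinite _
    rw [Nat.card_eq_fintype_card, Nat.card_eq_fintype_card]
    exact Set.card_ne_eq (0 : A H)
  rw [← hT]
  apply card_dvd_of_mul_mem
  rintro u hu b ⟨a, rfl⟩
  obtain ⟨g, hg⟩ := a.2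
  have := sq_mul_mem_A hH g hu
  change ((u * sqE H a : kˣ) : k) ∈ A H
  rw [sqE_apply, ← hg, Units.val_mul, Units.val_pow_eq_pow_val, mul_comm]
  exact this

lemma uu_isParabolic {t : k} (ht : t ≠ 0) : (uu t).IsParabolic := by
  rw [GeneralLinearGroup.isParabolic_iff_of_upperTriangular (by simp)]
  simp [ht]

lemma uu_trace (t : k) : (uu t).val.trace = 2 := by
  rw [Matrix.trace_fin_two]
  have h0 : (uu t).val 0 0 = 1 := uu_00 t
  have h1 : (uu t).val 1 1 = 1 := uu_11 t
  rw [h0, h1]; norm_num

/-- A unipotent parabolic element fixing `∞` is `u_t` with `t ≠ 0`. -/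
lemma eq_uu_of_unipotent (hH : Std H) {g : GL (Fin 2) k} (hp : g.IsParabolic)
    (htr : g.val.trace = 2) (hfix : g • (∞ : OnePoint k) = ∞) :
    g = uu (g 0 1) ∧ g 0 1 ≠ 0 := by
  have h10 : g 1 0 = 0 := smul_infty_eq_self_iff.mp hfix
  have hp' := (GeneralLinearGroup.isParabolic_iff_of_upperTriangular h10).mp hp
  rw [Matrix.trace_fin_two] at htr
  have h00 : g 0 0 = 1 := by
    have h2 : (2 : k) * (g 0 0 - 1) = 0 := by
      have := hp'.1
      linear_combination htr + this
    rcases mul_eq_zero.mp h2 with h | h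
    · exact (hH.two_ne h).elim
    · linear_combination h
  have h11 : g 1 1 = 1 := by rw [← hp'.1, h00]
  exact ⟨eq_uu_of h10 h00 h11, hp'.2⟩

lemma uCard_infty (hH : Std H) : uCard H (∞ : OnePoint k) = Nat.card (A H) - 1 := by
  classical
  have e : {g : H // (g : GL (Fin 2) k).IsParabolic ∧ (g : GL (Fin 2) k).val.trace = 2 ∧
      g • (∞ : OnePoint k) = ∞} ≃ {t : A H // t ≠ 0} :=
    { toFun := fun g => ⟨⟨(g.1 : GL (Fin 2) k) 0 1, by
          have := (eq_uu_of_unipotent hH g.2.1 g.2.2.1 g.2.2.2).1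
          rw [mem_A_iff, ← this]; exact g.1.2⟩, fun h =>
          (eq_uu_of_unipotent hH g.2.1 g.2.2.1 g.2.2.2).2 (congrArg Subtype.val h)⟩
      invFun := fun t => ⟨⟨uu (t.1 : k), t.1.2⟩,
        uu_isParabolic (fun h => t.2 (Subtype.ext h)), uu_trace _, uu_smul_infty _⟩
      left_inv := fun g => by
        apply Subtype.ext; apply Subtype.ext
        exact (eq_uu_of_unipotent hH g.2.1 g.2.2.1 g.2.2.2).1.symm
      right_inv := fun t => by
        apply Subtype.ext; apply Subtype.ext
        simp }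
  rw [uCard, Nat.card_congr e]
  have : Fintype (A H) := Fintype.ofFinite _
  rw [Nat.card_eq_fintype_card, Nat.card_eq_fintype_card]
  exact Set.card_ne_eq (0 : A H)

end Fermat.Agent.TW.Dickson.Borel78
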