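import Mathlib
import Fermat.Agent.TW.Dickson.Borel78

/-!
# The orbit of `∞` and Dickson's counting argument
-/

set_option autoImplicit false
set_option linter.unusedSectionVars false

namespace Fermat.Agent.TW.Dickson.Orbit78

open Matrix OnePoint
open scoped MatrixGroups
open Fermat.Agent.TW.Dickson.FixedPts78 Fermat.Agent.TW.Dickson.Count78
  Fermat.Agent.TW.Dickson.Borel78

variable {k : Type*} [Field k] [DecidableEq k] [Fintype k]

/-- lower unipotent matrices -/
def ll (s : k) : GL (Fin 2) k :=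
  ⟨!![1, 0; s, 1], !![1, 0; -s, 1], by simp [Matrix.one_fin_two], by simp [Matrix.one_fin_two]⟩

@[simp] lemma ll_00 (s : k) : (ll s) 0 0 = 1 := by simp [ll]
@[simp] lemma ll_01 (s : k) : (ll s) 0 1 = 0 := by simp [ll]
@[simp] lemma ll_10 (s : k) : (ll s) 1 0 = s := by simp [ll]
@[simp] lemma ll_11 (s : k) : (ll s) 1 1 = 1 := by simp [ll]

lemma ll_trace (s : k) : (ll s).val.trace = 2 := by
  rw [Matrix.trace_fin_two]
  have h0 : (ll s).val 0 0 = 1 := ll_00 s
  have h1 : (ll s).val 1 1 = 1 := ll_11 s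
  rw [h0, h1]; norm_num

lemma ll_isParabolic {s : k} (hs : s ≠ 0) : (ll s).IsParabolic := by
  constructor
  · rw [mem_range_scalar_iff]
    simp [hs]
  · rw [Matrix.discr_fin_two, ll_trace, Matrix.det_fin_two]
    have h0 : (ll s).val 0 0 = 1 := ll_00 s
    have h1 : (ll s).val 1 1 = 1 := ll_11 s
    have h2 : (ll s).val 0 1 = 0 := ll_01 s
    rw [h0, h1, h2]; ring

lemma ll_smul_zero (s : k) : ll s • ((0 : k) : OnePoint k) = ((0 : k) : OnePoint k) := by
  rw [smul_some_eq_ite]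
  simp

lemma ll_smul_infty {s : k} (hs : s ≠ 0) : ll s • (∞ : OnePoint k) = ((s⁻¹ : k) : OnePoint k) := by
  rw [smul_infty_eq_ite]
  simp [hs]

variable (H : Subgroup (GL (Fin 2) k))

/-- The orbit of `∞`. -/
abbrev OO : Set (OnePoint k) := MulAction.orbit H (∞ : OnePoint k)

/-- The finite part of the orbit of `∞`. -/
def Ofin : Set k := {c | (c : OnePoint k) ∈ OO H}

variable {H}

lemma mem_OO_of_smul {x : OnePoint k} (hx : x ∈ OO H) {g : GL (Fin 2) k} (hg : g ∈ H) :
    g • x ∈ OO H := by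
  have : (⟨g, hg⟩ : H) • x ∈ OO H := MulAction.mem_orbit_of_mem_orbit _ hx
  exact this

lemma infty_mem_OO : (∞ : OnePoint k) ∈ OO H := MulAction.mem_orbit_self _

lemma OO_eq : OO H = insert (∞ : OnePoint k) ((fun c : k => (c : OnePoint k)) '' Ofin H) := by
  ext x
  constructor
  · intro hx
    cases x with
    | infty => exact Set.mem_insert _ _
    | coe c => exact Set.mem_insert_of_mem _ ⟨c, hx, rfl⟩
  · rintro (rfl | ⟨c, hc, rfl⟩)
    · exact infty_mem_OO
    · exact hc

lemma ncard_OO : (OO H).ncard = (Ofin H).ncard + 1 := by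
  rw [OO_eq, Set.ncard_insert_of_notMem, Set.ncard_image_of_injective _ OnePoint.coe_injective]
  rintro ⟨c, _, hc⟩
  exact OnePoint.coe_ne_infty c hc

lemma card_A_dvd_ncard_Ofin : Nat.card (A H) ∣ (Ofin H).ncard := by
  rw [← Nat.card_coe_set_eq]
  apply card_dvd_of_add_mem
  intro c hc t ht
  change ((c + t : k) : OnePoint k) ∈ OO H
  rw [← uu_smul_coe]
  exact mem_OO_of_smul hc ht

section charp

lemma pow_p_eq_one_of_unipotent (p : ℕ) [Fact p.Prime] [CharP k p] (h2 : (2 : k) ≠ 0) {g : GL (Fin 2) k} (hp : g.IsParabolic)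
    (htr : g.val.trace = 2) : g ^ p = 1 := by
  have : NeZero (2 : k) := ⟨h2⟩
  have hsq : (g.val - 1) ^ 2 = 0 := by
    have := hp.sub_eigenvalue_sq_eq_zero
    rw [Matrix.parabolicEigenvalue, htr, div_self h2, map_one] at this
    exact this
  have hp2 : 2 ≤ p := (Fact.out : p.Prime).two_le
  have hpow : (g.val - 1) ^ p = 0 := by
    obtain ⟨r, rfl⟩ := Nat.exists_eq_add_of_le hp2
    rw [pow_add, hsq, zero_mul]
  apply Units.ext
  rw [Units.val_pow_eq_pow_val, Units.val_one]
  have h1 : g.val = 1 + (g.val - 1) := by abel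
  rw [h1, add_pow_char_of_commute _ (Commute.one_left _), one_pow, hpow, add_zero]

lemma p_dvd_card_A {p : ℕ} [Fact p.Prime] [CharP k p] (hA : ∃ t : k, t ≠ 0 ∧ t ∈ A H) : p ∣ Nat.card (A H) := by
  obtain ⟨t, ht0, ht⟩ := hA
  have h1 : addOrderOf (⟨t, ht⟩ : A H) = p := by
    apply addOrderOf_eq_prime
    · apply Subtype.ext
      simp only [AddSubgroup.coe_nsmul, nsmul_eq_mul, CharP.cast_eq_zero, zero_mul,
        ZeroMemClass.coe_zero]
    · intro h
      exact ht0 (congrArg Subtype.val h)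
  rw [← h1]
  exact addOrderOf_dvd_natCard _

lemma not_dvd_card_OO {p : ℕ} [Fact p.Prime] [CharP k p] (hA : ∃ t : k, t ≠ 0 ∧ t ∈ A H) :
    ¬ p ∣ Nat.card (OO H) := by
  rw [Nat.card_coe_set_eq, ncard_OO]
  intro h
  have h1 : p ∣ (Ofin H).ncard := (p_dvd_card_A hA).trans card_A_dvd_ncard_Ofin
  have h2 : p ∣ 1 := (Nat.dvd_add_right h1).mp h
  exact (Fact.out : p.Prime).one_lt.ne' (Nat.dvd_one.mp h2)

/-- The fixed point of a unipotent parabolic element of `H` lies in the orbit of `∞`. -/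
lemma fixed_mem_OO (p : ℕ) [Fact p.Prime] [CharP k p] (hH : Std H) (hA : ∃ t : k, t ≠ 0 ∧ t ∈ A H) {g : GL (Fin 2) k} (hg : g ∈ H)
    (hp : g.IsParabolic) (htr : g.val.trace = 2) {x : OnePoint k} (hx : g • x = x) :
    x ∈ OO H := by
  have : NeZero (2 : k) := ⟨hH.two_ne⟩
  let P : Subgroup H := Subgroup.zpowers (⟨g, hg⟩ : H)
  have hP : IsPGroup p P := by
    rintro ⟨s, hs⟩
    refine ⟨1, ?_⟩
    obtain ⟨j, rfl⟩ := Subgroup.mem_zpowers_iff.mp hs
    apply Subtype.ext
    rw [pow_one]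
    change ((⟨g, hg⟩ : H) ^ j) ^ p = 1
    rw [← zpow_natCast, ← _root_.zpow_mul, mul_comm, _root_.zpow_mul, zpow_natCast]
    have : (⟨g, hg⟩ : H) ^ p = 1 := by
      apply Subtype.ext
      exact pow_p_eq_one_of_unipotent p hH.two_ne hp htr
    rw [this, _root_.one_zpow]
  obtain ⟨y, hy⟩ := hP.nonempty_fixed_point_of_prime_not_dvd_card (OO H)
    (not_dvd_card_OO (p := p) hA)
  have hgy : g • (y : OnePoint k) = y := by
    have := hy ⟨⟨g, hg⟩, Subgroup.mem_zpowers _⟩
    exact congrArg Subtype.val this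
  have h1 := hp.smul_eq_self_iff.mp hgy
  have h2 := hp.smul_eq_self_iff.mp hx
  rw [h2, ← h1]
  exact y.2

end charp

section sums

open scoped Classical in
lemma card_filter_mem (S : Set (OnePoint k)) :
    (Finset.univ.filter (· ∈ S)).card = S.ncard := by
  rw [Set.ncard_eq_toFinset_card', Set.toFinset_card, Fintype.card_subtype]

open scoped Classical in
lemma sum_orbit_eq (f : OnePoint k → ℤ) (hf : ∀ (g : H) (x : OnePoint k), f (g • x) = f x)
    (x : OnePoint k) :
    ∑ y ∈ Finset.univ.filter (· ∈ MulAction.orbit H x), f y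
      = (MulAction.orbit H x).ncard * f x := by
  rw [Finset.sum_congr rfl (g := fun _ => f x), Finset.sum_const, card_filter_mem, nsmul_eq_mul]
  intro y hy
  rw [Finset.mem_filter] at hy
  obtain ⟨g, rfl⟩ := hy.2
  exact hf g x

end sums

section main

lemma sCard_of_mem_OO (hH : Std H) {x : OnePoint k} (hx : x ∈ OO H) :
    sCard H x = 2 * Nat.card (A H) * Nat.card (sqE H).range := by
  obtain ⟨g, rfl⟩ := hx
  rw [sCard_smul, sCard_infty' hH]

lemma uCard_of_mem_OO (hH : Std H) {x : OnePoint k} (hx : x ∈ OO H) :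
    uCard H x = Nat.card (A H) - 1 := by
  obtain ⟨g, rfl⟩ := hx
  rw [uCard_smul, uCard_infty hH]

lemma uCard_of_notMem_OO (p : ℕ) [Fact p.Prime] [CharP k p] (hH : Std H)
    (hA : ∃ t : k, t ≠ 0 ∧ t ∈ A H) {x : OnePoint k} (hx : x ∉ OO H) : uCard H x = 0 := by
  rw [uCard, Nat.card_eq_zero]
  left
  constructor
  rintro ⟨g, hp, htr, hfix⟩
  exact hx (fixed_mem_OO p hH hA g.2 hp htr hfix)

lemma zero_mem_OO (p : ℕ) [Fact p.Prime] [CharP k p] (hH : Std H)
    (hA : ∃ t : k, t ≠ 0 ∧ t ∈ A H) (hL : ∃ s : k, s ≠ 0 ∧ ll s ∈ H) :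
    ((0 : k) : OnePoint k) ∈ OO H := by
  obtain ⟨s, hs0, hs⟩ := hL
  exact fixed_mem_OO p hH hA hs (ll_isParabolic hs0) (ll_trace s) (ll_smul_zero s)

lemma card_H_eq (hH : Std H) :
    Nat.card H = (OO H).ncard * (2 * Nat.card (A H) * Nat.card (sqE H).range) := by
  rw [← sCard_infty' hH, orbit_ncard_mul_sCard]

lemma three_le_card_A (p : ℕ) [Fact p.Prime] [CharP k p] (hH : Std H)
    (hA : ∃ t : k, t ≠ 0 ∧ t ∈ A H) : 3 ≤ Nat.card (A H) := by
  have h1 : p ∣ Nat.card (A H) := p_dvd_card_A hA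
  have h2 : 0 < Nat.card (A H) := Nat.card_pos
  have h3 : p ≤ Nat.card (A H) := Nat.le_of_dvd h2 h1
  have hp : p.Prime := Fact.out
  have hp2 : p ≠ 2 := by
    rintro rfl
    apply hH.two_ne
    have := CharP.cast_eq_zero k 2
    simpa using this
  have : 2 ≤ p := hp.two_le
  omega

lemma two_le_ncard_OO (p : ℕ) [Fact p.Prime] [CharP k p] (hH : Std H)
    (hA : ∃ t : k, t ≠ 0 ∧ t ∈ A H) (hL : ∃ s : k, s ≠ 0 ∧ ll s ∈ H) :
    2 ≤ (OO H).ncard := by
  rw [ncard_OO]
  have : 0 < (Ofin H).ncard := by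
    rw [Set.ncard_pos]
    exact ⟨0, zero_mem_OO p hH hA hL⟩
  omega

open scoped Classical in
/-- The sum of `sCard - 2` over the complement of the orbit of `∞`. -/
lemma sum_compl (p : ℕ) [Fact p.Prime] [CharP k p] (hH : Std H)
    (hA : ∃ t : k, t ≠ 0 ∧ t ∈ A H) :
    ∑ x ∈ (Finset.univ.filter (· ∈ OO H))ᶜ, ((sCard H x : ℤ) - 2)
      = 2 * (OO H).ncard * Nat.card (A H) * Nat.card (sqE H).range
        - 2 * (OO H).ncard * Nat.card (A H) + 4 * (OO H).ncard - 4 := by
  set q := Nat.card (A H) with hq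
  set e := Nat.card (sqE H).range with he
  set n := (OO H).ncard with hn
  have hq3 : 3 ≤ q := three_le_card_A p hH hA
  have hcard : Nat.card H = n * (2 * q * e) := card_H_eq hH
  set OF : Finset (OnePoint k) := Finset.univ.filter (· ∈ OO H) with hOFdef
  have hOF : OF.card = n := card_filter_mem _
  have hID : ∑ x : OnePoint k, ((sCard H x : ℤ) + 2 * (uCard H x : ℤ)) + 4
      = 2 * ((Fintype.card k : ℤ) + 1) + 2 * (Nat.card H : ℤ) := by
    have := sum_identity' hH
    exact_mod_cast this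
  have hsplit : ∑ x : OnePoint k, ((sCard H x : ℤ) + 2 * (uCard H x : ℤ))
      = ∑ x ∈ OF, ((sCard H x : ℤ) + 2 * (uCard H x : ℤ))
        + ∑ x ∈ OFᶜ, ((sCard H x : ℤ) + 2 * (uCard H x : ℤ)) :=
    (Finset.sum_add_sum_compl OF _).symm
  have hO : ∑ x ∈ OF, ((sCard H x : ℤ) + 2 * (uCard H x : ℤ))
      = n * (2 * q * e + 2 * (q - 1)) := by
    rw [Finset.sum_congr rfl (g := fun _ => ((2 * q * e : ℕ) : ℤ) + 2 * ((q - 1 : ℕ) : ℤ)),
      Finset.sum_const, hOF]
    · rw [Nat.cast_sub (by omega)]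
      push_cast
      ring
    · intro x hx
      have hx' : x ∈ OO H := (Finset.mem_filter.mp hx).2
      rw [sCard_of_mem_OO hH hx', uCard_of_mem_OO hH hx']
  have hOc : ∑ x ∈ OFᶜ, ((sCard H x : ℤ) + 2 * (uCard H x : ℤ))
      = ∑ x ∈ OFᶜ, (sCard H x : ℤ) := by
    refine Finset.sum_congr rfl fun x hx => ?_
    have hx' : x ∉ OO H := by
      rw [Finset.mem_compl, hOFdef, Finset.mem_filter] at hx
      exact fun h => hx ⟨Finset.mem_univ _, h⟩
    rw [uCard_of_notMem_OO p hH hA hx']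
    simp
  have hOcc : (OFᶜ.card : ℤ) = ((Fintype.card k : ℤ) + 1) - n := by
    rw [Finset.card_compl, hOF, card_onePoint, Nat.cast_sub]
    · push_cast; ring
    · rw [← hOF, ← card_onePoint]
      exact Finset.card_le_univ _
  rw [Finset.sum_sub_distrib, Finset.sum_const, nsmul_eq_mul, hOcc]
  have hcard' : (Nat.card H : ℤ) = n * (2 * q * e) := by exact_mod_cast hcard
  rw [hsplit, hO, hOc, hcard'] at hID
  linear_combination hID

lemma notMem_OO_of_mem_orbit {x y : OnePoint k} (hx : x ∉ OO H) (hy : y ∈ MulAction.orbit H x) :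
    y ∉ OO H := by
  intro h
  apply hx
  have h1 : MulAction.orbit H y = MulAction.orbit H x := MulAction.orbit_eq_iff.mpr hy
  have h2 : MulAction.orbit H y = OO H := MulAction.orbit_eq_iff.mpr h
  have : x ∈ MulAction.orbit H x := MulAction.mem_orbit_self x
  rw [← h1, h2] at this
  exact this

open scoped Classical in
/-- Sum of `sCard - 2` over an orbit. -/
lemma sum_orbit_f (x : OnePoint k) :
    ∑ y ∈ Finset.univ.filter (· ∈ MulAction.orbit H x), ((sCard H y : ℤ) - 2)
      = (Nat.card H : ℤ) - 2 * (MulAction.orbit H x).ncard := by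
  rw [sum_orbit_eq (fun y => (sCard H y : ℤ) - 2) (fun g y => by simp only [sCard_smul]) x]
  have := orbit_ncard_mul_sCard (H := H) x
  have h' : ((MulAction.orbit H x).ncard : ℤ) * (sCard H x : ℤ) = (Nat.card H : ℤ) := by
    exact_mod_cast this
  linear_combination h'

open scoped Classical in
/-- Dickson's equation: there is a second non-free orbit, of size `n (q - 2) + 2`. -/
theorem key_equation (p : ℕ) [Fact p.Prime] [CharP k p] (hH : Std H)
    (hA : ∃ t : k, t ≠ 0 ∧ t ∈ A H) (hL : ∃ s : k, s ≠ 0 ∧ ll s ∈ H) :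
    ∃ e1 : ℕ, ((OO H).ncard * (Nat.card (A H) - 2) + 2) * e1
      = Nat.card (A H) * Nat.card (sqE H).range * (OO H).ncard := by
  have hT := sum_compl p hH hA
  have hq3 : 3 ≤ Nat.card (A H) := three_le_card_A p hH hA
  have hn2 : 2 ≤ (OO H).ncard := two_le_ncard_OO p hH hA hL
  have he1 : 1 ≤ Nat.card (sqE H).range := Nat.card_pos
  have hcard : Nat.card H = (OO H).ncard * (2 * Nat.card (A H) * Nat.card (sqE H).range) :=
    card_H_eq hH
  set q := Nat.card (A H) with hq
  set e := Nat.card (sqE H).range with he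
  set n := (OO H).ncard with hn
  set OF : Finset (OnePoint k) := Finset.univ.filter (· ∈ OO H) with hOFdef
  have hcard' : (Nat.card H : ℤ) = n * (2 * q * e) := by exact_mod_cast hcard
  have hqZ : (3 : ℤ) ≤ q := by exact_mod_cast hq3
  have hnZ : (2 : ℤ) ≤ n := by exact_mod_cast hn2
  have heZ : (1 : ℤ) ≤ e := by exact_mod_cast he1
  have hmemc : ∀ x, x ∈ OFᶜ ↔ x ∉ OO H := by
    intro x
    rw [Finset.mem_compl, hOFdef, Finset.mem_filter]
    simp
  have hf0 : ∀ x, (0 : ℤ) ≤ (sCard H x : ℤ) - 2 := by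
    intro x
    have := two_le_sCard hH x
    have : (2 : ℤ) ≤ (sCard H x : ℤ) := by exact_mod_cast this
    linarith
  -- T > 0
  have hTpos : 0 < ∑ x ∈ OFᶜ, ((sCard H x : ℤ) - 2) := by
    rw [hT]
    nlinarith [mul_nonneg (mul_nonneg (by linarith : (0:ℤ) ≤ n) (by linarith : (0:ℤ) ≤ q))
      (by linarith : (0:ℤ) ≤ (e:ℤ) - 1)]
  -- a bad point
  obtain ⟨x1, hx1, hfx1⟩ : ∃ x1 ∈ OFᶜ, 0 < (sCard H x1 : ℤ) - 2 := by
    by_contra hcon
    push Not at hcon
    have := Finset.sum_nonpos hcon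
    linarith
  have hx1' : x1 ∉ OO H := (hmemc x1).mp hx1
  -- properties of bad orbits
  have hbad : ∀ y, y ∉ OO H → 0 < (sCard H y : ℤ) - 2 →
      (Finset.univ.filter (· ∈ MulAction.orbit H y)) ⊆ OFᶜ ∧
      (Nat.card H : ℤ) ≤ 2 * ∑ z ∈ Finset.univ.filter (· ∈ MulAction.orbit H y),
        ((sCard H z : ℤ) - 2) := by
    intro y hy hfy
    constructor
    · intro z hz
      rw [hmemc]
      exact notMem_OO_of_mem_orbit hy (Finset.mem_filter.mp hz).2
    · rw [sum_orbit_f]
      have h2 : 2 ∣ sCard H y := two_dvd_sCard hH y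
      have h4 : 4 ≤ sCard H y := by
        have : 2 < sCard H y := by
          have : (2 : ℤ) < (sCard H y : ℤ) := by linarith
          exact_mod_cast this
        omega
      have := orbit_ncard_mul_sCard (H := H) y
      have h5 : (MulAction.orbit H y).ncard * 4 ≤ Nat.card H := by
        rw [← this]
        exact Nat.mul_le_mul_left _ h4
      have h6 : ((MulAction.orbit H y).ncard : ℤ) * 4 ≤ (Nat.card H : ℤ) := by exact_mod_cast h5
      linarith
  -- all bad points are in the orbit of x1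
  have hall : ∀ y ∈ OFᶜ, y ∉ Finset.univ.filter (· ∈ MulAction.orbit H x1) →
      (sCard H y : ℤ) - 2 = 0 := by
    intro y hy hyo
    by_contra hne
    have hfy : 0 < (sCard H y : ℤ) - 2 := lt_of_le_of_ne (hf0 y) (Ne.symm hne)
    have hy' : y ∉ OO H := (hmemc y).mp hy
    obtain ⟨hs1, hb1⟩ := hbad x1 hx1' hfx1
    obtain ⟨hs2, hb2⟩ := hbad y hy' hfy
    have hdisj : Disjoint (Finset.univ.filter (· ∈ MulAction.orbit H x1))
        (Finset.univ.filter (· ∈ MulAction.orbit H y)) := by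
      rw [Finset.disjoint_left]
      intro z hz1 hz2
      apply hyo
      have h1 : MulAction.orbit H z = MulAction.orbit H x1 :=
        MulAction.orbit_eq_iff.mpr (Finset.mem_filter.mp hz1).2
      have h2 : MulAction.orbit H z = MulAction.orbit H y :=
        MulAction.orbit_eq_iff.mpr (Finset.mem_filter.mp hz2).2
      rw [Finset.mem_filter]
      refine ⟨Finset.mem_univ _, ?_⟩
      rw [← h1, h2]
      exact MulAction.mem_orbit_self y
    have hle : ∑ z ∈ (Finset.univ.filter (· ∈ MulAction.orbit H x1)) ∪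
        (Finset.univ.filter (· ∈ MulAction.orbit H y)), ((sCard H z : ℤ) - 2)
        ≤ ∑ z ∈ OFᶜ, ((sCard H z : ℤ) - 2) :=
      Finset.sum_le_sum_of_subset_of_nonneg (Finset.union_subset hs1 hs2)
        (fun z _ _ => hf0 z)
    rw [Finset.sum_union hdisj, hT] at hle
    rw [hcard'] at hb1 hb2
    nlinarith [mul_nonneg (by linarith : (0:ℤ) ≤ n) (by linarith : (0:ℤ) ≤ (q:ℤ) - 2)]
  obtain ⟨hs1, -⟩ := hbad x1 hx1' hfx1
  have hsum : ∑ z ∈ Finset.univ.filter (· ∈ MulAction.orbit H x1), ((sCard H z : ℤ) - 2)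
      = ∑ z ∈ OFᶜ, ((sCard H z : ℤ) - 2) := Finset.sum_subset hs1 hall
  rw [sum_orbit_f, hT, hcard'] at hsum
  -- c1 = n (q - 2) + 2
  have hc1 : ((MulAction.orbit H x1).ncard : ℤ) = n * (q - 2) + 2 := by
    have h2 : (2 : ℤ) * ((MulAction.orbit H x1).ncard : ℤ) = 2 * (n * (q - 2) + 2) := by
      linear_combination -hsum
    exact mul_left_cancel₀ two_ne_zero h2
  have hc1' : (MulAction.orbit H x1).ncard = n * (q - 2) + 2 := by
    have : ((n * (q - 2) + 2 : ℕ) : ℤ) = n * (q - 2) + 2 := by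
      rw [Nat.cast_add, Nat.cast_mul, Nat.cast_sub (by omega)]
      push_cast; ring
    rw [← this] at hc1
    exact_mod_cast hc1
  obtain ⟨e1, he1'⟩ := two_dvd_sCard hH x1
  refine ⟨e1, ?_⟩
  have h3 := orbit_ncard_mul_sCard (H := H) x1
  rw [hc1', he1', hcard] at h3
  have h4 : 2 * ((n * (q - 2) + 2) * e1) = 2 * (q * e * n) := by
    calc 2 * ((n * (q - 2) + 2) * e1) = (n * (q - 2) + 2) * (2 * e1) := by ring
      _ = n * (2 * q * e) := h3
      _ = 2 * (q * e * n) := by ring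
  exact Nat.eq_of_mul_eq_mul_left two_pos h4


lemma nt_int (q e e1 m f : ℤ) (hq : 3 ≤ q) (hm : 1 ≤ m) (he0 : 1 ≤ e) (hf : q - 1 = e * f)
    (h : (1 + m * (q - 2)) * e1 = e * (1 + m * q)) : m = 1 ∨ q = 3 := by
  -- D j = 2 m e
  have hD : 0 < 1 + m * (q - 2) := by nlinarith
  set D := 1 + m * (q - 2) with hDdef
  set j := e1 - e with hj
  have hDj : D * j = 2 * m * e := by
    rw [hj, hDdef]; linear_combination h
  have hj1 : 1 ≤ j := by
    by_contra hcon
    have : j ≤ 0 := by linarith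
    have : D * j ≤ 0 := mul_nonpos_of_nonneg_of_nonpos hD.le this
    nlinarith
  -- q - 1 ≤ 2 e
  have hle : q - 1 ≤ 2 * e := by
    have h1 : D ≤ D * j := by nlinarith
    rw [hDj, hDdef] at h1
    -- 1 + m (q-2) ≤ 2 m e → q - 2 < 2 e
    by_contra hcon
    have : 2 * e + 1 ≤ q - 1 := by linarith
    nlinarith
  have hf1 : 1 ≤ f := by
    by_contra hcon
    have : f ≤ 0 := by linarith
    have : e * f ≤ 0 := mul_nonpos_of_nonneg_of_nonpos (by linarith) this
    linarith
  have hf2 : f ≤ 2 := by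
    by_contra hcon
    have : 3 ≤ f := by linarith
    nlinarith
  have hfcases : f = 1 ∨ f = 2 := by omega
  rcases hfcases with rfl | rfl
  · -- e = q - 1
    have he : e = q - 1 := by linarith
    by_cases hq3 : q = 3
    · right; exact hq3
    left
    have hq4 : 4 ≤ q := by omega
    have h2 : 2 * D ≤ D * j := by rw [hDj, hDdef, he]; nlinarith
    have h3 : D * j < 3 * D := by rw [hDj, hDdef, he]; nlinarith
    have hj2 : 2 ≤ j := by nlinarith
    have hj3 : j < 3 := by nlinarith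
    have : j = 2 := by omega
    rw [this, hDdef, he] at hDj
    nlinarith
  · -- 2 e = q - 1
    have he : 2 * e = q - 1 := by linarith
    left
    have h3 : D * j < 2 * D := by rw [hDj, hDdef]; nlinarith
    have hj2 : j < 2 := by nlinarith
    have : j = 1 := by omega
    rw [this, hDdef] at hDj
    nlinarith

/-- Dickson's count: if `q ≠ 3`, the orbit of `∞` has exactly `q + 1` points. -/
theorem ncard_Ofin (p : ℕ) [Fact p.Prime] [CharP k p] (hH : Std H)
    (hA : ∃ t : k, t ≠ 0 ∧ t ∈ A H) (hL : ∃ s : k, s ≠ 0 ∧ ll s ∈ H)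
    (hq : Nat.card (A H) ≠ 3) : (Ofin H).ncard = Nat.card (A H) := by
  obtain ⟨m, hm⟩ := card_A_dvd_ncard_Ofin (H := H)
  obtain ⟨e1, hkey⟩ := key_equation p hH hA hL
  obtain ⟨f, hf⟩ := card_range_sqE_dvd hH
  have hq3 : 3 ≤ Nat.card (A H) := three_le_card_A p hH hA
  have he1 : 1 ≤ Nat.card (sqE H).range := Nat.card_pos
  have hpos : 0 < (Ofin H).ncard := by
    rw [Set.ncard_pos]
    exact ⟨0, zero_mem_OO p hH hA hL⟩
  have hm1 : 1 ≤ m := by
    rcases Nat.eq_zero_or_pos m with h | h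
    · rw [h, mul_zero] at hm; omega
    · exact h
  rw [ncard_OO, hm] at hkey
  set q := Nat.card (A H) with hqdef
  set e := Nat.card (sqE H).range with hedef
  have hkeyZ : (((q : ℤ) * m + 1) * ((q : ℤ) - 2) + 2) * e1 = q * e * (q * m + 1) := by
    have := congrArg (fun t : ℕ => (t : ℤ)) hkey
    simp only [Nat.cast_mul, Nat.cast_add, Nat.cast_one, Nat.cast_ofNat] at this
    rw [Nat.cast_sub (by omega)] at this
    simpa using this
  have hfZ : (q : ℤ) - 1 = e * f := by
    have := congrArg (fun t : ℕ => (t : ℤ)) hf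
    simp only [Nat.cast_mul] at this
    rw [Nat.cast_sub (by omega)] at this
    simpa using this
  have hqZ : (3 : ℤ) ≤ q := by exact_mod_cast hq3
  have hcancel : (1 + (m : ℤ) * ((q : ℤ) - 2)) * e1 = e * (1 + m * q) := by
    have hq0 : (q : ℤ) ≠ 0 := by linarith
    apply mul_left_cancel₀ hq0
    linear_combination hkeyZ
  have := nt_int q e e1 m f hqZ (by exact_mod_cast hm1) (by exact_mod_cast he1) hfZ hcancel
  rcases this with h | h
  · have : m = 1 := by exact_mod_cast h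
    rw [hm, this, mul_one]
  · exact absurd (by exact_mod_cast h) hq

end main

end Fermat.Agent.TW.Dickson.Orbit78
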