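import Mathlib
import Fermat.Agent.TW.Dickson.Orbit78

/-!
# Structure consequences of Dickson's count: antidiagonal and torus elements
-/

set_option autoImplicit false
set_option linter.unusedSectionVars false

namespace Fermat.Agent.TW.Dickson.Struct78

open Matrix OnePoint
open scoped MatrixGroups
open Fermat.Agent.TW.Dickson.FixedPts78 Fermat.Agent.TW.Dickson.Count78
  Fermat.Agent.TW.Dickson.Borel78 Fermat.Agent.TW.Dickson.Orbit78

variable {k : Type*} [Field k] [DecidableEq k] [Fintype k]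
variable {H : Subgroup (GL (Fin 2) k)}

lemma A_subset_Ofin (p : ℕ) [Fact p.Prime] [CharP k p] (hH : Std H)
    (hA : ∃ t : k, t ≠ 0 ∧ t ∈ A H) (hL : ∃ s : k, s ≠ 0 ∧ ll s ∈ H) :
    (A H : Set k) ⊆ Ofin H := by
  intro t ht
  have h0 := zero_mem_OO p hH hA hL
  have := mem_OO_of_smul h0 ((mem_A_iff H t).mp ht)
  rw [uu_smul_coe, zero_add] at this
  exact this

/-- If `q ≠ 3`, the finite part of the orbit of `∞` is exactly `A`. -/
theorem Ofin_eq_A (p : ℕ) [Fact p.Prime] [CharP k p] (hH : Std H)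
    (hA : ∃ t : k, t ≠ 0 ∧ t ∈ A H) (hL : ∃ s : k, s ≠ 0 ∧ ll s ∈ H)
    (hq : Nat.card (A H) ≠ 3) : Ofin H = (A H : Set k) := by
  symm
  apply Set.eq_of_subset_of_ncard_le (A_subset_Ofin p hH hA hL) ?_ (Set.toFinite _)
  rw [ncard_Ofin p hH hA hL hq, ← Nat.card_coe_set_eq]
  exact le_of_eq rfl

/-- If `ll s ∈ H` with `s ≠ 0` then `s⁻¹` lies in the finite part of the orbit of `∞`. -/
lemma inv_mem_Ofin {s : k} (hs0 : s ≠ 0) (hs : ll s ∈ H) : s⁻¹ ∈ Ofin H := by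
  have := mem_OO_of_smul (H := H) infty_mem_OO hs
  rw [ll_smul_infty hs0] at this
  exact this

/-- An element of `H` exchanging `0` and `∞`. -/
lemma exists_swap (p : ℕ) [Fact p.Prime] [CharP k p] (hH : Std H)
    (hA : ∃ t : k, t ≠ 0 ∧ t ∈ A H) (hL : ∃ s : k, s ≠ 0 ∧ ll s ∈ H)
    (hq : Nat.card (A H) ≠ 3) :
    ∃ w ∈ H, w • (∞ : OnePoint k) = ((0 : k) : OnePoint k) ∧
      w • ((0 : k) : OnePoint k) = (∞ : OnePoint k) := by
  have h0 := zero_mem_OO p hH hA hL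
  obtain ⟨h', hh'⟩ := h0
  -- h' • ∞ = 0
  have hh'' : ((h' : H) : GL (Fin 2) k) • (∞ : OnePoint k) = ((0 : k) : OnePoint k) := hh'
  let h := ((h' : H) : GL (Fin 2) k)⁻¹
  have hhH : h ∈ H := H.inv_mem h'.2
  have hh0 : h • ((0 : k) : OnePoint k) = ∞ := by
    rw [← hh'', inv_smul_smul]
  -- y := h • ∞ is finite
  have hy : h • (∞ : OnePoint k) ∈ OO H := mem_OO_of_smul infty_mem_OO hhH
  have hyne : h • (∞ : OnePoint k) ≠ ∞ := by
    intro hcon
    have : h • (∞ : OnePoint k) = h • ((0 : k) : OnePoint k) := by rw [hcon, hh0]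
    have := (MulAction.injective h) this
    exact OnePoint.infty_ne_coe _ this
  obtain ⟨c, hc⟩ := OnePoint.ne_infty_iff_exists.mp hyne
  have hcO : c ∈ Ofin H := by
    change (c : OnePoint k) ∈ OO H
    rw [hc]; exact hy
  rw [Ofin_eq_A p hH hA hL hq] at hcO
  have hcA : uu (-c) ∈ H := (mem_A_iff H _).mp ((A H).neg_mem hcO)
  refine ⟨uu (-c) * h, H.mul_mem hcA hhH, ?_, ?_⟩
  · rw [mul_smul, ← hc, uu_smul_coe]
    simp
  · rw [mul_smul, hh0, uu_smul_infty]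

/-- The lower unipotent elements `ll (-1/t)`, `t ∈ A \ 0`, all lie in `H`. -/
theorem ll_neg_inv_mem (p : ℕ) [Fact p.Prime] [CharP k p] (hH : Std H)
    (hA : ∃ t : k, t ≠ 0 ∧ t ∈ A H) (hL : ∃ s : k, s ≠ 0 ∧ ll s ∈ H)
    (hq : Nat.card (A H) ≠ 3) {t : k} (ht : t ∈ A H) (ht0 : t ≠ 0) : ll (-t⁻¹) ∈ H := by
  obtain ⟨w, hw, hw1, hw2⟩ := exists_swap p hH hA hL hq
  -- shape of w
  have h10 : w 1 0 ≠ 0 := by
    intro h
    rw [smul_infty_eq_ite, if_pos h] at hw1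
    exact OnePoint.infty_ne_coe _ hw1
  have h00 : w 0 0 = 0 := by
    rw [smul_infty_eq_ite, if_neg h10, OnePoint.coe_eq_coe] at hw1
    rcases div_eq_zero_iff.mp hw1 with h | h
    · exact h
    · exact (h10 h).elim
  have h11 : w 1 1 = 0 := by
    rw [smul_some_eq_ite] at hw2
    by_contra h
    rw [if_neg (by simpa using h)] at hw2
    exact OnePoint.coe_ne_infty _ hw2
  have hdet : w 0 1 * w 1 0 = -1 := by
    have := hH.det_one w hw
    rw [det_eq, h00, h11] at this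
    linear_combination -this
  -- conjugating upper unipotents by w
  have hconj : ∀ r : k, r ∈ A H → ll (-(w 1 0) ^ 2 * r) ∈ H := by
    intro r hr
    have hmul : ll (-(w 1 0) ^ 2 * r) * w = w * uu r := by
      ext i j
      fin_cases i <;> fin_cases j <;>
        simp [Matrix.mul_apply, Fin.sum_univ_two, h00, h11]
      linear_combination (-(w 1 0) * r) * hdet
    have : ll (-(w 1 0) ^ 2 * r) = w * uu r * w⁻¹ := by
      rw [← hmul]; group
    rw [this]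
    exact H.mul_mem (H.mul_mem hw ((mem_A_iff H r).mp hr)) (H.inv_mem hw)
  have hOA := Ofin_eq_A p hH hA hL hq
  -- first step: 1 / (c² t) ∈ A
  have hs1 : -(w 1 0) ^ 2 * t ≠ 0 := by
    simp [h10, ht0]
  have h1 : (-(w 1 0) ^ 2 * t)⁻¹ ∈ A H := by
    have := inv_mem_Ofin hs1 (hconj t ht)
    rw [hOA] at this
    exact this
  have h2 : -(-(w 1 0) ^ 2 * t)⁻¹ ∈ A H := (A H).neg_mem h1
  have h3 := hconj _ h2
  have : -(w 1 0) ^ 2 * -(-(w 1 0) ^ 2 * t)⁻¹ = -t⁻¹ := by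
    field_simp
  rw [this] at h3
  exact h3

/-- The antidiagonal matrix `[[0, t], [-1/t, 0]]` as a product of unipotents. -/
def nn (t : k) : GL (Fin 2) k := uu t * ll (-t⁻¹) * uu t

lemma nn_entries {t : k} (ht : t ≠ 0) :
    (nn t) 0 0 = 0 ∧ (nn t) 0 1 = t ∧ (nn t) 1 0 = -t⁻¹ ∧ (nn t) 1 1 = 0 := by
  have e00 : (uu t).val 0 0 = 1 := uu_00 t
  have e01 : (uu t).val 0 1 = t := uu_01 t
  have e10 : (uu t).val 1 0 = 0 := uu_10 t
  have e11 : (uu t).val 1 1 = 1 := uu_11 t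
  have l00 : (ll (-t⁻¹)).val 0 0 = 1 := ll_00 _
  have l01 : (ll (-t⁻¹)).val 0 1 = 0 := ll_01 _
  have l10 : (ll (-t⁻¹)).val 1 0 = -t⁻¹ := ll_10 _
  have l11 : (ll (-t⁻¹)).val 1 1 = 1 := ll_11 _
  refine ⟨?_, ?_, ?_, ?_⟩ <;>
    simp only [nn, Units.val_mul, Matrix.mul_apply, Fin.sum_univ_two, e00, e01, e10, e11, l00, l01,
      l10, l11] <;> field_simp <;> ring

theorem nn_mem (p : ℕ) [Fact p.Prime] [CharP k p] (hH : Std H)
    (hA : ∃ t : k, t ≠ 0 ∧ t ∈ A H) (hL : ∃ s : k, s ≠ 0 ∧ ll s ∈ H)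
    (hq : Nat.card (A H) ≠ 3) {t : k} (ht : t ∈ A H) (ht0 : t ≠ 0) : nn t ∈ H :=
  H.mul_mem (H.mul_mem ((mem_A_iff H t).mp ht) (ll_neg_inv_mem p hH hA hL hq ht ht0))
    ((mem_A_iff H t).mp ht)

/-- The torus element `diag (t / t', t' / t)`. -/
def dd (t t' : k) : GL (Fin 2) k := nn t * nn (-t')

lemma dd_entries {t t' : k} (ht : t ≠ 0) (ht' : t' ≠ 0) :
    (dd t t') 0 0 = t / t' ∧ (dd t t') 0 1 = 0 ∧ (dd t t') 1 0 = 0 ∧ (dd t t') 1 1 = t' / t := by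
  have hn := nn_entries ht
  have hn' := nn_entries (neg_ne_zero.mpr ht')
  obtain ⟨a1, a2, a3, a4⟩ := hn
  obtain ⟨b1, b2, b3, b4⟩ := hn'
  refine ⟨?_, ?_, ?_, ?_⟩
  · simp only [dd, Units.val_mul, Matrix.mul_apply, Fin.sum_univ_two, a1, a2, a3, a4, b1, b2, b3, b4]
    field_simp
    ring
  · simp only [dd, Units.val_mul, Matrix.mul_apply, Fin.sum_univ_two, a1, a2, a3, a4, b1, b2, b3, b4]
    ring
  · simp only [dd, Units.val_mul, Matrix.mul_apply, Fin.sum_univ_two, a1, a2, a3, a4, b1, b2, b3, b4]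
    ring
  · simp only [dd, Units.val_mul, Matrix.mul_apply, Fin.sum_univ_two, a1, a2, a3, a4, b1, b2, b3, b4]
    field_simp
    ring

theorem dd_mem (p : ℕ) [Fact p.Prime] [CharP k p] (hH : Std H)
    (hA : ∃ t : k, t ≠ 0 ∧ t ∈ A H) (hL : ∃ s : k, s ≠ 0 ∧ ll s ∈ H)
    (hq : Nat.card (A H) ≠ 3) {t t' : k} (ht : t ∈ A H) (ht0 : t ≠ 0) (ht' : t' ∈ A H)
    (ht'0 : t' ≠ 0) : dd t t' ∈ H :=
  H.mul_mem (nn_mem p hH hA hL hq ht ht0)
    (nn_mem p hH hA hL hq ((A H).neg_mem ht') (neg_ne_zero.mpr ht'0))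

end Fermat.Agent.TW.Dickson.Struct78
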