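import Mathlib
import Fermat.Agent.TW.Dickson.Struct78

/-!
# Elements of `p`-power order in `GL (Fin 2) k` (char `p`) are unipotent; the unipotent subgroup
`{u_t ∈ G}` has index prime to `p`.
-/

set_option autoImplicit false
set_option linter.unusedSectionVars false

namespace Fermat.Agent.TW.Dickson.Unip78

open Matrix OnePoint
open scoped MatrixGroups
open Fermat.Agent.TW.Dickson.FixedPts78 Fermat.Agent.TW.Dickson.Count78
  Fermat.Agent.TW.Dickson.Borel78 Fermat.Agent.TW.Dickson.Orbit78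

variable {k : Type*} [Field k] [DecidableEq k] [Fintype k]

/-- A trace-zero, determinant-zero `2 × 2` matrix squares to zero. -/
lemma sq_eq_zero_of_trace_det {N : Matrix (Fin 2) (Fin 2) k} (htr : N.trace = 0)
    (hdet : N.det = 0) : N ^ 2 = 0 := by
  rw [Matrix.trace_fin_two] at htr
  rw [Matrix.det_fin_two] at hdet
  have h11 : N 1 1 = -N 0 0 := by linear_combination htr
  rw [sq]
  ext i j
  fin_cases i <;> fin_cases j <;> simp [Matrix.mul_apply, Fin.sum_univ_two, h11]
  · rw [h11] at hdet; linear_combination -hdet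
  · ring
  · ring
  · rw [h11] at hdet; linear_combination -hdet

/-- An element of `p`-power order is unipotent. -/
lemma unipotent_of_pow_eq_one (p : ℕ) [Fact p.Prime] [CharP k p] {g : GL (Fin 2) k} {j : ℕ}
    (hg : g ^ p ^ j = 1) :
    (g.val - 1) ^ 2 = 0 ∧ g.val.trace = 2 ∧ g.val.det = 1 := by
  have h1 : (g.val - 1) ^ p ^ j = 0 := by
    rw [sub_pow_char_pow_of_commute _ _ (Commute.one_right _), one_pow, ← Units.val_pow_eq_pow_val,
      hg, Units.val_one, sub_self]
  have hnil : IsNilpotent (g.val - 1) := ⟨p ^ j, h1⟩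
  have htr : (g.val - 1).trace = 0 := (Matrix.isNilpotent_trace_of_isNilpotent hnil).eq_zero
  have hdet : (g.val - 1).det = 0 := by
    have : (g.val - 1).det ^ p ^ j = 0 := by rw [← Matrix.det_pow, h1, Matrix.det_zero]
    exact pow_eq_zero_iff (pow_ne_zero _ (Fact.out : p.Prime).ne_zero) |>.mp this
  have hsq := sq_eq_zero_of_trace_det htr hdet
  refine ⟨hsq, ?_, ?_⟩
  · rw [Matrix.trace_sub, Matrix.trace_one] at htr
    simp at htr
    linear_combination htr
  · rw [Matrix.trace_fin_two] at htr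
    rw [Matrix.det_fin_two] at hdet ⊢
    simp at htr hdet
    linear_combination hdet + htr

/-- A nontrivial element of `p`-power order is parabolic with trace `2`. -/
lemma isParabolic_of_pow_eq_one (p : ℕ) [Fact p.Prime] [CharP k p] (h2 : (2 : k) ≠ 0)
    {g : GL (Fin 2) k} {j : ℕ} (hg : g ^ p ^ j = 1) (hg1 : g ≠ 1) :
    g.IsParabolic ∧ g.val.trace = 2 := by
  have : NeZero (2 : k) := ⟨h2⟩
  obtain ⟨hsq, htr, -⟩ := unipotent_of_pow_eq_one p hg
  refine ⟨?_, htr⟩
  rw [GeneralLinearGroup.IsParabolic, Matrix.isParabolic_iff_exists]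
  refine ⟨1, g.val - 1, by simp, ?_, hsq⟩
  intro h
  apply hg1
  apply Units.ext
  rw [Units.val_one]
  exact sub_eq_zero.mp h

/-- A unipotent parabolic element fixing `∞` is `u_t` with `t ≠ 0` (version without `Std`). -/
lemma eq_uu_of_unipotent' (h2 : (2 : k) ≠ 0) {g : GL (Fin 2) k} (hp : g.IsParabolic)
    (htr : g.val.trace = 2) (hfix : g • (∞ : OnePoint k) = ∞) :
    g = uu (g 0 1) ∧ g 0 1 ≠ 0 := by
  have h10 : g 1 0 = 0 := smul_infty_eq_self_iff.mp hfix
  have hp' := (GeneralLinearGroup.isParabolic_iff_of_upperTriangular h10).mp hp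
  rw [Matrix.trace_fin_two] at htr
  have h00 : g 0 0 = 1 := by
    have h3 : (2 : k) * (g 0 0 - 1) = 0 := by
      have := hp'.1
      linear_combination htr + this
    rcases mul_eq_zero.mp h3 with h | h
    · exact (h2 h).elim
    · linear_combination h
  have h11 : g 1 1 = 1 := by rw [← hp'.1, h00]
  exact ⟨eq_uu_of h10 h00 h11, hp'.2⟩

/-- The subgroup of upper unipotent elements of `G`. -/
def PP (G : Subgroup (GL (Fin 2) k)) : Subgroup (GL (Fin 2) k) :=
  G ⊓ (GeneralLinearGroup.upperRightHom (R := k)).toMonoidHom.range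

lemma mem_PP {G : Subgroup (GL (Fin 2) k)} {g : GL (Fin 2) k} :
    g ∈ PP G ↔ g ∈ G ∧ ∃ t : k, uu t = g := by
  rw [PP, Subgroup.mem_inf, MonoidHom.mem_range]
  constructor
  · rintro ⟨h1, t, ht⟩
    exact ⟨h1, Multiplicative.toAdd t, ht⟩
  · rintro ⟨h1, t, ht⟩
    exact ⟨h1, Multiplicative.ofAdd t, ht⟩

lemma PP_le (G : Subgroup (GL (Fin 2) k)) : PP G ≤ G := inf_le_left

lemma uu_pow_p (p : ℕ) [CharP k p] (t : k) : uu t ^ p = 1 := by
  have : uu t ^ p = uu (p • t) := (AddChar.map_nsmul_eq_pow _ _ _).symm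
  rw [this, nsmul_eq_mul, CharP.cast_eq_zero, zero_mul, uu_zero]

lemma p_dvd_card (p : ℕ) [Fact p.Prime] [CharP k p] : p ∣ Fintype.card k := by
  rw [← CharP.cast_eq_zero_iff k p]
  exact Nat.cast_card_eq_zero k

/-- The index of the unipotent subgroup of `G` is prime to `p`. -/
theorem not_dvd_index_PP (p : ℕ) [Fact p.Prime] [CharP k p] (h2 : (2 : k) ≠ 0)
    (G : Subgroup (GL (Fin 2) k)) (hA : ∃ t : k, t ≠ 0 ∧ uu t ∈ G) :
    ¬ p ∣ ((PP G).subgroupOf G).index := by
  obtain ⟨t0, ht0, htG⟩ := hA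
  have hP' : IsPGroup p ((PP G).subgroupOf G) := by
    rintro ⟨g, hg⟩
    refine ⟨1, ?_⟩
    obtain ⟨-, t, ht⟩ := mem_PP.mp (Subgroup.mem_subgroupOf.mp hg)
    apply Subtype.ext; apply Subtype.ext
    rw [pow_one]
    change (g : GL (Fin 2) k) ^ p = 1
    rw [← ht, uu_pow_p]
  obtain ⟨Q, hQ⟩ := hP'.exists_le_sylow
  -- fixed point of Q
  have hcard : ¬ p ∣ Nat.card (OnePoint k) := by
    rw [Nat.card_eq_fintype_card, card_onePoint]
    intro h
    have h1 : p ∣ 1 := (Nat.dvd_add_right (p_dvd_card p)).mp h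
    exact (Fact.out : p.Prime).one_lt.ne' (Nat.dvd_one.mp h1)
  obtain ⟨y, hy⟩ := Q.2.nonempty_fixed_point_of_prime_not_dvd_card (OnePoint k) hcard
  have hu0 : (⟨uu t0, htG⟩ : G) ∈ (Q : Subgroup G) :=
    hQ (Subgroup.mem_subgroupOf.mpr (mem_PP.mpr ⟨htG, t0, rfl⟩))
  have hy' : y = ∞ := by
    have := hy ⟨⟨uu t0, htG⟩, hu0⟩
    change uu t0 • y = y at this
    cases y with
    | infty => rfl
    | coe c =>
      rw [uu_smul_coe, OnePoint.coe_eq_coe] at this
      exact (ht0 (by linear_combination this)).elim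
  subst hy'
  have hle : (Q : Subgroup G) ≤ (PP G).subgroupOf G := by
    intro g hg
    rw [Subgroup.mem_subgroupOf, mem_PP]
    refine ⟨g.2, ?_⟩
    obtain ⟨j, hj⟩ := Q.2 ⟨g, hg⟩
    have hj' : (g : GL (Fin 2) k) ^ p ^ j = 1 := by
      have := congrArg (fun x : (Q : Subgroup G) => ((x : G) : GL (Fin 2) k)) hj
      simpa using this
    by_cases hg1 : (g : GL (Fin 2) k) = 1
    · exact ⟨0, by rw [uu_zero, hg1]⟩
    · obtain ⟨hpar, htr⟩ := isParabolic_of_pow_eq_one p h2 hj' hg1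
      have hfix : (g : GL (Fin 2) k) • (∞ : OnePoint k) = ∞ := hy ⟨g, hg⟩
      exact ⟨_, (eq_uu_of_unipotent' h2 hpar htr hfix).1.symm⟩
  have heq : (PP G).subgroupOf G = (Q : Subgroup G) := le_antisymm hQ hle
  rw [heq]
  exact Q.not_dvd_index

end Fermat.Agent.TW.Dickson.Unip78
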