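import Mathlib
import Fermat.Agent.TW.Dickson.Unip78
import Fermat.Agent.TW.Dickson.Cohom78

/-!
# The characteristic `3` cohomological computation
-/

set_option autoImplicit false
set_option linter.unusedSectionVars false

namespace Fermat.Agent.TW.Dickson.CharThree78

open Matrix OnePoint
open scoped MatrixGroups
open Fermat.Agent.TW.Dickson.FixedPts78 Fermat.Agent.TW.Dickson.Count78
  Fermat.Agent.TW.Dickson.Borel78 Fermat.Agent.TW.Dickson.Orbit78
  Fermat.Agent.TW.Dickson.Unip78 Fermat.Agent.TW.Dickson.Cohom78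

variable {k : Type*} [Field k] [DecidableEq k] [Fintype k]

/-- Entries of `act (uu s) X`. -/
lemma act_uu_entries (s : k) (X : Matrix (Fin 2) (Fin 2) k) :
    (act (uu s) X) 0 0 = X 0 0 + s * X 1 0 ∧
    (act (uu s) X) 0 1 = X 0 1 + s * (X 1 1 - X 0 0) - s ^ 2 * X 1 0 ∧
    (act (uu s) X) 1 0 = X 1 0 ∧
    (act (uu s) X) 1 1 = X 1 1 - s * X 1 0 := by
  have hdet : (uu s).val.det = 1 := by
    rw [Matrix.det_fin_two]
    have e00 : (uu s).val 0 0 = 1 := uu_00 s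
    have e01 : (uu s).val 0 1 = s := uu_01 s
    have e10 : (uu s).val 1 0 = 0 := uu_10 s
    have e11 : (uu s).val 1 1 = 1 := uu_11 s
    rw [e00, e01, e10, e11]; ring
  have hinv : ((uu s)⁻¹ : GL (Fin 2) k) = uu (-s) := (uu_neg s).symm
  have e00 : (uu s).val 0 0 = 1 := uu_00 s
  have e01 : (uu s).val 0 1 = s := uu_01 s
  have e10 : (uu s).val 1 0 = 0 := uu_10 s
  have e11 : (uu s).val 1 1 = 1 := uu_11 s
  have f00 : (uu (-s)).val 0 0 = 1 := uu_00 _
  have f01 : (uu (-s)).val 0 1 = -s := uu_01 _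
  have f10 : (uu (-s)).val 1 0 = 0 := uu_10 _
  have f11 : (uu (-s)).val 1 1 = 1 := uu_11 _
  refine ⟨?_, ?_, ?_, ?_⟩ <;>
  · rw [act, hdet, one_smul, hinv]
    simp only [Matrix.mul_apply, Fin.sum_univ_two, e00, e01, e10, e11, f00, f01, f10, f11]
    ring

variable {G : Subgroup (GL (Fin 2) k)} {ψ : GL (Fin 2) k → Matrix (Fin 2) (Fin 2) k}

lemma entry_11 (hψ : IsCocycleOn G ψ) {g : GL (Fin 2) k} (hg : g ∈ G) :
    (ψ g) 1 1 = -(ψ g) 0 0 := by
  have := hψ.tr g hg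
  rw [Matrix.trace_fin_two] at this
  linear_combination this

/-- The cocycle relations on upper unipotent elements. -/
lemma cocycle_uu (hψ : IsCocycleOn G ψ) {s t : k} (hs : uu s ∈ G) (ht : uu t ∈ G) :
    (ψ (uu (s + t))) 1 0 = (ψ (uu s)) 1 0 + (ψ (uu t)) 1 0 ∧
    (ψ (uu (s + t))) 0 0 = (ψ (uu s)) 0 0 + (ψ (uu t)) 0 0 + s * (ψ (uu t)) 1 0 ∧
    (ψ (uu (s + t))) 0 1 = (ψ (uu s)) 0 1 + (ψ (uu t)) 0 1 - 2 * s * (ψ (uu t)) 0 0
      - s ^ 2 * (ψ (uu t)) 1 0 := by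
  have h := hψ.mul _ hs _ ht
  rw [← uu_add] at h
  obtain ⟨e00, e01, e10, -⟩ := act_uu_entries s (ψ (uu t))
  have h11 := entry_11 hψ ht
  refine ⟨?_, ?_, ?_⟩
  · rw [h, Matrix.add_apply, e10]
  · rw [h, Matrix.add_apply, e00]; ring
  · rw [h, Matrix.add_apply, e01, h11]; ring

lemma psi_uu_zero (hψ : IsCocycleOn G ψ) : ψ (uu (0 : k)) = 0 := by
  rw [uu_zero]; exact hψ.map_one

/-- In characteristic `3` the lower-left entry of a cocycle vanishes on upper unipotents. -/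
lemma lower_left_zero [CharP k 3] (hψ : IsCocycleOn G ψ) {t : k} (ht : uu t ∈ G) :
    (ψ (uu t)) 1 0 = 0 := by
  have h3 : (3 : k) = 0 := by
    have := CharP.cast_eq_zero k 3
    simpa using this
  by_cases ht0 : t = 0
  · rw [ht0, psi_uu_zero hψ]; rfl
  have htt : uu (t + t) ∈ G := by rw [uu_add]; exact G.mul_mem ht ht
  obtain ⟨g2, b2, a2⟩ := cocycle_uu hψ ht ht
  obtain ⟨-, -, a3⟩ := cocycle_uu hψ htt ht
  have hz : (t + t) + t = 0 := by linear_combination t * h3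
  rw [hz, psi_uu_zero hψ] at a3
  simp only [Matrix.zero_apply] at a3
  rw [a2] at a3
  have : t ^ 2 * (ψ (uu t)) 1 0 = 0 := by
    linear_combination (-1 : k) * a3 + (2 * t ^ 2 * (ψ (uu t)) 1 0 - (ψ (uu t)) 0 1
      + 2 * t * (ψ (uu t)) 0 0) * h3
  rcases mul_eq_zero.mp this with h | h
  · exact (ht0 (pow_eq_zero_iff two_ne_zero |>.mp h)).elim
  · exact h

lemma two_ne_zero_of_char_three [CharP k 3] : (2 : k) ≠ 0 := by
  intro h
  have h2 : ((2 : ℕ) : k) = 0 := by exact_mod_cast h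
  have := (CharP.cast_eq_zero_iff k 3 2).mp h2
  omega

/-- In characteristic `3` the diagonal entry of a cocycle is linear on upper unipotents. -/
lemma diag_linear [CharP k 3] (hψ : IsCocycleOn G ψ) {t0 : k} (ht0 : t0 ≠ 0) (h0 : uu t0 ∈ G)
    {t : k} (ht : uu t ∈ G) : (ψ (uu t)) 0 0 = ((ψ (uu t0)) 0 0 / t0) * t := by
  obtain ⟨-, -, a1⟩ := cocycle_uu hψ h0 ht
  obtain ⟨-, -, a2⟩ := cocycle_uu hψ ht h0
  rw [lower_left_zero hψ ht] at a1
  rw [lower_left_zero hψ h0] at a2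
  rw [add_comm t t0, a1] at a2
  have h2 : (2 : k) ≠ 0 := two_ne_zero_of_char_three
  have h3 : (2 : k) * (t0 * (ψ (uu t)) 0 0 - t * (ψ (uu t0)) 0 0) = 0 := by
    linear_combination (-1 : k) * a2
  have h4 : t0 * (ψ (uu t)) 0 0 - t * (ψ (uu t0)) 0 0 = 0 :=
    (mul_eq_zero.mp h3).resolve_left h2
  field_simp
  linear_combination h4

/-- First normalisation: after subtracting a coboundary, the cocycle is strictly upper triangular
on upper unipotents. -/
lemma exists_normalise_diag [CharP k 3] (hψ : IsCocycleOn G ψ) {t0 : k} (ht0 : t0 ≠ 0)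
    (h0 : uu t0 ∈ G) :
    ∃ Y : Matrix (Fin 2) (Fin 2) k, Y.trace = 0 ∧
      ∀ t : k, uu t ∈ G → (ψ (uu t) - (act (uu t) Y - Y)) 0 0 = 0 ∧
        (ψ (uu t) - (act (uu t) Y - Y)) 1 0 = 0 := by
  set μ := (ψ (uu t0)) 0 0 / t0 with hμ
  refine ⟨!![0, 0; μ, 0], by simp [Matrix.trace_fin_two], fun t ht => ?_⟩
  obtain ⟨e00, -, e10, -⟩ := act_uu_entries t (!![0, 0; μ, 0] : Matrix (Fin 2) (Fin 2) k)
  have v00 : (!![0, 0; μ, 0] : Matrix (Fin 2) (Fin 2) k) 0 0 = 0 := rfl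
  have v10 : (!![0, 0; μ, 0] : Matrix (Fin 2) (Fin 2) k) 1 0 = μ := rfl
  rw [v00, v10] at e00
  rw [v10] at e10
  constructor
  · rw [Matrix.sub_apply, Matrix.sub_apply, e00, diag_linear hψ ht0 h0 ht, v00, ← hμ]
    ring
  · rw [Matrix.sub_apply, Matrix.sub_apply, e10, lower_left_zero hψ ht, v10]
    ring

/-- The matrix unit `E₀₁`. -/
def EE : Matrix (Fin 2) (Fin 2) k := !![0, 1; 0, 0]

lemma EE_00 : (EE : Matrix (Fin 2) (Fin 2) k) 0 0 = 0 := rfl
lemma EE_01 : (EE : Matrix (Fin 2) (Fin 2) k) 0 1 = 1 := rfl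
lemma EE_10 : (EE : Matrix (Fin 2) (Fin 2) k) 1 0 = 0 := rfl
lemma EE_11 : (EE : Matrix (Fin 2) (Fin 2) k) 1 1 = 0 := rfl

/-- An upper triangular element acts on `E₀₁` through the square of its upper left entry. -/
lemma act_upper_EE (c : GL (Fin 2) k) (h10 : c 1 0 = 0) (a : k) :
    act c (a • EE) = (a * c 0 0 ^ 2) • EE := by
  have key : c.val.det • (c.val * (a • EE)) = ((a * c 0 0 ^ 2) • EE) * c.val := by
    rw [Matrix.det_fin_two, h10]
    ext i j
    fin_cases i <;> fin_cases j <;>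
      simp [EE, Matrix.mul_apply, Fin.sum_univ_two, h10] <;> ring
  rw [act, ← Matrix.smul_mul, key, Units.mul_inv_cancel_right]

/-- A cocycle is *normalised* if it is strictly upper triangular on upper unipotents. -/
def Normalised (G : Subgroup (GL (Fin 2) k)) (ψ : GL (Fin 2) k → Matrix (Fin 2) (Fin 2) k) :
    Prop :=
  ∀ t : k, uu t ∈ G → (ψ (uu t)) 0 0 = 0 ∧ (ψ (uu t)) 1 0 = 0

lemma psi_uu_eq (hψ : IsCocycleOn G ψ) (hn : Normalised G ψ) {t : k} (ht : uu t ∈ G) :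
    ψ (uu t) = ((ψ (uu t)) 0 1) • EE := by
  obtain ⟨h00, h10⟩ := hn t ht
  have h11 := entry_11 hψ ht
  rw [h00, neg_zero] at h11
  rw [Matrix.eta_fin_two (ψ (uu t)), h00, h10, h11]
  generalize (ψ (uu t)) 0 1 = a
  ext i j
  fin_cases i <;> fin_cases j <;> simp [EE]

lemma alpha_add (hψ : IsCocycleOn G ψ) (hn : Normalised G ψ) {s t : k} (hs : uu s ∈ G)
    (ht : uu t ∈ G) : (ψ (uu (s + t))) 0 1 = (ψ (uu s)) 0 1 + (ψ (uu t)) 0 1 := by
  obtain ⟨-, -, a⟩ := cocycle_uu hψ hs ht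
  obtain ⟨h00, h10⟩ := hn t ht
  rw [a, h00, h10]; ring

lemma alpha_zero (hψ : IsCocycleOn G ψ) : (ψ (uu (0 : k))) 0 1 = 0 := by
  rw [psi_uu_zero hψ]; rfl

lemma alpha_neg (hψ : IsCocycleOn G ψ) (hn : Normalised G ψ) {t : k} (ht : uu t ∈ G) :
    (ψ (uu (-t))) 0 1 = -(ψ (uu t)) 0 1 := by
  have hnt : uu (-t) ∈ G := by rw [uu_neg]; exact G.inv_mem ht
  have := alpha_add hψ hn ht hnt
  rw [add_neg_cancel, alpha_zero hψ] at this
  linear_combination -this

/-- Conjugating an upper unipotent by an upper triangular element. -/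
lemma upper_mul_uu (c : GL (Fin 2) k) (h10 : c 1 0 = 0) (t : k) :
    c * uu t = uu (c 0 0 / c 1 1 * t) * c := by
  have h11 : c 1 1 ≠ 0 := by
    intro h
    have := det_ne_zero' c
    rw [h, h10] at this
    simp at this
  ext i j
  fin_cases i <;> fin_cases j <;>
    simp [Matrix.mul_apply, Fin.sum_univ_two, h10]
  field_simp
  ring

lemma uu_mul_mem {c : GL (Fin 2) k} (hc : c ∈ G) (h10 : c 1 0 = 0) {t : k} (ht : uu t ∈ G) :
    uu (c 0 0 / c 1 1 * t) ∈ G := by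
  have : uu (c 0 0 / c 1 1 * t) = c * uu t * c⁻¹ := by
    rw [upper_mul_uu c h10 t]; group
  rw [this]
  exact G.mul_mem (G.mul_mem hc ht) (G.inv_mem hc)

/-- The fundamental relation between `α` and an upper triangular element of `G`. -/
lemma alpha_borel (hψ : IsCocycleOn G ψ) (hn : Normalised G ψ) {c : GL (Fin 2) k} (hc : c ∈ G)
    (h10 : c 1 0 = 0) {t : k} (ht : uu t ∈ G) :
    (ψ (uu (c 0 0 / c 1 1 * t))) 0 1
      = c 0 0 ^ 2 * (ψ (uu t)) 0 1 + 2 * (c 0 0 / c 1 1 * t) * (ψ c) 0 0 := by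
  set s := c 0 0 / c 1 1 * t with hs
  have hsG : uu s ∈ G := uu_mul_mem hc h10 ht
  have h1 := hψ.mul c hc _ ht
  have h2 := hψ.mul _ hsG c hc
  rw [upper_mul_uu c h10 t, ← hs, h2, psi_uu_eq hψ hn ht, act_upper_EE c h10,
    psi_uu_eq hψ hn hsG] at h1
  obtain ⟨e00, e01, -, -⟩ := act_uu_entries s (ψ c)
  have h11 := entry_11 hψ hc
  have k00 := congrFun (congrFun h1 0) 0
  have k01 := congrFun (congrFun h1 0) 1
  simp only [Matrix.add_apply, Matrix.smul_apply, e00, e01, EE_00, EE_01, smul_eq_mul, mul_zero,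
    mul_one, zero_add, add_zero] at k00 k01
  rw [h11] at k01
  linear_combination k01 + s * k00

/-- The multipliers `c₀₀ / c₁₁` of upper triangular elements of determinant `1` in `G`. -/
def X1 (G : Subgroup (GL (Fin 2) k)) : Set k :=
  {x | ∃ c ∈ G, c 1 0 = 0 ∧ c.val.det = 1 ∧ x = c 0 0 / c 1 1}

/-- The additive group of `r` such that `α` is `r`-linear. -/
def RR (G : Subgroup (GL (Fin 2) k)) (ψ : GL (Fin 2) k → Matrix (Fin 2) (Fin 2) k)
    (hψ : IsCocycleOn G ψ) (hn : Normalised G ψ) : AddSubgroup k where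
  carrier := {r | ∀ t : k, uu t ∈ G → uu (r * t) ∈ G ∧ (ψ (uu (r * t))) 0 1 = r * (ψ (uu t)) 0 1}
  zero_mem' := by
    intro t _
    rw [zero_mul, zero_mul, alpha_zero hψ, uu_zero]
    exact ⟨G.one_mem, rfl⟩
  add_mem' := by
    intro a b ha hb t ht
    obtain ⟨ha1, ha2⟩ := ha t ht
    obtain ⟨hb1, hb2⟩ := hb t ht
    rw [add_mul, alpha_add hψ hn ha1 hb1, ha2, hb2, uu_add]
    exact ⟨G.mul_mem ha1 hb1, by ring⟩
  neg_mem' := by
    intro a ha t ht
    obtain ⟨ha1, ha2⟩ := ha t ht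
    rw [neg_mul, alpha_neg hψ hn ha1, ha2, uu_neg]
    exact ⟨G.inv_mem ha1, by ring⟩

/-- Second step: `α` is linear. -/
lemma alpha_linear [CharP k 3] (hψ : IsCocycleOn G ψ) (hn : Normalised G ψ) {t0 : k}
    (ht0 : t0 ≠ 0) (h0 : uu t0 ∈ G) {c0 : GL (Fin 2) k} (hc0 : c0 ∈ G) (h10 : c0 1 0 = 0)
    (hdet0 : c0.val.det = -1)
    (hspan : c0 0 0 / c0 1 1 ∈ AddSubgroup.closure (X1 G)) :
    ∃ l : k, ∀ t : k, uu t ∈ G → (ψ (uu t)) 0 1 = l * t := by
  have h2 : (2 : k) ≠ 0 := two_ne_zero_of_char_three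
  -- facts about c0
  have hd0 : c0 0 0 * c0 1 1 = -1 := by
    rw [det_eq, h10, mul_zero, sub_zero] at hdet0; exact hdet0
  have h00 : c0 0 0 ≠ 0 := by
    intro h; rw [h, zero_mul] at hd0; exact one_ne_zero (by linear_combination hd0)
  have h11 : c0 1 1 ≠ 0 := by
    intro h; rw [h, mul_zero] at hd0; exact one_ne_zero (by linear_combination hd0)
  set x0 := c0 0 0 / c0 1 1 with hx0
  have hx0ne : x0 ≠ 0 := div_ne_zero h00 h11
  have hsq0 : c0 0 0 ^ 2 = -x0 := by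
    rw [hx0, ← neg_div, eq_div_iff h11]; linear_combination (c0 0 0) * hd0
  have hB0 : ∀ t : k, uu t ∈ G → (ψ (uu (x0 * t))) 0 1
      = -x0 * (ψ (uu t)) 0 1 + 2 * (x0 * t) * (ψ c0) 0 0 := by
    intro t ht
    rw [alpha_borel hψ hn hc0 h10 ht, hsq0]
  -- the additive group RR contains X1
  have hX1 : X1 G ⊆ (RR G ψ hψ hn : Set k) := by
    rintro x ⟨c, hc, hc10, hcdet, rfl⟩ t ht
    have hd : c 0 0 * c 1 1 = 1 := by
      rw [det_eq, hc10, mul_zero, sub_zero] at hcdet; exact hcdet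
    have hc00 : c 0 0 ≠ 0 := by
      intro h; rw [h, zero_mul] at hd; exact zero_ne_one hd
    have hc11 : c 1 1 ≠ 0 := by
      intro h; rw [h, mul_zero] at hd; exact zero_ne_one hd
    set x := c 0 0 / c 1 1 with hx
    have hsq : c 0 0 ^ 2 = x := by
      rw [hx, eq_div_iff hc11]; linear_combination (c 0 0) * hd
    have hB : ∀ t : k, uu t ∈ G → (ψ (uu (x * t))) 0 1
        = x * (ψ (uu t)) 0 1 + 2 * (x * t) * (ψ c) 0 0 := by
      intro t ht
      rw [alpha_borel hψ hn hc hc10 ht, hsq]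
    -- κ_c = 0
    have hk : (ψ c) 0 0 = 0 := by
      have m1 : uu (x0 * t0) ∈ G := uu_mul_mem hc0 h10 h0
      have m2 : uu (x * t0) ∈ G := uu_mul_mem hc hc10 h0
      have e1 := hB (x0 * t0) m1
      have e2 := hB0 (x * t0) m2
      rw [hB0 t0 h0] at e1
      rw [hB t0 h0, mul_left_comm x0 x t0, e1] at e2
      have hx : x ≠ 0 := div_ne_zero hc00 hc11
      have : (2 : k) * (2 * x * x0 * t0) * (ψ c) 0 0 = 0 := by linear_combination e2
      have hne : (2 : k) * (2 * x * x0 * t0) ≠ 0 :=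
        mul_ne_zero h2 (mul_ne_zero (mul_ne_zero (mul_ne_zero h2 hx) hx0ne) ht0)
      exact (mul_eq_zero.mp this).resolve_left hne
    refine ⟨uu_mul_mem hc hc10 ht, ?_⟩
    rw [hB t ht, hk]; ring
  have hx0R : x0 ∈ RR G ψ hψ hn := (AddSubgroup.closure_le _).mpr hX1 hspan
  refine ⟨(ψ c0) 0 0, fun t ht => ?_⟩
  have e1 := (hx0R t ht).2
  rw [hB0 t ht] at e1
  have : (2 : k) * x0 * ((ψ (uu t)) 0 1 - (ψ c0) 0 0 * t) = 0 := by linear_combination -e1
  have hne : (2 : k) * x0 ≠ 0 := mul_ne_zero h2 hx0ne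
  have := (mul_eq_zero.mp this).resolve_left hne
  linear_combination this

/-- The characteristic `3` theorem: a cocycle on `G` is a coboundary as soon as `G` contains a
nontrivial upper unipotent, an upper triangular element `c₀` of determinant `-1`, and the
multiplier of `c₀` lies in the additive span of the multipliers of determinant one. -/
theorem charThree_main [CharP k 3] (hψ : IsCocycleOn G ψ) {t0 : k}
    (ht0 : t0 ≠ 0) (h0 : uu t0 ∈ G) {c0 : GL (Fin 2) k} (hc0 : c0 ∈ G) (h10 : c0 1 0 = 0)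
    (hdet0 : c0.val.det = -1)
    (hspan : c0 0 0 / c0 1 1 ∈ AddSubgroup.closure (X1 G)) : IsCoboundaryOn G ψ := by
  have h2 : (2 : k) ≠ 0 := two_ne_zero_of_char_three
  obtain ⟨Y1, hY1, hn1⟩ := exists_normalise_diag hψ ht0 h0
  apply isCoboundaryOn_of_sub Y1 hY1
  have hψ1 := hψ.sub_coboundary hY1
  set ψ1 : GL (Fin 2) k → Matrix (Fin 2) (Fin 2) k := fun g => ψ g - (act g Y1 - Y1) with hψ1def
  have hn1' : Normalised G ψ1 := hn1
  obtain ⟨l, hl⟩ := alpha_linear hψ1 hn1' ht0 h0 hc0 h10 hdet0 hspan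
  set Y2 : Matrix (Fin 2) (Fin 2) k := !![-l / 2, 0; 0, l / 2] with hY2def
  have hY2 : Y2.trace = 0 := by
    rw [Matrix.trace_fin_two]
    change -l / 2 + l / 2 = 0
    ring
  apply isCoboundaryOn_of_sub Y2 hY2
  have hψ2 := hψ1.sub_coboundary hY2
  apply isCoboundaryOn_of_vanish hψ2 (PP G) (PP_le G)
  · intro g hg
    obtain ⟨hgG, t, rfl⟩ := mem_PP.mp hg
    change ψ1 (uu t) - (act (uu t) Y2 - Y2) = 0
    rw [psi_uu_eq hψ1 hn1' hgG, hl t hgG, sub_eq_zero]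
    obtain ⟨e00, e01, e10, e11⟩ := act_uu_entries t Y2
    have v00 : Y2 0 0 = -l / 2 := rfl
    have v01 : Y2 0 1 = 0 := rfl
    have v10 : Y2 1 0 = 0 := rfl
    have v11 : Y2 1 1 = l / 2 := rfl
    rw [v00, v10] at e00
    rw [v00, v01, v10, v11] at e01
    rw [v10] at e10
    rw [v10, v11] at e11
    ext i j
    fin_cases i <;> fin_cases j
    · change ((l * t) • EE) 0 0 = (act (uu t) Y2 - Y2) 0 0
      rw [Matrix.sub_apply, e00, v00, Matrix.smul_apply, EE_00]; simp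
    · change ((l * t) • EE) 0 1 = (act (uu t) Y2 - Y2) 0 1
      rw [Matrix.sub_apply, e01, v01, Matrix.smul_apply, EE_01]
      simp only [smul_eq_mul]
      field_simp
      ring
    · change ((l * t) • EE) 1 0 = (act (uu t) Y2 - Y2) 1 0
      rw [Matrix.sub_apply, e10, v10, Matrix.smul_apply, EE_10]; simp
    · change ((l * t) • EE) 1 1 = (act (uu t) Y2 - Y2) 1 1
      rw [Matrix.sub_apply, e11, v11, Matrix.smul_apply, EE_11]; simp
  · intro h
    have h3 : (((PP G).subgroupOf G).index : k) = 0 := h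
    rw [CharP.cast_eq_zero_iff k 3] at h3
    exact not_dvd_index_PP 3 h2 G ⟨t0, ht0, h0⟩ h3

end Fermat.Agent.TW.Dickson.CharThree78
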