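import Mathlib
import Fermat.Agent.TW.Dickson.CharThree78

/-!
# Vanishing of the twisted `H¹` for finite subgroups of `GL₂(k)`: assembly
-/

set_option autoImplicit false
set_option linter.unusedSectionVars false

namespace Fermat.Agent.TW.Dickson.Main78

open Matrix OnePoint
open scoped MatrixGroups
open Fermat.Agent.TW.Dickson.FixedPts78 Fermat.Agent.TW.Dickson.Count78
  Fermat.Agent.TW.Dickson.Borel78 Fermat.Agent.TW.Dickson.Orbit78
  Fermat.Agent.TW.Dickson.Struct78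
  Fermat.Agent.TW.Dickson.Unip78 Fermat.Agent.TW.Dickson.Cohom78
  Fermat.Agent.TW.Dickson.CharThree78

variable {k : Type*} [Field k] [DecidableEq k] [Fintype k]

lemma det_neg_two (g : GL (Fin 2) k) : (-g : GL (Fin 2) k).val.det = g.val.det := by
  rw [Units.val_neg, Matrix.det_neg, Fintype.card_fin]
  ring

lemma det_inv_eq_one {g : GL (Fin 2) k} (h : g.val.det = 1) :
    (g⁻¹ : GL (Fin 2) k).val.det = 1 := by
  have h1 : (g * g⁻¹ : GL (Fin 2) k).val.det = 1 := by simp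
  rw [Units.val_mul, Matrix.det_mul, h, one_mul] at h1
  exact h1

/-- The determinant-one part of `G`, together with its negatives. -/
def HH (G : Subgroup (GL (Fin 2) k)) : Subgroup (GL (Fin 2) k) where
  carrier := {g | g.val.det = 1 ∧ (g ∈ G ∨ -g ∈ G)}
  one_mem' := ⟨by simp, Or.inl G.one_mem⟩
  mul_mem' := by
    rintro a b ⟨ha, ha'⟩ ⟨hb, hb'⟩
    refine ⟨by rw [Units.val_mul, Matrix.det_mul, ha, hb, one_mul], ?_⟩
    rcases ha' with ha' | ha' <;> rcases hb' with hb' | hb'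
    · left; exact G.mul_mem ha' hb'
    · right
      have := G.mul_mem ha' hb'
      rwa [mul_neg] at this
    · right
      have := G.mul_mem ha' hb'
      rwa [neg_mul] at this
    · left
      have := G.mul_mem ha' hb'
      rwa [neg_mul_neg] at this
  inv_mem' := by
    rintro a ⟨ha, ha'⟩
    refine ⟨det_inv_eq_one ha, ?_⟩
    rcases ha' with h | h
    · left; exact G.inv_mem h
    · right
      have := G.inv_mem h
      rwa [inv_neg] at this

variable {G : Subgroup (GL (Fin 2) k)}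

lemma mem_HH {g : GL (Fin 2) k} : g ∈ HH G ↔ g.val.det = 1 ∧ (g ∈ G ∨ -g ∈ G) := Iff.rfl

lemma mem_HH_of_mem {g : GL (Fin 2) k} (hg : g ∈ G) (hdet : g.val.det = 1) : g ∈ HH G :=
  ⟨hdet, Or.inl hg⟩

lemma discr_neg' (g : GL (Fin 2) k) : (-g : GL (Fin 2) k).val.discr = g.val.discr := by
  rw [Matrix.discr_fin_two, Matrix.discr_fin_two, det_neg_two, Units.val_neg, Matrix.trace_neg]
  ring

lemma std_HH (h2 : (2 : k) ≠ 0) (hsplit : ∀ g ∈ G, IsSquare g.val.discr) : Std (HH G) where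
  det_one g hg := hg.1
  neg_one_mem := ⟨by rw [det_neg_two]; simp, Or.inr (by rw [neg_neg]; exact G.one_mem)⟩
  split g hg := by
    rcases hg.2 with h | h
    · exact hsplit g h
    · rw [← discr_neg']; exact hsplit _ h
  two_ne := h2

/-- A unipotent element of `HH G` lies in `G` (odd characteristic). -/
lemma mem_of_mem_HH_of_pow (p : ℕ) (hp : Odd p) {g : GL (Fin 2) k} (hg : g ∈ HH G)
    (hpow : g ^ p = 1) : g ∈ G := by
  rcases hg.2 with h | h
  · exact h
  · have h1 : (-g) ^ p ∈ G := G.pow_mem h p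
    rw [hp.neg_pow, hpow] at h1
    have h2 : (-1 : GL (Fin 2) k) * (-g) ∈ G := G.mul_mem h1 h
    rwa [neg_mul_neg, one_mul] at h2

/-- `GL₂(k)` moves any pair of distinct points to `(∞, 0)`. -/
lemma exists_move {y1 y2 : OnePoint k} (hne : y1 ≠ y2) :
    ∃ h : GL (Fin 2) k, h • y1 = ∞ ∧ h • y2 = ((0 : k) : OnePoint k) := by
  obtain ⟨h1, hh1⟩ : ∃ h1 : GL (Fin 2) k, h1 • y1 = ∞ := by
    cases y1 with
    | infty => exact ⟨1, one_smul _ _⟩
    | coe c =>
      refine ⟨Matrix.GeneralLinearGroup.mkOfDetNeZero !![0, 1; 1, -c] (by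
        simp [Matrix.det_fin_two]), ?_⟩
      rw [smul_some_eq_ite]
      simp [Matrix.GeneralLinearGroup.mkOfDetNeZero]
  have hne2 : h1 • y2 ≠ ∞ := by
    intro h
    rw [← hh1] at h
    exact hne (MulAction.injective h1 h).symm
  obtain ⟨b, hb⟩ := OnePoint.ne_infty_iff_exists.mp hne2
  refine ⟨uu (-b) * h1, ?_, ?_⟩
  · rw [mul_smul, hh1, uu_smul_infty]
  · rw [mul_smul, ← hb, uu_smul_coe]; simp

/-- A unipotent parabolic element fixing `0` is `ll s` with `s ≠ 0`. -/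
lemma eq_ll_of_unipotent (h2 : (2 : k) ≠ 0) {g : GL (Fin 2) k} (hp : g.IsParabolic)
    (htr : g.val.trace = 2) (hfix : g • ((0 : k) : OnePoint k) = ((0 : k) : OnePoint k)) :
    g = ll (g 1 0) ∧ g 1 0 ≠ 0 := by
  have h01 : g 0 1 = 0 := by
    rw [smul_some_eq_ite] at hfix
    by_cases h11 : g 1 0 * 0 + g 1 1 = 0
    · rw [if_pos h11] at hfix
      exact (OnePoint.infty_ne_coe _ hfix).elim
    · rw [if_neg h11, OnePoint.coe_eq_coe] at hfix
      simp only [mul_zero, zero_add] at hfix h11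
      rcases div_eq_zero_iff.mp hfix with h | h
      · exact h
      · exact (h11 h).elim
  have hd := hp.2
  rw [Matrix.discr_fin_two, Matrix.det_fin_two, h01, zero_mul, sub_zero] at hd
  rw [Matrix.trace_fin_two] at htr hd
  have hsq : (g 0 0 - g 1 1) ^ 2 = 0 := by linear_combination hd
  have heq : g 0 0 = g 1 1 := by
    have := pow_eq_zero_iff (two_ne_zero) |>.mp hsq
    linear_combination this
  have h00 : g 0 0 = 1 := by
    have h3 : (2 : k) * (g 0 0 - 1) = 0 := by linear_combination htr + heq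
    rcases mul_eq_zero.mp h3 with h | h
    · exact (h2 h).elim
    · linear_combination h
  have h11 : g 1 1 = 1 := by rw [← heq, h00]
  have hne : g 1 0 ≠ 0 := by
    intro h10
    apply hp.1
    rw [mem_range_scalar_iff]
    exact ⟨h01, h10, heq⟩
  refine ⟨?_, hne⟩
  ext i j
  fin_cases i <;> fin_cases j <;> simp [h01, h00, h11]

section withp

variable (p : ℕ) [Fact p.Prime] [CharP k p]

lemma odd_p (hp2 : p ≠ 2) : Odd p := (Fact.out : p.Prime).odd_of_ne_two hp2

lemma two_ne_zero_of (hp2 : p ≠ 2) : (2 : k) ≠ 0 := by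
  intro h
  have h2 : ((2 : ℕ) : k) = 0 := by exact_mod_cast h
  have h3 := (CharP.cast_eq_zero_iff k p 2).mp h2
  have := (Nat.prime_dvd_prime_iff_eq (Fact.out : p.Prime) Nat.prime_two).mp h3
  exact hp2 this

lemma uu_mem_of_mem_HH (hp2 : p ≠ 2) {t : k} (ht : uu t ∈ HH G) : uu t ∈ G :=
  mem_of_mem_HH_of_pow p (odd_p p hp2) ht (uu_pow_p p t)

lemma mem_A_HH (hp2 : p ≠ 2) {t : k} : t ∈ A (HH G) ↔ uu t ∈ G := by
  rw [mem_A_iff]
  constructor
  · exact uu_mem_of_mem_HH p hp2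
  · intro h
    refine mem_HH_of_mem h ?_
    rw [Matrix.det_fin_two]
    have e00 : (uu t).val 0 0 = 1 := uu_00 t
    have e01 : (uu t).val 0 1 = t := uu_01 t
    have e10 : (uu t).val 1 0 = 0 := uu_10 t
    have e11 : (uu t).val 1 1 = 1 := uu_11 t
    rw [e00, e01, e10, e11]; ring

lemma neg_smul' (g : GL (Fin 2) k) (x : OnePoint k) : (-g) • x = g • x := by
  have : (-g : GL (Fin 2) k) = (-1) * g := by simp
  rw [this, mul_smul, neg_one_smul']

lemma trace_conj' (g v : GL (Fin 2) k) : (g * v * g⁻¹ : GL (Fin 2) k).val.trace = v.val.trace := by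
  rw [Units.val_mul, Units.val_mul, Matrix.trace_mul_comm, ← Matrix.mul_assoc, ← Units.val_mul,
    inv_mul_cancel, Units.val_one, Matrix.one_mul]

lemma det_conj' (g v : GL (Fin 2) k) : (g * v * g⁻¹ : GL (Fin 2) k).val.det = v.val.det := by
  rw [Units.val_mul, Units.val_mul, Matrix.det_mul, Matrix.det_mul, mul_comm, ← mul_assoc,
    ← Matrix.det_mul, ← Units.val_mul, inv_mul_cancel, Units.val_one, Matrix.det_one, one_mul]

/-- The image under `g ∈ G` of the fixed point of a unipotent parabolic element of `G` lies in the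
orbit of `∞` under `HH G`. -/
lemma smul_mem_OO (hp2 : p ≠ 2) (hsplit : ∀ g ∈ G, IsSquare g.val.discr)
    (hA : ∃ t : k, t ≠ 0 ∧ uu t ∈ G) {v : GL (Fin 2) k} (hv : v ∈ G) (hvp : v.IsParabolic)
    (hvt : v.val.trace = 2) (hvd : v.val.det = 1) {x : OnePoint k} (hx : v • x = x)
    {g : GL (Fin 2) k} (hg : g ∈ G) : g • x ∈ OO (HH G) := by
  have h2 : (2 : k) ≠ 0 := two_ne_zero_of p hp2
  have hH := std_HH h2 hsplit
  have hA' : ∃ t : k, t ≠ 0 ∧ t ∈ A (HH G) := by
    obtain ⟨t, ht0, ht⟩ := hA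
    exact ⟨t, ht0, (mem_A_HH p hp2).mpr ht⟩
  have hmem : g * v * g⁻¹ ∈ HH G :=
    mem_HH_of_mem (G.mul_mem (G.mul_mem hg hv) (G.inv_mem hg)) (by rw [det_conj', hvd])
  refine fixed_mem_OO p hH hA' hmem ?_ ?_ ?_
  · exact (GeneralLinearGroup.isParabolic_conj_iff g v).mpr hvp
  · rw [trace_conj', hvt]
  · rw [mul_smul, mul_smul, inv_smul_smul, hx]

/-- Every determinant of `G` is realised by an element of `G` fixing `∞`. -/
lemma exists_upper_of_det (hp2 : p ≠ 2) (hsplit : ∀ g ∈ G, IsSquare g.val.discr)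
    (hA : ∃ t : k, t ≠ 0 ∧ uu t ∈ G) {g : GL (Fin 2) k} (hg : g ∈ G) :
    ∃ c ∈ G, c 1 0 = 0 ∧ c.val.det = g.val.det := by
  obtain ⟨t0, ht0, htG⟩ := hA
  have hu : (uu t0).val.det = 1 := ((mem_A_HH (G := G) p hp2).mpr htG).1
  have hmem := smul_mem_OO p hp2 hsplit ⟨t0, ht0, htG⟩ htG (uu_isParabolic ht0) (uu_trace t0) hu
    (uu_smul_infty t0) hg
  obtain ⟨⟨h', hh'⟩, hh'2⟩ := hmem
  have hh'3 : h' • (∞ : OnePoint k) = g • ∞ := hh'2
  -- h'' = ± h' in G
  obtain ⟨h'', hh''G, hh''s, hh''d⟩ : ∃ h'' ∈ G, h'' • (∞ : OnePoint k) = g • ∞ ∧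
      h''.val.det = 1 := by
    rcases hh'.2 with h | h
    · exact ⟨h', h, hh'3, hh'.1⟩
    · exact ⟨-h', h, by rw [neg_smul', hh'3], by rw [det_neg_two]; exact hh'.1⟩
  refine ⟨h''⁻¹ * g, G.mul_mem (G.inv_mem hh''G) hg, ?_, ?_⟩
  · rw [← smul_infty_eq_self_iff, mul_smul, ← hh''s, inv_smul_smul]
  · rw [Units.val_mul, Matrix.det_mul, det_inv_eq_one hh''d, one_mul]

lemma ll_det (s : k) : (ll s).val.det = 1 := by
  rw [Matrix.det_fin_two]
  have e00 : (ll s).val 0 0 = 1 := ll_00 s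
  have e01 : (ll s).val 0 1 = 0 := ll_01 s
  have e10 : (ll s).val 1 0 = s := ll_10 s
  have e11 : (ll s).val 1 1 = 1 := ll_11 s
  rw [e00, e01, e10, e11]; ring

/-- Squares of ratios of elements of `A` are multipliers of determinant-one upper triangular
elements of `G`, when `|A| ≠ 3`. -/
lemma sq_mem_X1 (hp2 : p ≠ 2) (hsplit : ∀ g ∈ G, IsSquare g.val.discr) {t0 s0 : k}
    (ht0 : t0 ≠ 0) (htG : uu t0 ∈ G) (hs0 : s0 ≠ 0) (hsG : ll s0 ∈ G)
    (hq : Nat.card (A (HH G)) ≠ 3) {r : k} (hr0 : r ≠ 0) (hr : uu (r * t0) ∈ G) :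
    r ^ 2 ∈ X1 G := by
  have h2 : (2 : k) ≠ 0 := two_ne_zero_of p hp2
  have hH := std_HH h2 hsplit
  have hA' : ∃ t : k, t ≠ 0 ∧ t ∈ A (HH G) := ⟨t0, ht0, (mem_A_HH p hp2).mpr htG⟩
  have hL' : ∃ s : k, s ≠ 0 ∧ ll s ∈ HH G := ⟨s0, hs0, mem_HH_of_mem hsG (ll_det s0)⟩
  have hrt : r * t0 ≠ 0 := mul_ne_zero hr0 ht0
  have hdd := dd_mem p hH hA' hL' hq ((mem_A_HH p hp2).mpr hr) hrt ((mem_A_HH p hp2).mpr htG) ht0
  obtain ⟨d00, d01, d10, d11⟩ := dd_entries hrt ht0
  have hval : (r * t0 / t0) / (t0 / (r * t0)) = r ^ 2 := by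
    field_simp
  rcases hdd.2 with h | h
  · refine ⟨dd (r * t0) t0, h, d10, hdd.1, ?_⟩
    rw [d00, d11, hval]
  · refine ⟨-dd (r * t0) t0, h, ?_, ?_, ?_⟩
    · simp [d10]
    · rw [det_neg_two]; exact hdd.1
    · simp only [Units.val_neg, Matrix.neg_apply, d00, d11]
      rw [neg_div_neg_eq, hval]

/-- In characteristic `3` the multiplier of any upper triangular element of `G` lies in the
additive span of the multipliers of determinant one. -/
lemma span_three [CharP k 3] (hsplit : ∀ g ∈ G, IsSquare g.val.discr) {t0 s0 : k}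
    (ht0 : t0 ≠ 0) (htG : uu t0 ∈ G) (hs0 : s0 ≠ 0) (hsG : ll s0 ∈ G)
    {c0 : GL (Fin 2) k} (hc0 : c0 ∈ G) (h10 : c0 1 0 = 0) :
    c0 0 0 / c0 1 1 ∈ AddSubgroup.closure (X1 G) := by
  have : Fact (Nat.Prime 3) := ⟨Nat.prime_three⟩
  have hp2 : (3 : ℕ) ≠ 2 := by norm_num
  have h3 : (3 : k) = 0 := by
    have := CharP.cast_eq_zero k 3
    simpa using this
  set x0 := c0 0 0 / c0 1 1 with hx0
  have hxt : uu (x0 * t0) ∈ G := uu_mul_mem hc0 h10 htG
  have hone : (1 : k) ∈ X1 G := ⟨1, G.one_mem, by simp, by simp, by simp⟩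
  by_cases hq : Nat.card (A (HH G)) = 3
  · -- `A` is generated by `t0`
    have hle : AddSubgroup.zmultiples t0 ≤ A (HH G) := by
      rw [AddSubgroup.zmultiples_le]
      exact (mem_A_HH 3 hp2).mpr htG
    have hcard : Nat.card (AddSubgroup.zmultiples t0) = 3 := by
      rw [Nat.card_zmultiples]
      apply addOrderOf_eq_prime
      · rw [nsmul_eq_mul]
        push_cast
        rw [h3, zero_mul]
      · exact ht0
    have heq : AddSubgroup.zmultiples t0 = A (HH G) :=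
      AddSubgroup.eq_of_le_of_card_ge hle (by rw [hcard, hq])
    have hmem : x0 * t0 ∈ AddSubgroup.zmultiples t0 := by
      rw [heq]; exact (mem_A_HH 3 hp2).mpr hxt
    obtain ⟨j, hj⟩ := AddSubgroup.mem_zmultiples_iff.mp hmem
    have hx : x0 = (j : k) := by
      rw [zsmul_eq_mul] at hj
      exact (mul_right_cancel₀ ht0 hj).symm
    rw [hx]
    have : (j : k) = j • (1 : k) := by simp
    rw [this]
    exact AddSubgroup.zsmul_mem _ (AddSubgroup.subset_closure hone) j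
  · have hsq : ∀ r : k, uu (r * t0) ∈ G → r ^ 2 ∈ AddSubgroup.closure (X1 G) := by
      intro r hr
      by_cases hr0 : r = 0
      · rw [hr0]; simp
      · exact AddSubgroup.subset_closure
          (sq_mem_X1 3 hp2 hsplit ht0 htG hs0 hsG hq hr0 hr)
    have e1 := hsq x0 hxt
    have e2 := hsq (x0 + 1) (by
      rw [add_mul, one_mul, uu_add]; exact G.mul_mem hxt htG)
    have e3 := AddSubgroup.subset_closure hone
    have hx : x0 = x0 ^ 2 + 1 - (x0 + 1) ^ 2 := by linear_combination x0 * h3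
    rw [hx]
    exact AddSubgroup.sub_mem _ (AddSubgroup.add_mem _ e1 e3) e2

lemma diag_anti {c n : GL (Fin 2) k} (c01 : c 0 1 = 0) (c10 : c 1 0 = 0) (n00 : n 0 0 = 0)
    (n11 : n 1 1 = 0) :
    (c * n * c * n⁻¹ : GL (Fin 2) k).val = Matrix.scalar (Fin 2) (c 0 0 * c 1 1) := by
  have h1 : (c * n * c : GL (Fin 2) k).val = (c 0 0 * c 1 1) • n.val := by
    ext i j
    fin_cases i <;> fin_cases j <;>
      simp [Matrix.mul_apply, Fin.sum_univ_two, c01, c10, n00, n11] <;> ring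
  rw [Units.val_mul, h1, Matrix.smul_mul, Units.mul_inv, Matrix.scalar_apply]
  ext i j
  fin_cases i <;> fin_cases j <;> simp

/-- For `p ≥ 5` the group `G` contains the scalar matrix `2`. -/
lemma exists_scalar_two (hp2 : p ≠ 2) (hp3 : p ≠ 3) (hsplit : ∀ g ∈ G, IsSquare g.val.discr)
    {t0 s0 : k} (ht0 : t0 ≠ 0) (htG : uu t0 ∈ G) (hs0 : s0 ≠ 0) (hsG : ll s0 ∈ G)
    (hdet : ∃ g ∈ G, g.val.det = 2) :
    ∃ z ∈ G, z.val = Matrix.scalar (Fin 2) (2 : k) := by
  have h2 : (2 : k) ≠ 0 := two_ne_zero_of p hp2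
  have hH := std_HH h2 hsplit
  have hA : ∃ t : k, t ≠ 0 ∧ uu t ∈ G := ⟨t0, ht0, htG⟩
  have hA' : ∃ t : k, t ≠ 0 ∧ t ∈ A (HH G) := ⟨t0, ht0, (mem_A_HH p hp2).mpr htG⟩
  have hL' : ∃ s : k, s ≠ 0 ∧ ll s ∈ HH G := ⟨s0, hs0, mem_HH_of_mem hsG (ll_det s0)⟩
  have hq : Nat.card (A (HH G)) ≠ 3 := by
    intro h
    have h1 : p ∣ Nat.card (A (HH G)) := p_dvd_card_A hA'
    rw [h] at h1
    exact hp3 ((Nat.prime_dvd_prime_iff_eq (Fact.out : p.Prime) Nat.prime_three).mp h1)
  obtain ⟨g, hg, hgdet⟩ := hdet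
  obtain ⟨c, hc, hc10, hcdet⟩ := exists_upper_of_det p hp2 hsplit hA hg
  have hcinf : c • (∞ : OnePoint k) = ∞ := smul_infty_eq_self_iff.mpr hc10
  -- the image of 0 under c
  have hc0 : c • ((0 : k) : OnePoint k) ∈ OO (HH G) :=
    smul_mem_OO p hp2 hsplit hA hsG (ll_isParabolic hs0) (ll_trace s0) (ll_det s0)
      (ll_smul_zero s0) hc
  have hne : c • ((0 : k) : OnePoint k) ≠ ∞ := by
    intro h
    rw [← hcinf] at h
    exact OnePoint.coe_ne_infty _ (MulAction.injective c h)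
  obtain ⟨b, hb⟩ := OnePoint.ne_infty_iff_exists.mp hne
  have hbA : b ∈ A (HH G) := by
    have : b ∈ Ofin (HH G) := by
      change (b : OnePoint k) ∈ OO (HH G)
      rw [hb]; exact hc0
    rw [Ofin_eq_A p hH hA' hL' hq] at this
    exact this
  have hub : uu (-b) ∈ G := (mem_A_HH p hp2).mp ((A (HH G)).neg_mem hbA)
  -- the diagonal element
  set c' := uu (-b) * c with hc'
  have hc'G : c' ∈ G := G.mul_mem hub hc
  have hc'inf : c' • (∞ : OnePoint k) = ∞ := by
    rw [hc', mul_smul, hcinf, uu_smul_infty]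
  have hc'0 : c' • ((0 : k) : OnePoint k) = ((0 : k) : OnePoint k) := by
    rw [hc', mul_smul, ← hb, uu_smul_coe]; simp
  have c10 : c' 1 0 = 0 := smul_infty_eq_self_iff.mp hc'inf
  have c01 : c' 0 1 = 0 := by
    rw [smul_some_eq_ite] at hc'0
    have h11 : c' 1 1 ≠ 0 := by
      intro h
      have := det_ne_zero' c'
      rw [h, c10] at this
      simp at this
    rw [if_neg (by simpa [c10] using h11), OnePoint.coe_eq_coe] at hc'0
    simp only [mul_zero, zero_add] at hc'0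
    rcases div_eq_zero_iff.mp hc'0 with h | h
    · exact h
    · exact (h11 h).elim
  have hc'det : c' 0 0 * c' 1 1 = 2 := by
    have : c'.val.det = 2 := by
      rw [hc', Units.val_mul, Matrix.det_mul, hcdet, hgdet]
      have hu : (uu (-b)).val.det = 1 := ((mem_A_HH (G := G) p hp2).mpr hub).1
      rw [hu, one_mul]
    rw [det_eq, c01, zero_mul, sub_zero] at this
    exact this
  -- the antidiagonal element
  have hnn := nn_mem p hH hA' hL' hq ((mem_A_HH p hp2).mpr htG) ht0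
  obtain ⟨n00, -, -, n11⟩ := nn_entries ht0
  obtain ⟨n', hn'G, hn'00, hn'11⟩ : ∃ n' ∈ G, n' 0 0 = 0 ∧ n' 1 1 = 0 := by
    rcases hnn.2 with h | h
    · exact ⟨nn t0, h, n00, n11⟩
    · exact ⟨-nn t0, h, by simp [n00], by simp [n11]⟩
  refine ⟨c' * n' * c' * n'⁻¹, G.mul_mem (G.mul_mem (G.mul_mem hc'G hn'G) hc'G) (G.inv_mem hn'G), ?_⟩
  rw [diag_anti c01 c10 hn'00 hn'11, hc'det]

variable {ψ : GL (Fin 2) k → Matrix (Fin 2) (Fin 2) k}

/-- The theorem in standard position: `G` contains a nontrivial upper unipotent and a nontrivial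
lower unipotent. -/
theorem std_position (hp2 : p ≠ 2) (hsplit : ∀ g ∈ G, IsSquare g.val.discr)
    {t0 s0 : k} (ht0 : t0 ≠ 0) (htG : uu t0 ∈ G) (hs0 : s0 ≠ 0) (hsG : ll s0 ∈ G)
    (hdet : ∃ g ∈ G, g.val.det = 2) (hψ : IsCocycleOn G ψ) : IsCoboundaryOn G ψ := by
  by_cases hp3 : p = 3
  · subst hp3
    have h3 : (3 : k) = 0 := by
      have := CharP.cast_eq_zero k 3
      simpa using this
    obtain ⟨g, hg, hgdet⟩ := hdet
    obtain ⟨c0, hc0, h10, hc0det⟩ :=
      exists_upper_of_det 3 hp2 hsplit ⟨t0, ht0, htG⟩ hg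
    have hdet0 : c0.val.det = -1 := by
      rw [hc0det, hgdet]; linear_combination h3
    exact charThree_main hψ ht0 htG hc0 h10 hdet0
      (span_three hsplit ht0 htG hs0 hsG hc0 h10)
  · obtain ⟨z, hz, hzv⟩ := exists_scalar_two p hp2 hp3 hsplit ht0 htG hs0 hsG hdet
    refine isCoboundaryOn_of_scalar hψ hz hzv ?_
    intro h
    have h3 : ((3 : ℕ) : k) = 0 := by
      push_cast
      linear_combination h
    have := (CharP.cast_eq_zero_iff k p 3).mp h3
    exact hp3 ((Nat.prime_dvd_prime_iff_eq (Fact.out : p.Prime) Nat.prime_three).mp this)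

/-- **Vanishing of the twisted `H¹`** (ambient form).  Let `k` be a finite field of odd
characteristic `p`, `G ≤ GL₂(k)` a subgroup all of whose elements have their eigenvalues in `k`,
without fixed point on the projective line over `k`, and containing an element of determinant `2`.
Then every cocycle on `G` with values in trace-zero matrices with the twisted adjoint action
`g • X = det g • g X g⁻¹` is a coboundary. -/
theorem main_ambient (hp2 : p ≠ 2) (hsplit : ∀ g ∈ G, IsSquare g.val.discr)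
    (hirr : ∀ x : OnePoint k, ∃ g ∈ G, g • x ≠ x)
    (hdet : ∃ g ∈ G, g.val.det = 2) (hψ : IsCocycleOn G ψ) : IsCoboundaryOn G ψ := by
  have h2 : (2 : k) ≠ 0 := two_ne_zero_of p hp2
  have : NeZero (2 : k) := ⟨h2⟩
  by_cases hpG : p ∣ Nat.card G
  · obtain ⟨g0, hg0⟩ := exists_prime_orderOf_dvd_card' p hpG
    have hpow : (g0 : GL (Fin 2) k) ^ p ^ 1 = 1 := by
      rw [pow_one]
      have := pow_orderOf_eq_one g0
      rw [hg0] at this
      exact_mod_cast congrArg Subtype.val this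
    have hne1 : (g0 : GL (Fin 2) k) ≠ 1 := by
      intro h
      have : g0 = 1 := Subtype.ext h
      rw [this, orderOf_one] at hg0
      exact (Fact.out : p.Prime).one_lt.ne hg0
    obtain ⟨hpar, htr⟩ := isParabolic_of_pow_eq_one p h2 hpow hne1
    obtain ⟨-, -, hdet1⟩ := unipotent_of_pow_eq_one p hpow
    have hfix : (g0 : GL (Fin 2) k) • (g0 : GL (Fin 2) k).parabolicFixedPoint
        = (g0 : GL (Fin 2) k).parabolicFixedPoint := hpar.smul_eq_self_iff.mpr rfl
    set xinf := (g0 : GL (Fin 2) k).parabolicFixedPoint with hxinf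
    obtain ⟨g1, hg1, hg1x⟩ := hirr xinf
    obtain ⟨h, hh1, hh2⟩ := exists_move (Ne.symm hg1x)
    have hh1' : h⁻¹ • (∞ : OnePoint k) = xinf := by rw [← hh1, inv_smul_smul]
    have hh2' : h⁻¹ • ((0 : k) : OnePoint k) = g1 • xinf := by rw [← hh2, inv_smul_smul]
    have hψ' := hψ.conj h
    -- the upper unipotent
    have huG : h * (g0 : GL (Fin 2) k) * h⁻¹ ∈ conjSub h G := conj_mem_conjSub g0.2
    have hupar : (h * (g0 : GL (Fin 2) k) * h⁻¹).IsParabolic :=
      (GeneralLinearGroup.isParabolic_conj_iff h _).mpr hpar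
    have hutr : (h * (g0 : GL (Fin 2) k) * h⁻¹ : GL (Fin 2) k).val.trace = 2 := by
      rw [trace_conj', htr]
    have hufix : (h * (g0 : GL (Fin 2) k) * h⁻¹) • (∞ : OnePoint k) = ∞ := by
      rw [mul_smul, mul_smul, hh1', hfix, hh1]
    obtain ⟨hueq, ht0⟩ := eq_uu_of_unipotent' h2 hupar hutr hufix
    rw [hueq] at huG
    -- the lower unipotent
    have hvG : g1 * (g0 : GL (Fin 2) k) * g1⁻¹ ∈ G :=
      G.mul_mem (G.mul_mem hg1 g0.2) (G.inv_mem hg1)
    have hvfix : (g1 * (g0 : GL (Fin 2) k) * g1⁻¹) • (g1 • xinf) = g1 • xinf := by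
      rw [mul_smul, mul_smul, inv_smul_smul, hfix]
    have hlG : h * (g1 * (g0 : GL (Fin 2) k) * g1⁻¹) * h⁻¹ ∈ conjSub h G :=
      conj_mem_conjSub hvG
    have hlpar : (h * (g1 * (g0 : GL (Fin 2) k) * g1⁻¹) * h⁻¹).IsParabolic :=
      (GeneralLinearGroup.isParabolic_conj_iff h _).mpr
        ((GeneralLinearGroup.isParabolic_conj_iff g1 _).mpr hpar)
    have hltr : (h * (g1 * (g0 : GL (Fin 2) k) * g1⁻¹) * h⁻¹ : GL (Fin 2) k).val.trace = 2 := by
      rw [trace_conj', trace_conj', htr]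
    have hlfix : (h * (g1 * (g0 : GL (Fin 2) k) * g1⁻¹) * h⁻¹) • ((0 : k) : OnePoint k)
        = ((0 : k) : OnePoint k) := by
      rw [mul_smul, mul_smul, hh2', hvfix, hh2]
    obtain ⟨hleq, hs0⟩ := eq_ll_of_unipotent h2 hlpar hltr hlfix
    rw [hleq] at hlG
    -- hypotheses for the conjugated group
    have hsplit' : ∀ g ∈ conjSub h G, IsSquare g.val.discr := by
      intro g hg
      have := hsplit _ (mem_conjSub.mp hg)
      rw [Units.val_mul, Units.val_mul, Matrix.coe_units_inv, Matrix.discr_conj'] at this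
      exact this
    have hdet' : ∃ g ∈ conjSub h G, g.val.det = 2 := by
      obtain ⟨g, hg, hgd⟩ := hdet
      exact ⟨h * g * h⁻¹, conj_mem_conjSub hg, by rw [det_conj', hgd]⟩
    exact isCoboundaryOn_of_conj h
      (std_position p hp2 hsplit' ht0 huG hs0 hlG hdet' hψ')
  · apply isCoboundaryOn_of_card_ne_zero hψ
    intro h
    exact hpG ((CharP.cast_eq_zero_iff k p _).mp h)

end withp

end Fermat.Agent.TW.Dickson.Main78
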