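import Mathlib
import Fermat.Agent.TW.Dickson.Main78

/-!
# Vanishing of the twisted `H¹(G, sl₂ ⊗ det)` for finite subgroups of `GL₂(k)`: user-facing forms

* `twisted_h1_vanish` : cocycles defined on a subgroup `G ≤ GL (Fin 2) k`;
* `twisted_h1_vanish_hom` : cocycles on an arbitrary group `Γ` with `ρ : Γ →* GL (Fin 2) k`,
  vanishing on `ker ρ`.
-/

set_option autoImplicit false
set_option linter.unusedSectionVars false

namespace Fermat.Agent.TW.Dickson.Final78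

open Matrix OnePoint
open scoped MatrixGroups
open Fermat.Agent.TW.Dickson.Cohom78 Fermat.Agent.TW.Dickson.Main78

variable {k : Type*} [Field k] [DecidableEq k] [Fintype k]
variable (p : ℕ) [Fact p.Prime] [CharP k p]

/-- **Vanishing of the twisted `H¹`**, for cocycles on an arbitrary group `Γ` acting through
`ρ : Γ →* GL (Fin 2) k` and vanishing on `ker ρ`. -/
theorem twisted_h1_vanish_hom (hp2 : p ≠ 2) {Γ : Type*} [Group Γ] (ρ : Γ →* GL (Fin 2) k)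
    (hsplit : ∀ γ : Γ, IsSquare (ρ γ).val.discr)
    (hirr : ∀ x : OnePoint k, ∃ γ : Γ, ρ γ • x ≠ x)
    (hdet : ∃ γ : Γ, (ρ γ).val.det = 2)
    (ψ : Γ → Matrix (Fin 2) (Fin 2) k) (htr : ∀ γ, (ψ γ).trace = 0)
    (hcoc : ∀ γ δ : Γ, ψ (γ * δ) = ψ γ + act (ρ γ) (ψ δ))
    (hker : ∀ γ : Γ, ρ γ = 1 → ψ γ = 0) :
    ∃ Y : Matrix (Fin 2) (Fin 2) k, Y.trace = 0 ∧ ∀ γ : Γ, ψ γ = act (ρ γ) Y - Y := by
  classical
  -- ψ factors through ρ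
  have hfac : ∀ γ δ : Γ, ρ γ = ρ δ → ψ γ = ψ δ := by
    intro γ δ h
    have h1 : ρ (γ⁻¹ * δ) = 1 := by rw [map_mul, map_inv, h, inv_mul_cancel]
    have h2 := hcoc γ (γ⁻¹ * δ)
    rw [mul_inv_cancel_left, hker _ h1, act_zero, add_zero] at h2
    exact h2.symm
  let ψ' : GL (Fin 2) k → Matrix (Fin 2) (Fin 2) k :=
    fun g => if h : ∃ γ : Γ, ρ γ = g then ψ h.choose else 0
  have hψ' : ∀ γ : Γ, ψ' (ρ γ) = ψ γ := by
    intro γ
    have h : ∃ δ : Γ, ρ δ = ρ γ := ⟨γ, rfl⟩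
    simp only [ψ', dif_pos h]
    exact hfac _ _ h.choose_spec
  have hcocy : IsCocycleOn ρ.range ψ' := by
    constructor
    · rintro g ⟨γ, rfl⟩
      rw [hψ']; exact htr γ
    · rintro g ⟨γ, rfl⟩ g' ⟨δ, rfl⟩
      rw [← map_mul, hψ', hψ', hψ', hcoc]
  have hsplit' : ∀ g ∈ ρ.range, IsSquare g.val.discr := by
    rintro g ⟨γ, rfl⟩; exact hsplit γ
  have hirr' : ∀ x : OnePoint k, ∃ g ∈ ρ.range, g • x ≠ x := by
    intro x
    obtain ⟨γ, hγ⟩ := hirr x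
    exact ⟨ρ γ, ⟨γ, rfl⟩, hγ⟩
  have hdet' : ∃ g ∈ ρ.range, g.val.det = 2 := by
    obtain ⟨γ, hγ⟩ := hdet
    exact ⟨ρ γ, ⟨γ, rfl⟩, hγ⟩
  obtain ⟨Y, hY, hY'⟩ := main_ambient p hp2 hsplit' hirr' hdet' hcocy
  refine ⟨Y, hY, fun γ => ?_⟩
  rw [← hψ', hY' (ρ γ) ⟨γ, rfl⟩]

/-- **Vanishing of the twisted `H¹`**, for cocycles on a subgroup `G ≤ GL (Fin 2) k`. -/
theorem twisted_h1_vanish (hp2 : p ≠ 2) (G : Subgroup (GL (Fin 2) k))
    (hsplit : ∀ g ∈ G, IsSquare g.val.discr)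
    (hirr : ∀ x : OnePoint k, ∃ g ∈ G, g • x ≠ x)
    (hdet : ∃ g ∈ G, g.val.det = 2)
    (ψ : G → Matrix (Fin 2) (Fin 2) k) (htr : ∀ g, (ψ g).trace = 0)
    (hcoc : ∀ g h : G, ψ (g * h) = ψ g + act (g : GL (Fin 2) k) (ψ h)) :
    ∃ Y : Matrix (Fin 2) (Fin 2) k, Y.trace = 0 ∧
      ∀ g : G, ψ g = act (g : GL (Fin 2) k) Y - Y := by
  refine twisted_h1_vanish_hom p hp2 G.subtype (fun g => hsplit g g.2) (fun x => ?_) ?_ ψ htr hcoc
    (fun g hg => ?_)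
  · obtain ⟨g, hg, hgx⟩ := hirr x
    exact ⟨⟨g, hg⟩, hgx⟩
  · obtain ⟨g, hg, hgd⟩ := hdet
    exact ⟨⟨g, hg⟩, hgd⟩
  · have : g = 1 := Subtype.ext hg
    rw [this]
    have h1 := hcoc 1 1
    rw [mul_one] at h1
    have h2 : act ((1 : G) : GL (Fin 2) k) (ψ 1) = ψ 1 := act_one _
    rw [h2] at h1
    exact left_eq_add.mp h1

end Fermat.Agent.TW.Dickson.Final78
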