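import Mathlib

/-!
# TW / Dickson : the arithmetic core of the Klein count (helper81)

`q` = order of a Sylow `p`-subgroup, `ω = 1 + q s` = number of Sylow `p`-subgroups,
`e q k` = order of a Sylow normaliser, `e c` = order of the other point stabilisers.
The Burnside count gives `c (ω - 2 s) = k ω`; together with `c ∣ ω` and `k ≤ q - 1` this forces
`s = 1` as soon as `q > 3`.
-/

set_option autoImplicit false

namespace Fermat.Agent.TW.Dickson.Arith81

/-- The arithmetic core: `s = 1`. -/
theorem s_eq_one {q k c s ω : ℕ} (hq : 4 ≤ q) (hs : 1 ≤ s) (hc : 1 ≤ c)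
    (hω : ω = 1 + q * s) (heq : c * ω = k * ω + 2 * s * c) (hdiv : c ∣ ω) (hkq : k + 1 ≤ q) :
    s = 1 := by
  obtain ⟨m, hm⟩ := hdiv
  -- `c m = k m + 2 s`
  have h2 : c * m = k * m + 2 * s := by
    have h3 : c * (c * m) = c * (k * m + 2 * s) := by
      rw [← hm, heq, hm]; ring
    exact Nat.eq_of_mul_eq_mul_left hc h3
  have h1 : c * m = 1 + q * s := by rw [← hm, hω]
  -- `m ∣ 2`
  have hm2 : m ∣ 2 := by
    have hzc : (c : ℤ) * m = k * m + 2 * s := by exact_mod_cast h2
    have hz1 : (c : ℤ) * m = 1 + q * s := by exact_mod_cast h1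
    have : (m : ℤ) ∣ 2 := by
      refine ⟨2 * c - q * (c - k), ?_⟩
      have e1 : (2 : ℤ) * s = m * (c - k) := by linarith
      have : (2 : ℤ) * (c * m) = 2 + q * (2 * s) := by linarith
      rw [e1] at this
      linarith
    exact_mod_cast this
  rcases (Nat.dvd_prime Nat.prime_two).mp hm2 with rfl | rfl
  · -- `m = 1`: `k = 1 + (q - 2) s`
    simp only [mul_one] at h1 h2
    by_contra hne
    have hs2 : 2 ≤ s := by omega
    have h4 : 2 * q ≤ q * s := by nlinarith
    have h5 : 4 * s ≤ q * s := by nlinarith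
    omega
  · -- `m = 2`: `2 k = 1 + (q - 2) s`
    by_contra hne
    have hs2 : 2 ≤ s := by omega
    rcases Nat.lt_or_ge s 3 with h3 | h3
    · have hs' : s = 2 := by omega
      subst hs'
      omega
    · have h4 : 2 * q + 2 * s ≤ q * s + 2 := by
        obtain ⟨q', rfl⟩ := Nat.exists_eq_add_of_le hq
        obtain ⟨s', rfl⟩ := Nat.exists_eq_add_of_le h3
        nlinarith
      omega

end Fermat.Agent.TW.Dickson.Arith81
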