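import Mathlib

/-!
# Dickson–Borel brick: the arithmetic step (version without `c ∣ ω`)

From the Klein count one gets `c * (1 + s * (q - 2)) = k * (1 + q * s)` with `1 ≤ k ≤ q - 1`.
For `q ≥ 4` this forces `s = 1`.  (For `q = 3` there is the solution `s = 3, k = 2, c = 5`:
`SL(2,5) ⊂ SL(2,9)`.)  We write `q = r + 2`.
-/

namespace Fermat.Agent.TW.Dickson.ArithB81

theorem s_eq_one {r s k c : ℕ} (hr : 2 ≤ r) (hs : 1 ≤ s) (hk1 : 1 ≤ k) (hk : k ≤ r + 1)
    (heq : c * (1 + s * r) = k * (1 + (r + 2) * s)) : s = 1 := by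
  have hD : (1 + s * r) ∣ k * (2 * s) := by
    have h1 : (1 + s * r) ∣ k * (1 + s * r) + k * (2 * s) := by
      have : k * (1 + s * r) + k * (2 * s) = c * (1 + s * r) := by rw [heq]; ring
      rw [this]; exact dvd_mul_left _ _
    exact (Nat.dvd_add_right (dvd_mul_left _ _)).mp h1
  have hcop : Nat.Coprime (1 + s * r) s := by
    rw [Nat.coprime_add_mul_left_left]; exact Nat.coprime_one_left s
  have hD2 : (1 + s * r) ∣ k * 2 := by
    have : (1 + s * r) ∣ (k * 2) * s := by rw [mul_assoc]; exact hD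
    exact hcop.dvd_of_dvd_mul_right this
  by_contra hne
  have hs2 : 2 ≤ s := by omega
  rcases Nat.lt_or_ge s 3 with h3 | h3
  · -- s = 2
    have hs' : s = 2 := by omega
    subst hs'
    have hodd : Nat.Coprime (1 + 2 * r) 2 := by
      rw [Nat.coprime_add_mul_left_left]; exact Nat.coprime_one_left 2
    have hD3 : (1 + 2 * r) ∣ k := hodd.dvd_of_dvd_mul_right hD2
    have := Nat.le_of_dvd (by omega) hD3
    omega
  · have hle := Nat.le_of_dvd (by omega) hD2
    have : 3 * r ≤ s * r := Nat.mul_le_mul_right r h3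
    omega

end Fermat.Agent.TW.Dickson.ArithB81
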