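/-
Program TW (S56), WP8 (c), cohomology consumer, the case `p = 3` (helper52).

`exists_cob_of_char_three`: in characteristic 3, a twisted-adjoint cocycle of a group `Γ` whose
image in `GL₂(F)` contains the upper unipotent matrices `u_x`, `x ∈ E` (`E` a finite subfield) and,
up to sign, the diagonal matrices `diag(a, a⁻¹)`, `a ∈ Eˣ`, is a coboundary on the preimage of
`{u_x | x ∈ E}`.  (Mathlib + `Select/Cocycle75` only.)
-/
import Mathlib
import Fermat.Agent.TW.Select.Cocycle75

set_option autoImplicit false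

namespace Fermat.Agent.TW.Dickson.BorelThree52

open Matrix Fermat.Agent.TW.Select.Sl2Basic75 Fermat.Agent.TW.Select.Cocycle75

variable {F : Type*} [Field F]

local notation "M₂" => Matrix (Fin 2) (Fin 2)

/-! ### Matrix computations -/

section Mat

theorem val_inv_of_val_eq {g : GL (Fin 2) F} {A B : M₂ F}
    (hg : (g : M₂ F) = A) (hAB : A * B = 1) :
    ((g⁻¹ : GL (Fin 2) F) : M₂ F) = B := by
  rw [Matrix.coe_units_inv, hg]
  exact Matrix.inv_eq_right_inv hAB

theorem upper_mul_upper (x y : F) :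
    (!![1, x; 0, 1] : M₂ F) * !![1, y; 0, 1] = !![1, x + y; 0, 1] := by
  ext i j
  fin_cases i <;> fin_cases j <;>
    simp only [Matrix.mul_apply, Fin.sum_univ_two, Matrix.of_apply, Matrix.cons_val',
      Matrix.cons_val_zero, Matrix.cons_val_one, Matrix.empty_val', Matrix.cons_val_fin_one,
      Fin.zero_eta, Fin.mk_one, Fin.isValue] <;> ring

theorem upper_zero : (!![1, 0; 0, 1] : M₂ F) = 1 := by
  ext i j
  fin_cases i <;> fin_cases j <;> simp

theorem tad_upper {g : GL (Fin 2) F} {x : F} (hg : (g : M₂ F) = !![1, x; 0, 1]) (M : M₂ F) :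
    tad g M = !![M 0 0 + x * M 1 0, M 0 1 + x * M 1 1 - x * (M 0 0 + x * M 1 0);
      M 1 0, M 1 1 - x * M 1 0] := by
  have hinv := val_inv_of_val_eq hg (B := !![1, -x; 0, 1])
    (by rw [upper_mul_upper, add_neg_cancel, upper_zero])
  have hdet : det (!![1, x; 0, 1] : M₂ F) = 1 := by simp [det_fin_two]
  rw [tad, hinv, hg, hdet, one_smul]
  ext i j
  fin_cases i <;> fin_cases j <;>
    simp only [Matrix.mul_apply, Fin.sum_univ_two, Matrix.of_apply, Matrix.cons_val',
      Matrix.cons_val_zero, Matrix.cons_val_one, Matrix.empty_val', Matrix.cons_val_fin_one,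
      Fin.zero_eta, Fin.mk_one, Fin.isValue] <;> ring

theorem diag_conj_upper {a : F} (ha : a ≠ 0) (x : F) :
    (!![a⁻¹, 0; 0, a] : M₂ F) * !![1, x; 0, 1] * !![a, 0; 0, a⁻¹] = !![1, x / a ^ 2; 0, 1] := by
  ext i j
  fin_cases i <;> fin_cases j <;>
    simp only [Matrix.mul_apply, Fin.sum_univ_two, Matrix.of_apply, Matrix.cons_val',
      Matrix.cons_val_zero, Matrix.cons_val_one, Matrix.empty_val', Matrix.cons_val_fin_one,
      Fin.zero_eta, Fin.mk_one, Fin.isValue] <;> first | (field_simp; ring) | field_simp | ring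

theorem diag_mul_inv {a : F} (ha : a ≠ 0) :
    (!![a, 0; 0, a⁻¹] : M₂ F) * !![a⁻¹, 0; 0, a] = 1 := by
  ext i j
  fin_cases i <;> fin_cases j <;>
    simp only [Matrix.mul_apply, Fin.sum_univ_two, Matrix.of_apply, Matrix.cons_val',
      Matrix.cons_val_zero, Matrix.cons_val_one, Matrix.empty_val', Matrix.cons_val_fin_one,
      Fin.zero_eta, Fin.mk_one, Fin.isValue, Matrix.one_apply_eq, Matrix.one_apply_ne, ne_eq,
      zero_ne_one, one_ne_zero, not_false_eq_true] <;>
    first | (field_simp; ring) | field_simp | ring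

/-- The inverse of `± diag(a, a⁻¹)`. -/
theorem val_inv_diag {g : GL (Fin 2) F} {a : F} (ha : a ≠ 0)
    (hg : (g : M₂ F) = !![a, 0; 0, a⁻¹] ∨ (g : M₂ F) = -!![a, 0; 0, a⁻¹]) :
    (((g⁻¹ : GL (Fin 2) F) : M₂ F) = !![a⁻¹, 0; 0, a] ∧ (g : M₂ F) = !![a, 0; 0, a⁻¹]) ∨
    (((g⁻¹ : GL (Fin 2) F) : M₂ F) = -!![a⁻¹, 0; 0, a] ∧ (g : M₂ F) = -!![a, 0; 0, a⁻¹]) := by
  rcases hg with hg | hg
  · exact Or.inl ⟨val_inv_of_val_eq hg (diag_mul_inv ha), hg⟩
  · refine Or.inr ⟨val_inv_of_val_eq hg ?_, hg⟩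
    rw [neg_mul_neg, diag_mul_inv ha]

theorem det_diag {g : GL (Fin 2) F} {a : F} (ha : a ≠ 0)
    (hg : (g : M₂ F) = !![a, 0; 0, a⁻¹] ∨ (g : M₂ F) = -!![a, 0; 0, a⁻¹]) :
    det (g : M₂ F) = 1 := by
  rcases hg with hg | hg <;> rw [hg, det_fin_two] <;>
    simp only [Matrix.neg_apply, Matrix.of_apply, Matrix.cons_val', Matrix.cons_val_zero,
      Matrix.cons_val_one, Matrix.empty_val', Matrix.cons_val_fin_one] <;> field_simp <;> ring

theorem tad_diag {g : GL (Fin 2) F} {a : F} (ha : a ≠ 0)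
    (hg : (g : M₂ F) = !![a, 0; 0, a⁻¹] ∨ (g : M₂ F) = -!![a, 0; 0, a⁻¹]) (M : M₂ F) :
    tad g M = !![M 0 0, a ^ 2 * M 0 1; (a⁻¹) ^ 2 * M 1 0, M 1 1] := by
  have hdet := det_diag ha hg
  rw [tad, hdet, one_smul]
  rcases val_inv_diag ha hg with ⟨hinv, hg'⟩ | ⟨hinv, hg'⟩ <;> rw [hinv, hg'] <;> ext i j <;>
    fin_cases i <;> fin_cases j <;>
    simp only [Matrix.mul_apply, Fin.sum_univ_two, Matrix.of_apply, Matrix.cons_val',
      Matrix.cons_val_zero, Matrix.cons_val_one, Matrix.empty_val', Matrix.cons_val_fin_one,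
      Fin.zero_eta, Fin.mk_one, Fin.isValue, Matrix.neg_apply] <;>
    first | (field_simp; ring) | field_simp | ring

/-- `t⁻¹ u_x t = u_{x / a²}` for `t = ± diag(a, a⁻¹)`. -/
theorem val_conj_diag {t u : GL (Fin 2) F} {a x : F} (ha : a ≠ 0)
    (ht : (t : M₂ F) = !![a, 0; 0, a⁻¹] ∨ (t : M₂ F) = -!![a, 0; 0, a⁻¹])
    (hu : (u : M₂ F) = !![1, x; 0, 1]) :
    ((t⁻¹ * u * t : GL (Fin 2) F) : M₂ F) = !![1, x / a ^ 2; 0, 1] := by
  rw [Units.val_mul, Units.val_mul, hu]
  rcases val_inv_diag ha ht with ⟨hinv, ht'⟩ | ⟨hinv, ht'⟩ <;> rw [hinv, ht']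
  · exact diag_conj_upper ha x
  · rw [neg_mul, neg_mul, mul_neg, neg_neg]
    exact diag_conj_upper ha x

end Mat

/-! ### Two algebraic lemmas -/

section Alg

theorem three_eq_zero' [CharP F 3] : (3 : F) = 0 := by
  have := CharP.cast_eq_zero F 3
  exact_mod_cast this

/-- Normal form of a cocycle on the upper unipotent group in characteristic 3. -/
theorem normal_form [CharP F 3] (E : Subfield F) (a b c : E → F)
    (hb : ∀ x y : E, b (x + y) = b x + b y + (x : F) * c y)
    (ha : ∀ x y : E, a (x + y) = a x + a y - 2 * (x : F) * b y - (x : F) ^ 2 * c y)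
    (ha0 : a 0 = 0) :
    (∀ x, c x = 0) ∧ ∃ b1 : F, (∀ x : E, b x = b1 * x) ∧
      ∀ x y : E, a (x + y) + b1 * ((x + y : E) : F) ^ 2 =
        (a x + b1 * (x : F) ^ 2) + (a y + b1 * (y : F) ^ 2) := by
  have h3 : (3 : F) = 0 := three_eq_zero'
  have h3E : ((1 : E) + 1) + 1 = 0 := by
    apply Subtype.ext
    push_cast
    linear_combination h3
  have e1 : ((1 : E) : F) = 1 := rfl
  -- `c x = x * c 1`
  have hc1 : ∀ x : E, c x = (x : F) * c 1 := by
    intro x
    have h1 := hb x 1
    have h2 := hb 1 x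
    rw [add_comm (1 : E) x, e1] at h2
    linear_combination h1 - h2
  have hc10 : c 1 = 0 := by
    have h1 := ha 1 1
    have h2 := ha (1 + 1) 1
    rw [h3E, ha0] at h2
    have e2 : (((1 : E) + 1 : E) : F) = 2 := by push_cast; norm_num
    rw [e1] at h1
    rw [e2, h1] at h2
    linear_combination (-1) * h2 + (-a 1 + 2 * b 1 + 2 * c 1) * h3
  have hc0 : ∀ x, c x = 0 := fun x => by rw [hc1, hc10, mul_zero]
  have h2' : (2 : F) ≠ 0 := by
    intro h
    have : (1 : F) = 0 := by linear_combination h3 - h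
    exact one_ne_zero this
  have hbx : ∀ x : E, b x = b 1 * x := by
    intro x
    have h1 := ha x 1
    have h2 := ha 1 x
    rw [add_comm (1 : E) x, e1, hc0] at h2
    rw [hc0] at h1
    have : 2 * (b x - b 1 * x) = 0 := by linear_combination h2 - h1
    have := (mul_eq_zero.1 this).resolve_left h2'
    linear_combination this
  refine ⟨hc0, b 1, hbx, ?_⟩
  intro x y
  rw [ha x y, hc0, hbx y]
  push_cast
  ring

/-- An additive map `E → F` (`E` a finite subfield, characteristic 3) which is, for every square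
`c = s²`, `c`-semi-invariant up to a multiple of the identity, is a multiple of the identity. -/
theorem eq_mul_of_twisted [CharP F 3] (E : Subfield F) [Finite E] (α : E → F)
    (hadd : ∀ x y : E, α (x + y) = α x + α y)
    (hinv : ∀ s : E, s ≠ 0 → ∃ β : F, ∀ x : E, (s : F) ^ 2 * α (x / s ^ 2) = α x + β * x) :
    ∀ x : E, α x = x * α 1 := by
  have h3 : (3 : F) = 0 := three_eq_zero'
  obtain ⟨D, hD⟩ : ∃ D : E → F, D = fun x => α x - x * α 1 := ⟨_, rfl⟩
  have hDadd : ∀ x y : E, D (x + y) = D x + D y := by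
    intro x y
    simp only [hD, hadd]
    push_cast
    ring
  have hD0 : D 0 = 0 := by
    have := hDadd 0 0
    rw [add_zero] at this
    linear_combination -this
  have hDneg : ∀ x : E, D (-x) = -D x := by
    intro x
    have := hDadd x (-x)
    rw [add_neg_cancel, hD0] at this
    linear_combination -this
  have hDsub : ∀ x y : E, D (x - y) = D x - D y := by
    intro x y
    rw [sub_eq_add_neg, hDadd, hDneg]; ring
  have hD1 : D 1 = 0 := by
    simp only [hD]
    have : ((1 : E) : F) = 1 := rfl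
    rw [this, one_mul, sub_self]
  -- Leibniz rule for squares
  have hsq : ∀ s y : E, D (s ^ 2 * y) = (s : F) ^ 2 * D y + y * D (s ^ 2) := by
    intro s y
    by_cases hs : s = 0
    · subst hs
      simp [hD0]
    obtain ⟨β, hβ⟩ := hinv s hs
    have hsF : (s : F) ≠ 0 := fun h => hs (Subtype.ext h)
    -- `c * D (x / c) = D x + β x`
    have key : ∀ x : E, (s : F) ^ 2 * D (x / s ^ 2) = D x + β * x := by
      intro x
      simp only [hD]
      have := hβ x
      push_cast
      field_simp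
      field_simp at this
      linear_combination this
    have k1 := key (s ^ 2)
    rw [div_self (pow_ne_zero 2 hs), hD1, mul_zero] at k1
    have k2 := key (s ^ 2 * y)
    rw [mul_div_cancel_left₀ y (pow_ne_zero 2 hs)] at k2
    push_cast at k1 k2
    -- β = - D (s²) / s²
    have hβ' : β * (s : F) ^ 2 = - D (s ^ 2) := by linear_combination -k1
    linear_combination (-1 : F) * k2 - (y : F) * hβ'
  -- Leibniz rule in general
  have hder : ∀ z y : E, D (z * y) = (z : F) * D y + y * D z := by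
    intro z y
    have hz : z = (z + 1) ^ 2 - (z - 1) ^ 2 := by
      apply Subtype.ext
      push_cast
      linear_combination (-(z : F)) * h3
    have h1 : z * y = (z + 1) ^ 2 * y - (z - 1) ^ 2 * y := by
      rw [← sub_mul, ← hz]
    have h2 : D z = D ((z + 1) ^ 2) - D ((z - 1) ^ 2) := by
      rw [← hDsub, ← hz]
    rw [h1, hDsub, hsq, hsq, h2]
    push_cast
    linear_combination ((z : F) * D y) * h3
  -- `D` kills cubes
  have hcube : ∀ z : E, D (z ^ 3) = 0 := by
    intro z
    have e : z ^ 3 = z * (z * z) := by ring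
    rw [e, hder, hder]
    push_cast
    linear_combination ((z : F) ^ 2 * D z) * h3
  -- every element is a cube
  haveI : CharP E 3 := RingHom.charP (algebraMap E F) (algebraMap E F).injective 3
  haveI : Fact (Nat.Prime 3) := ⟨Nat.prime_three⟩
  intro x
  obtain ⟨z, hz⟩ := (bijective_frobenius E 3).surjective x
  rw [frobenius_def] at hz
  have := hcube z
  rw [hz] at this
  simp only [hD] at this
  linear_combination this

end Alg

/-! ### The main theorem -/

section Main

variable {Γ : Type*} [Group Γ] {ρ : Γ →* GL (Fin 2) F} {ψ : Γ → M₂ F}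

theorem cob_eq_of_rho_eq (m : M₂ F) {g g' : Γ} (h : ρ g = ρ g') : cob ρ m g = cob ρ m g' := by
  rw [cob, cob, h]

theorem cob_add (m m' : M₂ F) (g : Γ) : cob ρ (m + m') g = cob ρ m g + cob ρ m' g := by
  simp only [cob, tad_add]
  abel

/-- **The Borel computation in characteristic 3.** -/
theorem exists_cob_of_char_three [CharP F 3] (E : Subfield F) [Finite E] (hψ : IsCocycle ρ ψ)
    (hker : ∀ a, ρ a = 1 → ψ a = 0)
    (hU : ∀ x ∈ E, ∃ g : Γ, (ρ g : M₂ F) = !![1, x; 0, 1])
    (hT : ∀ a ∈ E, a ≠ 0 → ∃ t : Γ, (ρ t : M₂ F) = !![a, 0; 0, a⁻¹] ∨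
      (ρ t : M₂ F) = -!![a, 0; 0, a⁻¹]) :
    ∃ m : M₂ F, trace m = 0 ∧
      ∀ g : Γ, (∃ x ∈ E, (ρ g : M₂ F) = !![1, x; 0, 1]) → ψ g = cob ρ m g := by
  classical
  have h3 : (3 : F) = 0 := three_eq_zero'
  choose! u hu using hU
  have hdep : ∀ {φ : Γ → M₂ F}, IsCocycle ρ φ → (∀ a, ρ a = 1 → φ a = 0) →
      ∀ {g g' : Γ}, ρ g = ρ g' → φ g = φ g' := fun hφ hk _ _ h => hφ.eq_of_rho_eq hk h
  have htr : ∀ {φ : Γ → M₂ F}, IsCocycle ρ φ → ∀ g, φ g 1 1 = - φ g 0 0 := by
    intro φ hφ g
    have := hφ.trace_zero g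
    rw [trace_fin_two] at this
    linear_combination this
  have hmul : ∀ {φ : Γ → M₂ F}, IsCocycle ρ φ → (∀ a, ρ a = 1 → φ a = 0) → ∀ x y : E,
      φ (u ((x + y : E) : F)) = φ (u x) + tad (ρ (u x)) (φ (u y)) := by
    intro φ hφ hk x y
    rw [← hφ.map_mul]
    apply hdep hφ hk
    apply Units.ext
    rw [map_mul, Units.val_mul, hu _ x.2, hu _ y.2, hu _ (x + y).2, upper_mul_upper]
    push_cast
    rfl
  have hu0 : ρ (u ((0 : E) : F)) = 1 := by
    apply Units.ext
    rw [hu _ (0 : E).2]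
    push_cast
    exact upper_zero
  -- the normal form of `ψ` on the unipotent group
  obtain ⟨hc0, b1, hb1, hα⟩ := normal_form E (fun x => ψ (u x) 0 1) (fun x => ψ (u x) 0 0)
    (fun x => ψ (u x) 1 0)
    (by
      intro x y
      have h := congrFun (congrFun (hmul hψ hker x y) 0) 0
      rw [Matrix.add_apply, tad_upper (hu _ x.2)] at h
      simpa [add_assoc] using h)
    (by
      intro x y
      have h := congrFun (congrFun (hmul hψ hker x y) 0) 1
      rw [Matrix.add_apply, tad_upper (hu _ x.2), htr hψ] at h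
      simp only [Matrix.of_apply, Matrix.cons_val', Matrix.cons_val_zero, Matrix.cons_val_one,
        Matrix.empty_val', Matrix.cons_val_fin_one] at h
      rw [h]
      ring)
    (by
      show ψ (u ((0 : E) : F)) 0 1 = 0
      rw [hker _ hu0]
      rfl)
  -- subtract the coboundary of `m₁`
  set m₁ : M₂ F := !![0, 0; b1, 0] with hm₁
  have hm₁tr : trace m₁ = 0 := by simp [hm₁, trace_fin_two]
  set ψ' : Γ → M₂ F := fun g => ψ g - cob ρ m₁ g with hψ'
  have hψ'c : IsCocycle ρ ψ' := hψ.sub_cob hm₁tr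
  have hker' : ∀ a, ρ a = 1 → ψ' a = 0 := by
    intro a ha
    simp only [hψ', hker a ha, cob, ha, tad_one, sub_self]
  obtain ⟨α, hαdef⟩ : ∃ α : E → F, α = fun x : E => ψ (u x) 0 1 + b1 * (x : F) ^ 2 := ⟨_, rfl⟩
  have hψ'u : ∀ x : E, ψ' (u x) = !![0, α x; 0, 0] := by
    intro x
    simp only [hψ', cob, tad_upper (hu _ x.2), hm₁, hαdef]
    have h00 := hb1 x
    have h10 := hc0 x
    have h11 := htr hψ (u x)
    ext i j
    fin_cases i <;> fin_cases j <;>
      simp only [Matrix.sub_apply, Matrix.of_apply, Matrix.cons_val', Matrix.cons_val_zero,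
        Matrix.cons_val_one, Matrix.empty_val', Matrix.cons_val_fin_one, Fin.zero_eta,
        Fin.mk_one, Fin.isValue]
    · rw [h00]; ring
    · ring
    · rw [h10]; ring
    · rw [h11, h00]; ring
  have hαadd : ∀ x y : E, α (x + y) = α x + α y := by
    intro x y
    simp only [hαdef]
    exact hα x y
  -- the torus invariance
  have hαinv : ∀ s : E, s ≠ 0 → ∃ β : F, ∀ x : E, (s : F) ^ 2 * α (x / s ^ 2) = α x + β * x := by
    intro s hs
    have hsF : (s : F) ≠ 0 := fun h => hs (Subtype.ext h)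
    obtain ⟨t, ht⟩ := hT s s.2 hsF
    have hZ := htr hψ'c t
    -- the (1,0) entry of `ψ' t` vanishes
    have key : ∀ x : E, tad (ρ t) (ψ' (u ((x / s ^ 2 : E) : F))) =
        ψ' (u x) + (tad (ρ (u x)) (ψ' t) - ψ' t) := by
      intro x
      rw [← hψ'c.conj_formula t (u x)]
      congr 1
      apply hdep hψ'c hker'
      apply Units.ext
      rw [hu _ (x / s ^ 2).2, map_mul, map_mul, map_inv, val_conj_diag hsF ht (hu _ x.2)]
      push_cast
      rfl
    have hZ10 : ψ' t 1 0 = 0 := by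
      have h := congrFun (congrFun (key 1) 0) 0
      rw [hψ'u, hψ'u, tad_diag hsF ht, tad_upper (hu _ (1 : E).2)] at h
      simp only [Matrix.add_apply, Matrix.sub_apply, Matrix.of_apply, Matrix.cons_val',
        Matrix.cons_val_zero, Matrix.cons_val_one, Matrix.empty_val', Matrix.cons_val_fin_one] at h
      have e1 : ((1 : E) : F) = 1 := rfl
      rw [e1] at h
      linear_combination -h
    refine ⟨ψ' t 1 1 - ψ' t 0 0, fun x => ?_⟩
    have h := congrFun (congrFun (key x) 0) 1
    rw [hψ'u, hψ'u, tad_diag hsF ht, tad_upper (hu _ x.2), hZ10] at h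
    simp only [Matrix.add_apply, Matrix.sub_apply, Matrix.of_apply, Matrix.cons_val',
      Matrix.cons_val_zero, Matrix.cons_val_one, Matrix.empty_val', Matrix.cons_val_fin_one] at h
    rw [h]
    ring
  have hαlin := eq_mul_of_twisted E α hαadd hαinv
  -- the second coboundary
  set m₂ : M₂ F := !![α 1, 0; 0, -α 1] with hm₂
  have hm₂tr : trace m₂ = 0 := by simp [hm₂, trace_fin_two]
  have hψ'u2 : ∀ x : E, ψ' (u x) = cob ρ m₂ (u x) := by
    intro x
    rw [hψ'u, hαlin x, cob, tad_upper (hu _ x.2), hm₂]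
    ext i j
    fin_cases i <;> fin_cases j <;>
      simp only [Matrix.sub_apply, Matrix.of_apply, Matrix.cons_val', Matrix.cons_val_zero,
        Matrix.cons_val_one, Matrix.empty_val', Matrix.cons_val_fin_one, Fin.zero_eta,
        Fin.mk_one, Fin.isValue]
    · ring
    · linear_combination ((x : F) * α 1) * h3
    · ring
    · ring
  refine ⟨m₁ + m₂, by rw [trace_add, hm₁tr, hm₂tr, add_zero], ?_⟩
  rintro g ⟨x, hx, hg⟩
  have hgu : ρ g = ρ (u x) := by
    apply Units.ext
    rw [hg, hu x hx]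
  rw [hdep hψ hker hgu, cob_eq_of_rho_eq _ hgu, cob_add]
  have := hψ'u2 ⟨x, hx⟩
  simp only [hψ'] at this
  rw [← this]
  abel

end Main

end Fermat.Agent.TW.Dickson.BorelThree52
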