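import Mathlib

/-!
# Dickson–Borel brick: the abstract "Klein count"

A finite group `H` acts on a type `X`; a central involution `z` acts trivially; every other
non-trivial element has exactly one ("parabolic") or exactly two fixed points; all parabolic fixed
points lie in one orbit `Ω = H • xinf`.  A double count of the pairs `(g, x)`, `g ≠ 1, z`, `g • x = x`
shows that, besides `Ω`, there is exactly one more orbit with non-trivial stabilisers, and
determines its size.  Mathlib only.
-/

namespace Fermat.Agent.TW.Dickson.KleinCount81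

open Finset MulAction

section Basic

variable {H X : Type*} [Group H] [Fintype H] [DecidableEq H] [MulAction H X] [DecidableEq X]

variable (H) in
/-- The stabiliser of `x` as a finset. -/
def stabF (x : X) : Finset H := univ.filter fun g => g • x = x

variable (H) in
/-- The orbit of `x` as a finset. -/
def orbF (x : X) : Finset X := univ.image fun g : H => g • x

omit [DecidableEq H] in
theorem mem_stabF {x : X} {g : H} : g ∈ stabF H x ↔ g • x = x := by simp [stabF]

omit [DecidableEq H] in
theorem mem_orbF {x y : X} : y ∈ orbF H x ↔ y ∈ orbit H x := by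
  simp [orbF, MulAction.mem_orbit_iff]

omit [DecidableEq H] in
theorem self_mem_orbF (x : X) : x ∈ orbF H x := mem_orbF.mpr (MulAction.mem_orbit_self x)

omit [DecidableEq H] in
theorem card_orbF (x : X) : (orbF H x).card = (orbit H x).ncard := by
  rw [← Set.ncard_coe_finset]
  congr 1
  ext y
  simp [mem_orbF]

omit [DecidableEq H] in
theorem card_stabF (x : X) : (stabF H x).card = Nat.card (stabilizer H x) := by
  rw [Nat.card_eq_fintype_card, stabF, ← Fintype.card_subtype]
  exact Fintype.card_congr (Equiv.subtypeEquivRight fun g => by simp [MulAction.mem_stabilizer_iff])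

omit [DecidableEq H] in
/-- Orbit–stabiliser. -/
theorem card_orbF_mul_card_stabF (x : X) :
    (orbF H x).card * (stabF H x).card = Fintype.card H := by
  rw [card_orbF, card_stabF, ← MulAction.index_stabilizer, Subgroup.index_mul_card,
    Nat.card_eq_fintype_card]

omit [DecidableEq H] in
/-- Conjugation invariance of counts of stabiliser elements with a conjugation invariant
property. -/
theorem card_filter_conj (P : H → Prop) [DecidablePred P]
    (hP : ∀ h g, P (h * g * h⁻¹) ↔ P g) (h : H) (x : X) :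
    (univ.filter fun g => P g ∧ g • (h • x) = h • x).card =
      (univ.filter fun g => P g ∧ g • x = x).card := by
  symm
  apply Finset.card_equiv (MulAut.conj h).toEquiv
  intro g
  simp only [mem_filter, mem_univ, true_and, MulEquiv.toEquiv_eq_coe, EquivLike.coe_coe,
    MulAut.conj_apply, hP]
  have : (h * g * h⁻¹) • h • x = h • (g • x) := by
    rw [smul_smul, smul_smul, mul_assoc, inv_mul_cancel, mul_one]
  rw [this, smul_left_cancel_iff]

omit [DecidableEq H] in
theorem card_stabF_smul (h : H) (x : X) : (stabF H (h • x)).card = (stabF H x).card := by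
  have := card_filter_conj (fun _ : H => True) (fun _ _ => Iff.rfl) h x
  simpa [stabF] using this

omit [DecidableEq H] in
theorem orbF_eq_of_mem {x y : X} (hy : y ∈ orbF H x) : orbF H y = orbF H x := by
  ext w
  rw [mem_orbF, mem_orbF, MulAction.orbit_eq_iff.mpr (mem_orbF.mp hy)]

end Basic

section Main

variable {H X : Type*} [Group H] [Fintype H] [DecidableEq H] [MulAction H X] [DecidableEq X]

/-- Number of elements `g ≠ 1, z` fixing `x`. -/
def wt (z : H) (x : X) : ℕ := (univ.filter fun g : H => (g ≠ 1 ∧ g ≠ z) ∧ g • x = x).card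

/-- Number of "parabolic" elements `g ≠ 1, z` fixing `x`. -/
def wtp (z : H) (par : H → Prop) [DecidablePred par] (x : X) : ℕ :=
  (univ.filter fun g : H => ((g ≠ 1 ∧ g ≠ z) ∧ par g) ∧ g • x = x).card

omit [Fintype H] [DecidableEq H] in
theorem nc_conj {z : H} (hzc : ∀ h, h * z * h⁻¹ = z) (h g : H) :
    (h * g * h⁻¹ ≠ 1 ∧ h * g * h⁻¹ ≠ z) ↔ (g ≠ 1 ∧ g ≠ z) := by
  have h1 : h * g * h⁻¹ = 1 ↔ g = 1 := conj_eq_one_iff
  have h2 : h * g * h⁻¹ = z ↔ g = z := by
    constructor
    · intro e
      have e' : h * g * h⁻¹ = h * z * h⁻¹ := by rw [e, hzc]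
      exact mul_left_cancel (mul_right_cancel e')
    · rintro rfl; exact hzc h
  rw [Ne, Ne, h1, h2]

theorem wt_smul {z : H} (hzc : ∀ h, h * z * h⁻¹ = z) (h : H) (x : X) :
    wt z (h • x) = wt z x :=
  card_filter_conj (fun g : H => g ≠ 1 ∧ g ≠ z) (nc_conj hzc) h x

theorem wtp_smul {z : H} (hzc : ∀ h, h * z * h⁻¹ = z) (par : H → Prop) [DecidablePred par]
    (hparconj : ∀ h g, par (h * g * h⁻¹) ↔ par g) (h : H) (x : X) :
    wtp z par (h • x) = wtp z par x :=
  card_filter_conj (fun g : H => (g ≠ 1 ∧ g ≠ z) ∧ par g)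
    (fun h g => by rw [nc_conj hzc, hparconj]) h x

theorem wt_add_two {z : H} (hz1 : z ≠ 1) (hzfix : ∀ x : X, z • x = x) (x : X) :
    wt z x + 2 = (stabF H x).card := by
  have h1 := Finset.card_filter_add_card_filter_not (s := stabF H x) (fun g : H => g ≠ 1 ∧ g ≠ z)
  have h2 : (stabF H x).filter (fun g : H => g ≠ 1 ∧ g ≠ z) =
      univ.filter fun g : H => (g ≠ 1 ∧ g ≠ z) ∧ g • x = x := by
    ext g; simp [stabF, and_comm]
  have h3 : (stabF H x).filter (fun g : H => ¬ (g ≠ 1 ∧ g ≠ z)) = {1, z} := by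
    ext g
    simp only [stabF, mem_filter, mem_univ, true_and, mem_insert, mem_singleton]
    constructor
    · rintro ⟨_, h⟩
      by_contra hc
      push Not at hc
      exact h ⟨hc.1, hc.2⟩
    · rintro (rfl | rfl)
      · exact ⟨one_smul _ _, fun h => h.1 rfl⟩
      · exact ⟨hzfix x, fun h => h.2 rfl⟩
  rw [h2, h3, Finset.card_pair (Ne.symm hz1)] at h1
  exact h1

omit [DecidableEq H] in
theorem two_dvd_card_stabF {z : H} (hz1 : z ≠ 1) (hz2 : z * z = 1) (hzfix : ∀ x : X, z • x = x)
    (x : X) : 2 ∣ (stabF H x).card := by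
  rw [card_stabF]
  have hz : z ∈ stabilizer H x := hzfix x
  have ho : orderOf z = 2 := orderOf_eq_prime (by rw [pow_two, hz2]) hz1
  have := orderOf_dvd_natCard (⟨z, hz⟩ : stabilizer H x)
  rwa [Subgroup.orderOf_mk, ho] at this

/-- **The Klein count.** -/
theorem klein_count (z : H) (hz1 : z ≠ 1) (hz2 : z * z = 1) (hzc : ∀ h, h * z * h⁻¹ = z)
    (hzfix : ∀ x : X, z • x = x)
    (par : H → Prop) [DecidablePred par] (hparconj : ∀ h g, par (h * g * h⁻¹) ↔ par g)
    (hpar : ∀ g : H, g ≠ 1 → g ≠ z → par g → ∃ x : X, ∀ y, g • y = y ↔ y = x)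
    (hhyp : ∀ g : H, g ≠ 1 → g ≠ z → ¬ par g →
      ∃ x₁ x₂ : X, x₁ ≠ x₂ ∧ ∀ y, g • y = y ↔ y = x₁ ∨ y = x₂)
    (xinf : X)
    (hparΩ : ∀ g : H, g ≠ 1 → g ≠ z → par g → ∀ y : X, g • y = y → y ∈ orbit H xinf)
    (pc : ℕ) (hpc : wtp z par xinf = pc) (hpc2 : 2 ≤ pc)
    (hpos : (orbF H xinf).card * pc + 4 < ((stabF H xinf).card + 2) * (orbF H xinf).card) :
    ∃ x₀ : X, x₀ ∉ orbit H xinf ∧
      2 * (orbF H x₀).card + 2 * (orbF H xinf).card = (orbF H xinf).card * pc + 4 ∧
      2 ∣ (stabF H x₀).card ∧ (orbF H x₀).card * (stabF H x₀).card = Fintype.card H := by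
  classical
  set ω := (orbF H xinf).card with hω
  set b := (stabF H xinf).card with hb
  -- the finite set of points with non-trivial stabiliser
  have hSfin : {x : X | ∃ g : H, (g ≠ 1 ∧ g ≠ z) ∧ g • x = x}.Finite := by
    have : {x : X | ∃ g : H, (g ≠ 1 ∧ g ≠ z) ∧ g • x = x} =
        ⋃ g ∈ {g : H | g ≠ 1 ∧ g ≠ z}, {x : X | g • x = x} := by
      ext x; simp
    rw [this]
    refine Set.Finite.biUnion (Set.toFinite _) fun g hg => ?_
    by_cases hp : par g
    · obtain ⟨x, hx⟩ := hpar g hg.1 hg.2 hp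
      exact (Set.finite_singleton x).subset fun y hy => (hx y).mp hy
    · obtain ⟨x₁, x₂, -, hx⟩ := hhyp g hg.1 hg.2 hp
      refine ((Set.finite_singleton x₂).insert x₁).subset fun y hy => ?_
      rcases (hx y).mp hy with h | h
      · exact Or.inl h
      · exact Or.inr h
  set S : Finset X := hSfin.toFinset with hS
  have mem_S : ∀ x : X, x ∈ S ↔ ∃ g : H, (g ≠ 1 ∧ g ≠ z) ∧ g • x = x := fun x => by
    simp [hS]
  have mem_S' : ∀ x : X, x ∈ S ↔ 0 < wt z x := fun x => by
    rw [mem_S, wt, Finset.card_pos]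
    constructor
    · rintro ⟨g, hg⟩; exact ⟨g, by simpa using hg⟩
    · rintro ⟨g, hg⟩; exact ⟨g, by simpa using hg⟩
  set NC : Finset H := univ.filter fun g : H => g ≠ 1 ∧ g ≠ z with hNC
  have hNCcard : NC.card + 2 = Fintype.card H := by
    have h1 := Finset.card_filter_add_card_filter_not (s := (univ : Finset H))
      (fun g : H => g ≠ 1 ∧ g ≠ z)
    have h3 : (univ : Finset H).filter (fun g : H => ¬ (g ≠ 1 ∧ g ≠ z)) = {1, z} := by
      ext g
      simp only [mem_filter, mem_univ, true_and, mem_insert, mem_singleton]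
      constructor
      · intro h
        by_contra hc
        push Not at hc
        exact h ⟨hc.1, hc.2⟩
      · rintro (rfl | rfl)
        · exact fun h => h.1 rfl
        · exact fun h => h.2 rfl
    rw [h3, Finset.card_pair (Ne.symm hz1), Finset.card_univ] at h1
    exact h1
  -- first double count
  have hDC1 := Finset.sum_card_bipartiteAbove_eq_sum_card_bipartiteBelow
    (fun (g : H) (x : X) => g • x = x) (s := NC) (t := S)
  have hR : ∀ x : X, (bipartiteBelow (fun (g : H) (x : X) => g • x = x) NC x).card = wt z x := by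
    intro x
    rw [bipartiteBelow, hNC, Finset.filter_filter, wt]
  have hL : ∀ g ∈ NC, (bipartiteAbove (fun (g : H) (x : X) => g • x = x) S g).card =
      if par g then 1 else 2 := by
    intro g hg
    have hg' : g ≠ 1 ∧ g ≠ z := by simpa [hNC] using hg
    rw [bipartiteAbove]
    by_cases hp : par g
    · rw [if_pos hp]
      obtain ⟨x, hx⟩ := hpar g hg'.1 hg'.2 hp
      have : S.filter (fun y => g • y = y) = {x} := by
        ext y
        simp only [mem_filter, mem_singleton, hx]
        constructor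
        · exact fun h => h.2
        · rintro rfl
          exact ⟨(mem_S y).mpr ⟨g, hg', (hx y).mpr rfl⟩, rfl⟩
      rw [this, Finset.card_singleton]
    · rw [if_neg hp]
      obtain ⟨x₁, x₂, hne, hx⟩ := hhyp g hg'.1 hg'.2 hp
      have : S.filter (fun y => g • y = y) = {x₁, x₂} := by
        ext y
        simp only [mem_filter, mem_insert, mem_singleton, hx]
        constructor
        · exact fun h => h.2
        · intro h
          exact ⟨(mem_S y).mpr ⟨g, hg', (hx y).mpr h⟩, h⟩
      rw [this, Finset.card_pair hne]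
  set Par : Finset H := NC.filter par with hPar
  have hsum1 : (∑ x ∈ S, wt z x) + Par.card = 2 * NC.card := by
    rw [← Finset.sum_congr rfl (fun x _ => hR x), ← hDC1, Finset.sum_congr rfl hL, hPar,
      Finset.card_filter, ← Finset.sum_add_distrib, Finset.sum_congr rfl
      (fun g _ => show ((if par g then 1 else 2) + if par g then 1 else 0) = 2 by
        split_ifs <;> rfl), Finset.sum_const, smul_eq_mul, mul_comm]
  -- second double count: the parabolic elements
  have hDC2 := Finset.sum_card_bipartiteAbove_eq_sum_card_bipartiteBelow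
    (fun (g : H) (x : X) => g • x = x) (s := Par) (t := orbF H xinf)
  have hR2 : ∀ x ∈ orbF H xinf,
      (bipartiteBelow (fun (g : H) (x : X) => g • x = x) Par x).card = pc := by
    intro x hx
    obtain ⟨h, rfl⟩ := MulAction.mem_orbit_iff.mp (mem_orbF.mp hx)
    rw [bipartiteBelow, hPar, hNC, Finset.filter_filter, Finset.filter_filter, ← hpc,
      ← wtp_smul hzc par hparconj h xinf, wtp]
    congr 1
    ext g
    simp [and_assoc]
  have hL2 : ∀ g ∈ Par, (bipartiteAbove (fun (g : H) (x : X) => g • x = x) (orbF H xinf) g).card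
      = 1 := by
    intro g hg
    have hg' : (g ≠ 1 ∧ g ≠ z) ∧ par g := by simpa [hPar, hNC] using hg
    obtain ⟨x, hx⟩ := hpar g hg'.1.1 hg'.1.2 hg'.2
    rw [bipartiteAbove]
    have : (orbF H xinf).filter (fun y => g • y = y) = {x} := by
      ext y
      simp only [mem_filter, mem_singleton, hx]
      constructor
      · exact fun h => h.2
      · rintro rfl
        exact ⟨mem_orbF.mpr (hparΩ g hg'.1.1 hg'.1.2 hg'.2 y ((hx y).mpr rfl)), rfl⟩
    rw [this, Finset.card_singleton]
  have hParcard : Par.card = ω * pc := by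
    rw [Finset.card_eq_sum_ones, ← Finset.sum_congr rfl hL2, hDC2, Finset.sum_congr rfl hR2,
      Finset.sum_const, smul_eq_mul]
  -- the orbit of `xinf`
  have hwΩ : ∀ x ∈ orbF H xinf, wt z x + 2 = b := by
    intro x hx
    obtain ⟨h, rfl⟩ := MulAction.mem_orbit_iff.mp (mem_orbF.mp hx)
    rw [wt_smul hzc, wt_add_two hz1 hzfix]
  have hΩS : orbF H xinf ⊆ S := by
    intro x hx
    have h1 := hR2 x hx
    have h2 : 0 < (bipartiteBelow (fun (g : H) (x : X) => g • x = x) Par x).card := by
      rw [h1]; omega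
    obtain ⟨g, hg⟩ := Finset.card_pos.mp h2
    rw [bipartiteBelow, mem_filter] at hg
    have hg' : (g ≠ 1 ∧ g ≠ z) ∧ par g := by simpa [hPar, hNC] using hg.1
    exact (mem_S x).mpr ⟨g, hg'.1, hg.2⟩
  have hsumΩ : (∑ x ∈ orbF H xinf, wt z x) + 2 * ω = ω * b := by
    have : ∑ x ∈ orbF H xinf, (wt z x + 2) = ω * b := by
      rw [Finset.sum_congr rfl hwΩ, Finset.sum_const, smul_eq_mul]
    rw [Finset.sum_add_distrib, Finset.sum_const, smul_eq_mul] at this
    linarith
  have hHcard : ω * b = Fintype.card H := card_orbF_mul_card_stabF xinf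
  set S' : Finset X := S \ orbF H xinf with hS'
  set T := ∑ x ∈ S', wt z x with hT
  have hsplit : T + (∑ x ∈ orbF H xinf, wt z x) = ∑ x ∈ S, wt z x := Finset.sum_sdiff hΩS
  -- the key identity
  have hkey : T + ω * pc + 4 = Fintype.card H + 2 * ω := by
    have e1 := hsum1
    have e2 := hNCcard
    rw [hParcard] at e1
    omega
  have hTpos : 0 < T := by
    have : ω * pc + 4 < Fintype.card H + 2 * ω := by
      rw [← hHcard]; linarith [hpos]
    omega
  have hTlt : T + 4 ≤ Fintype.card H := by
    have : 2 * ω ≤ ω * pc := by rw [mul_comm]; exact Nat.mul_le_mul_left ω hpc2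
    omega
  -- orbits inside `S'`
  have mem_S'_iff : ∀ x : X, x ∈ S' ↔ 0 < wt z x ∧ x ∉ orbit H xinf := fun x => by
    rw [hS', mem_sdiff, mem_S', mem_orbF]
  have horb_sub : ∀ x ∈ S', orbF H x ⊆ S' := by
    intro x hx y hy
    obtain ⟨h, rfl⟩ := MulAction.mem_orbit_iff.mp (mem_orbF.mp hy)
    rw [mem_S'_iff] at hx ⊢
    refine ⟨by rw [wt_smul hzc]; exact hx.1, fun hc => hx.2 ?_⟩
    have := MulAction.orbit_eq_iff.mpr hc
    rw [MulAction.orbit_smul] at this
    exact MulAction.orbit_eq_iff.mp this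
  have horb_sum : ∀ x : X, (∑ y ∈ orbF H x, wt z y) + 2 * (orbF H x).card = Fintype.card H := by
    intro x
    have h1 : ∀ y ∈ orbF H x, wt z y = wt z x := by
      intro y hy
      obtain ⟨h, rfl⟩ := MulAction.mem_orbit_iff.mp (mem_orbF.mp hy)
      exact wt_smul hzc h x
    rw [Finset.sum_const_nat h1, ← card_orbF_mul_card_stabF x, ← wt_add_two hz1 hzfix x]
    ring
  have horb_le : ∀ x ∈ S', 4 * (orbF H x).card ≤ Fintype.card H := by
    intro x hx
    have h1 := (mem_S'_iff x).mp hx
    have h2 := wt_add_two hz1 hzfix x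
    have h3 := two_dvd_card_stabF hz1 hz2 hzfix x
    have h4 : 4 ≤ (stabF H x).card := by omega
    rw [← card_orbF_mul_card_stabF x, mul_comm]
    exact Nat.mul_le_mul_left _ h4
  obtain ⟨x₀, hx₀⟩ : S'.Nonempty := by
    by_contra hne
    rw [Finset.not_nonempty_iff_eq_empty] at hne
    rw [hT, hne, Finset.sum_empty] at hTpos
    exact lt_irrefl 0 hTpos
  have hS'eq : S' = orbF H x₀ := by
    apply Finset.Subset.antisymm _ (horb_sub x₀ hx₀)
    intro x₁ hx₁
    by_contra hnot
    have hdisj : Disjoint (orbF H x₀) (orbF H x₁) := by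
      rw [Finset.disjoint_left]
      intro y hy0 hy1
      apply hnot
      rw [← orbF_eq_of_mem hy0, orbF_eq_of_mem hy1]
      exact self_mem_orbF x₁
    have hsub : orbF H x₀ ∪ orbF H x₁ ⊆ S' :=
      Finset.union_subset (horb_sub x₀ hx₀) (horb_sub x₁ hx₁)
    have h1 : ∑ y ∈ orbF H x₀ ∪ orbF H x₁, wt z y ≤ T := Finset.sum_le_sum_of_subset hsub
    rw [Finset.sum_union hdisj] at h1
    have h2 := horb_sum x₀
    have h3 := horb_sum x₁
    have h4 := horb_le x₀ hx₀
    have h5 := horb_le x₁ hx₁
    omega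
  refine ⟨x₀, ((mem_S'_iff x₀).mp hx₀).2, ?_, two_dvd_card_stabF hz1 hz2 hzfix x₀,
    card_orbF_mul_card_stabF x₀⟩
  have hTeq : T = ∑ y ∈ orbF H x₀, wt z y := by rw [hT, hS'eq]
  have h2 := horb_sum x₀
  rw [← hTeq] at h2
  omega

end Main

end Fermat.Agent.TW.Dickson.KleinCount81
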