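import Fermat.Agent.TW.Dickson.Mobius81
import Fermat.Agent.TW.Dickson.KleinCount81
import Fermat.Agent.TW.Dickson.ArithB81

/-!
# Dickson–Borel brick: the Klein count for a finite subgroup of `SL(2,F)`

`K ≤ SL(2,F)` finite, `-1 ∈ K`, `char F = p` odd, every element of `K` has its eigenvalues in `F`,
`K` contains a non-trivial `upper b` and does not fix `∞`.  With `A = {b | upper b ∈ K}`, `q = |A|`:
either `q = 3` or the `K`-orbit of `∞` is `{∞} ∪ (z₀ + A)` (one coset of `A`).
-/

namespace Fermat.Agent.TW.Dickson.Count81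

open Matrix OnePoint Finset MulAction Pointwise
open Fermat.Agent.TW.Dickson.Defs81 Fermat.Agent.TW.Dickson.Mobius81
open Fermat.Agent.TW.Dickson.KleinCount81

variable {F : Type*} [Field F] [DecidableEq F]

local notation "G" => SpecialLinearGroup (Fin 2) F
local notation "X" => OnePoint F

/-- Decidable equality on the projective line (local to this file). -/
local instance instDecEqOnePoint : DecidableEq (OnePoint F) :=
  inferInstanceAs (DecidableEq (Option F))

variable (K : Subgroup (SpecialLinearGroup (Fin 2) F))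

/-- The additive group of `b` with `upper b ∈ K`. -/
def addA : AddSubgroup F where
  carrier := {b : F | upper b ∈ K}
  zero_mem' := by
    show upper (0 : F) ∈ K
    rw [upper_zero]; exact K.one_mem
  add_mem' := by
    intro a b ha hb
    show upper (a + b) ∈ K
    rw [upper_add]; exact K.mul_mem ha hb
  neg_mem' := by
    intro a ha
    show upper (-a) ∈ K
    rw [upper_neg]; exact K.inv_mem ha

omit [DecidableEq F] in
theorem mem_addA {b : F} : b ∈ addA K ↔ upper b ∈ K := Iff.rfl

instance instFiniteAddA [Finite K] : Finite (addA K) :=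
  Finite.of_injective (fun b : addA K => (⟨upper (b : F), b.2⟩ : K)) (by
    intro a b h
    exact Subtype.ext (upper_injective (Subtype.ext_iff.mp h)))

omit [DecidableEq F] in
theorem smul_def_K (g : K) (x : X) [MulAction G X] : g • x = (g : G) • x := rfl

omit [DecidableEq F] in
/-- For an upper triangular element, `tr² = 4` iff the diagonal entry squares to `1`. -/
theorem tr_sq_eq_four_iff {h : G} (h10 : h 1 0 = 0) : tr h ^ 2 = 4 ↔ h 0 0 ^ 2 = 1 := by
  have hd := det_entries h
  rw [h10, mul_zero, sub_zero] at hd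
  unfold tr
  constructor
  · intro ht
    have h1 : (h 0 0 - h 1 1) ^ 2 = 0 := by linear_combination ht - 4 * hd
    have h2 : h 0 0 = h 1 1 := sub_eq_zero.mp (pow_eq_zero_iff (two_ne_zero) |>.mp h1)
    rw [← h2] at hd
    linear_combination hd
  · intro h1
    have h00 : h 0 0 ≠ 0 := by
      intro h0; rw [h0] at hd; simp at hd
    have h2 : h 0 0 = h 1 1 := by
      apply mul_left_cancel₀ h00
      linear_combination h1 - hd
    rw [← h2]
    linear_combination 4 * h1

omit [DecidableEq F] in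
theorem neg_mem_K {K : Subgroup (SpecialLinearGroup (Fin 2) F)} (hneg : -1 ∈ K) {g : G}
    (hg : g ∈ K) : -g ∈ K := by
  rw [← neg_one_mul]; exact K.mul_mem hneg hg

omit [DecidableEq F] in
theorem neg_one_ne_one (h2 : (2 : F) ≠ 0) : (-1 : G) ≠ 1 := by
  intro h
  have := congrArg (fun g : G => g 0 0) h
  simp only [neg_00, one_00] at this
  apply h2
  linear_combination -this

/-- The elements of `K` fixing `∞` with `tr² = 4` are the `± upper b`, `b ∈ A`. -/
theorem card_para_stab [Fintype K] (h2 : (2 : F) ≠ 0) (hneg : -1 ∈ K) :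
    (Finset.univ.filter fun g : K => tr (g : G) ^ 2 = 4 ∧ g • (∞ : X) = ∞).card =
      2 * Nat.card (addA K) := by
  classical
  have : Fintype (addA K) := Fintype.ofFinite _
  let f₁ : addA K → K := fun b => ⟨upper (b : F), b.2⟩
  let f₂ : addA K → K := fun b => ⟨- upper (b : F), neg_mem_K hneg b.2⟩
  have hinj₁ : Function.Injective f₁ := by
    intro a b h
    exact Subtype.ext (upper_injective (Subtype.ext_iff.mp h))
  have hinj₂ : Function.Injective f₂ := by
    intro a b h
    exact Subtype.ext (upper_injective (neg_injective (Subtype.ext_iff.mp h)))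
  have hdisj : Disjoint (Finset.univ.image f₁) (Finset.univ.image f₂) := by
    rw [Finset.disjoint_left]
    intro g h1 h2'
    obtain ⟨a, -, rfl⟩ := Finset.mem_image.mp h1
    obtain ⟨b, -, hb⟩ := Finset.mem_image.mp h2'
    have := congrArg (fun g : K => (g : G) 0 0) hb
    simp only [f₁, f₂, neg_00, upper_00] at this
    apply h2
    linear_combination -this
  have hset : (Finset.univ.filter fun g : K => tr (g : G) ^ 2 = 4 ∧ g • (∞ : X) = ∞) =
      Finset.univ.image f₁ ∪ Finset.univ.image f₂ := by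
    ext g
    simp only [Finset.mem_filter, Finset.mem_univ, true_and, Finset.mem_union, Finset.mem_image]
    constructor
    · rintro ⟨ht, hfix⟩
      have h10 : (g : G) 1 0 = 0 := (smul_infty_eq_infty_iff (g : G)).mp hfix
      rcases tri_para h10 ht with e | e
      · left
        have hm : upper ((g : G) 0 1) ∈ K := by rw [← e]; exact g.2
        exact ⟨⟨(g : G) 0 1, hm⟩, Subtype.ext e.symm⟩
      · right
        have hm : upper (- (g : G) 0 1) ∈ K := by
          have : upper (- (g : G) 0 1) = - (g : G) := by conv_rhs => rw [e, neg_neg]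
          rw [this]; exact neg_mem_K hneg g.2
        exact ⟨⟨- (g : G) 0 1, hm⟩, Subtype.ext e.symm⟩
    · rintro (⟨b, rfl⟩ | ⟨b, rfl⟩)
      · refine ⟨?_, ?_⟩
        · simp only [f₁, tr_upper]; norm_num
        · exact (smul_infty_eq_infty_iff _).mpr (by simp [f₁])
      · refine ⟨?_, ?_⟩
        · simp only [f₂, tr_neg, tr_upper]; norm_num
        · exact (smul_infty_eq_infty_iff _).mpr (by simp [f₂])
  rw [hset, Finset.card_union_of_disjoint hdisj, Finset.card_image_of_injective _ hinj₁,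
    Finset.card_image_of_injective _ hinj₂, Finset.card_univ, Nat.card_eq_fintype_card]
  ring

/-- The parabolic weight of `∞`. -/
theorem wtp_infty [Fintype K] (h2 : (2 : F) ≠ 0) (hneg : -1 ∈ K) :
    wtp (⟨-1, hneg⟩ : K) (fun g : K => tr (g : G) ^ 2 = 4) (∞ : X) + 2 =
      2 * Nat.card (addA K) := by
  classical
  rw [← card_para_stab K h2 hneg]
  set P := Finset.univ.filter fun g : K => tr (g : G) ^ 2 = 4 ∧ g • (∞ : X) = ∞ with hP
  have h1 := Finset.card_filter_add_card_filter_not (s := P)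
    (fun g : K => g ≠ 1 ∧ g ≠ (⟨-1, hneg⟩ : K))
  have h2' : P.filter (fun g : K => g ≠ 1 ∧ g ≠ (⟨-1, hneg⟩ : K)) =
      Finset.univ.filter fun g : K => ((g ≠ 1 ∧ g ≠ (⟨-1, hneg⟩ : K)) ∧ tr (g : G) ^ 2 = 4) ∧
        g • (∞ : X) = ∞ := by
    ext g
    simp only [hP, Finset.mem_filter, Finset.mem_univ, true_and]
    tauto
  have h3 : P.filter (fun g : K => ¬ (g ≠ 1 ∧ g ≠ (⟨-1, hneg⟩ : K))) = {1, ⟨-1, hneg⟩} := by
    ext g
    simp only [hP, Finset.mem_filter, Finset.mem_univ, true_and, Finset.mem_insert,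
      Finset.mem_singleton]
    constructor
    · rintro ⟨_, h⟩
      by_contra hc
      push Not at hc
      exact h ⟨hc.1, hc.2⟩
    · rintro (rfl | rfl)
      · refine ⟨⟨?_, one_smul _ _⟩, fun h => h.1 rfl⟩
        simp only [Subgroup.coe_one, tr_one]; norm_num
      · refine ⟨⟨?_, ?_⟩, fun h => h.2 rfl⟩
        · simp only [tr_neg, tr_one]; norm_num
        · exact (smul_infty_eq_infty_iff _).mpr (by simp)
  have hne : (1 : K) ≠ ⟨-1, hneg⟩ := by
    intro h
    exact neg_one_ne_one h2 (Subtype.ext_iff.mp h).symm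
  rw [h2', h3, Finset.card_pair hne] at h1
  exact h1

omit [DecidableEq F] in
theorem diag_ne_zero_of_tri {g : G} (h10 : g 1 0 = 0) : g 0 0 ≠ 0 ∧ g 1 1 ≠ 0 := by
  have hd := det_entries g
  rw [h10, mul_zero, sub_zero] at hd
  constructor
  · intro h; rw [h, zero_mul] at hd; exact zero_ne_one hd
  · intro h; rw [h, mul_zero] at hd; exact zero_ne_one hd

/-- The stabiliser of `∞` in `K` has order `2 q k` with `1 ≤ k ≤ q - 1`. -/
theorem card_stab_infty [Fintype K] (h2 : (2 : F) ≠ 0) (hneg : -1 ∈ K) {b₀ : F} (hb₀ : b₀ ≠ 0)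
    (hb₀K : upper b₀ ∈ K) :
    ∃ k : ℕ, 1 ≤ k ∧ k + 1 ≤ Nat.card (addA K) ∧
      (stabF K (∞ : X)).card = 2 * Nat.card (addA K) * k := by
  classical
  set B := stabF K (∞ : X) with hB
  have memB : ∀ g : K, g ∈ B ↔ (g : G) 1 0 = 0 := fun g => by
    rw [hB, mem_stabF]; exact smul_infty_eq_infty_iff (g : G)
  set φ : K → F := fun g => ((g : G) 0 0) ^ 2 with hφ
  set I := B.image φ with hI
  set P := Finset.univ.filter fun g : K => tr (g : G) ^ 2 = 4 ∧ g • (∞ : X) = ∞ with hP
  have hfib : ∀ v ∈ I, (B.filter fun g => φ g = v).card = P.card := by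
    intro v hv
    obtain ⟨g₀, hg₀B, rfl⟩ := Finset.mem_image.mp hv
    have hg₀ : (g₀ : G) 1 0 = 0 := (memB g₀).mp hg₀B
    obtain ⟨ha, hd⟩ := diag_ne_zero_of_tri hg₀
    symm
    apply Finset.card_equiv (Equiv.mulLeft g₀)
    intro h
    simp only [hP, Finset.mem_filter, Finset.mem_univ, true_and, Equiv.coe_mulLeft, memB, hφ,
      Subgroup.coe_mul, mul_00, mul_10, hg₀, zero_mul, zero_add]
    have hfix : h • (∞ : X) = ∞ ↔ (h : G) 1 0 = 0 := smul_infty_eq_infty_iff (h : G)
    rw [hfix]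
    constructor
    · rintro ⟨ht, h10⟩
      refine ⟨by rw [h10, mul_zero], ?_⟩
      have := (tr_sq_eq_four_iff h10).mp ht
      rw [h10, mul_zero, add_zero, mul_pow, this, mul_one]
    · rintro ⟨h10, hsq⟩
      have h10' : (h : G) 1 0 = 0 := (mul_eq_zero.mp h10).resolve_left hd
      refine ⟨(tr_sq_eq_four_iff h10').mpr ?_, h10'⟩
      rw [h10', mul_zero, add_zero, mul_pow] at hsq
      have hne : ((g₀ : G) 0 0) ^ 2 ≠ 0 := pow_ne_zero 2 ha
      apply mul_left_cancel₀ hne
      rw [hsq, mul_one]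
  have hcardB : B.card = I.card * P.card := by
    rw [Finset.card_eq_sum_card_fiberwise (f := φ) (t := I)
      (fun g hg => Finset.mem_image_of_mem φ hg), Finset.sum_congr rfl hfib, Finset.sum_const,
      smul_eq_mul]
  have hPcard : P.card = 2 * Nat.card (addA K) := card_para_stab K h2 hneg
  have hk1 : 1 ≤ I.card := by
    apply Finset.card_pos.mpr
    exact ⟨φ 1, Finset.mem_image_of_mem φ ((memB 1).mpr (by simp))⟩
  have hk2 : I.card + 1 ≤ Nat.card (addA K) := by
    have : Fintype (addA K) := Fintype.ofFinite _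
    set Af : Finset F := (Finset.univ : Finset (addA K)).image Subtype.val with hAf
    have hAfcard : Af.card = Nat.card (addA K) := by
      rw [hAf, Finset.card_image_of_injective _ Subtype.val_injective, Finset.card_univ,
        Nat.card_eq_fintype_card]
    have memAf : ∀ x : F, x ∈ Af ↔ upper x ∈ K := fun x => by
      simp only [hAf, Finset.mem_image, Finset.mem_univ, true_and]
      constructor
      · rintro ⟨a, rfl⟩; exact a.2
      · intro hx; exact ⟨⟨x, hx⟩, rfl⟩
    have h0 : (0 : F) ∈ Af := (memAf 0).mpr (by rw [upper_zero]; exact K.one_mem)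
    have hsub : I.image (fun t => t * b₀) ⊆ Af.erase 0 := by
      intro y hy
      obtain ⟨t, ht, rfl⟩ := Finset.mem_image.mp hy
      obtain ⟨g, hgB, rfl⟩ := Finset.mem_image.mp ht
      have hg : (g : G) 1 0 = 0 := (memB g).mp hgB
      rw [Finset.mem_erase]
      refine ⟨mul_ne_zero (pow_ne_zero 2 (diag_ne_zero_of_tri hg).1) hb₀, ?_⟩
      rw [memAf, hφ]
      simp only
      rw [← conj_upper_of_upperTri hg]
      exact K.mul_mem (K.mul_mem g.2 hb₀K) (K.inv_mem g.2)
    have hinj : Function.Injective (fun t : F => t * b₀) := mul_left_injective₀ hb₀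
    have h1 := Finset.card_le_card hsub
    rw [Finset.card_image_of_injective _ hinj, Finset.card_erase_of_mem h0, hAfcard] at h1
    have h2' : 0 < Nat.card (addA K) := by rw [← hAfcard]; exact Finset.card_pos.mpr ⟨0, h0⟩
    omega
  refine ⟨I.card, hk1, hk2, ?_⟩
  rw [hcardB, hPcard]; ring

/-! ### The orbit of `∞` -/

/-- The finite part of the `K`-orbit of `∞`. -/
def omega0 : Set F := {z : F | (z : X) ∈ orbit K (∞ : X)}

theorem mem_omega0 {z : F} : z ∈ omega0 K ↔ (z : X) ∈ orbit K (∞ : X) := Iff.rfl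

theorem orbit_infty_finite [Finite K] : (orbit K (∞ : X)).Finite :=
  Set.finite_range fun g : K => g • (∞ : X)

theorem omega0_finite [Finite K] : (omega0 K).Finite :=
  (orbit_infty_finite K).preimage (OnePoint.coe_injective.injOn)

theorem ncard_orbit_infty [Finite K] :
    (orbit K (∞ : X)).ncard = (omega0 K).ncard + 1 := by
  have hset : orbit K (∞ : X) = insert (∞ : X) ((fun z : F => (z : X)) '' omega0 K) := by
    ext x
    induction x using OnePoint.rec with
    | infty => simp [MulAction.mem_orbit_self]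
    | coe z =>
      simp only [Set.mem_insert_iff, OnePoint.coe_ne_infty, Set.mem_image, OnePoint.coe_eq_coe,
        exists_eq_right, false_or]
      rfl
  rw [hset, Set.ncard_insert_of_notMem (by simp) ((omega0_finite K).image _),
    Set.ncard_image_of_injective _ OnePoint.coe_injective]

theorem smul_mem_orbit_infty {g : G} (hg : g ∈ K) {x : X} (hx : x ∈ orbit K (∞ : X)) :
    g • x ∈ orbit K (∞ : X) :=
  MulAction.mem_orbit_of_mem_orbit (⟨g, hg⟩ : K) hx

theorem omega0_add : omega0 K + (addA K : Set F) = omega0 K := by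
  ext z
  rw [Set.mem_add]
  constructor
  · rintro ⟨x, hx, a, ha, rfl⟩
    rw [mem_omega0, ← upper_smul_coe]
    exact smul_mem_orbit_infty K ha hx
  · intro hz
    exact ⟨z, hz, 0, (addA K).zero_mem, add_zero z⟩

theorem entry_mem_omega0 {g : G} (hg : g ∈ K) (h10 : g 1 0 ≠ 0) : g 0 0 / g 1 0 ∈ omega0 K := by
  rw [mem_omega0, ← smul_infty_of_ne h10]
  exact smul_mem_orbit_infty K hg (MulAction.mem_orbit_self _)

/-- `|Ω₀| = q s` with `s ≥ 1`; if `s = 1` then `Ω₀` is a single coset of `A`. -/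
theorem exists_s [Finite K] (hmove : ∃ g ∈ K, g 1 0 ≠ 0) :
    ∃ s : ℕ, 1 ≤ s ∧ (omega0 K).ncard = Nat.card (addA K) * s ∧
      (s = 1 → ∀ z₁ ∈ omega0 K, ∀ z₂ ∈ omega0 K, upper (z₁ - z₂) ∈ K) := by
  set I : Set (F ⧸ addA K) := (QuotientAddGroup.mk '' omega0 K) with hI
  have hIfin : I.Finite := (omega0_finite K).image _
  refine ⟨I.ncard, ?_, ?_, ?_⟩
  · obtain ⟨g, hg, h10⟩ := hmove
    have : I.Nonempty := ⟨_, Set.mem_image_of_mem _ (entry_mem_omega0 K hg h10)⟩
    exact (Set.ncard_pos hIfin).mpr this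
  · have := AddSubgroup.card_add_eq_card_addSubgroup_add_card_quotient (addA K) (omega0 K)
    rw [omega0_add, Nat.card_coe_set_eq, Nat.card_coe_set_eq] at this
    exact this
  · intro h1 z₁ hz₁ z₂ hz₂
    obtain ⟨a, ha⟩ := Set.ncard_eq_one.mp h1
    have e1 : (QuotientAddGroup.mk z₁ : F ⧸ addA K) = a := by
      have : (QuotientAddGroup.mk z₁ : F ⧸ addA K) ∈ I := Set.mem_image_of_mem _ hz₁
      rw [ha] at this; exact this
    have e2 : (QuotientAddGroup.mk z₂ : F ⧸ addA K) = a := by
      have : (QuotientAddGroup.mk z₂ : F ⧸ addA K) ∈ I := Set.mem_image_of_mem _ hz₂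
      rw [ha] at this; exact this
    have := QuotientAddGroup.eq.mp (e1.trans e2.symm)
    have h3 : z₁ - z₂ = -(-z₁ + z₂) := by ring
    rw [← mem_addA, h3]
    exact (addA K).neg_mem this

/-! ### The `p`-part -/

omit [DecidableEq F] in
theorem p_dvd_card_addA (p : ℕ) [Fact p.Prime] [CharP F p] [Finite K] {b₀ : F} (hb₀ : b₀ ≠ 0)
    (hb₀K : upper b₀ ∈ K) : p ∣ Nat.card (addA K) := by
  have h1 : addOrderOf (⟨b₀, hb₀K⟩ : addA K) = p := by
    apply addOrderOf_eq_prime
    · apply Subtype.ext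
      simp [nsmul_eq_mul, CharP.cast_eq_zero]
    · intro h
      exact hb₀ (Subtype.ext_iff.mp h)
  rw [← h1]
  exact addOrderOf_dvd_natCard _

/-- Parabolic elements of `K` have their fixed point in the orbit of `∞`. -/
theorem para_fixed_mem_orbit (p : ℕ) [Fact p.Prime] [CharP F p] (h2 : (2 : F) ≠ 0) [Finite K]
    (hneg : -1 ∈ K) (hnd : ¬ p ∣ (orbit K (∞ : X)).ncard) {g : G} (hgK : g ∈ K) (hg1 : g ≠ 1)
    (hg2 : g ≠ -1) (ht : tr g ^ 2 = 4) {y : X} (hy : g • y = y) : y ∈ orbit K (∞ : X) := by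
  -- reduce to trace `2`
  have key : ∀ g' : G, g' ∈ K → g' ≠ 1 → tr g' = 2 → g' • y = y → y ∈ orbit K (∞ : X) := by
    intro g' hg'K hg'1 ht' hy'
    have hpow : g' ^ p = 1 := pow_char_eq_one_of_tr_eq_two p h2 ht'
    set γ : K := ⟨g', hg'K⟩ with hγ
    have hγpow : γ ^ p = 1 := Subtype.ext (by simpa using hpow)
    have hγ1 : γ ≠ 1 := fun h => hg'1 (by simpa [hγ] using congrArg Subtype.val h)
    have hord : orderOf γ = p := orderOf_eq_prime hγpow hγ1
    have hP : IsPGroup p (Subgroup.zpowers γ) :=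
      IsPGroup.of_card (n := 1) (by rw [Nat.card_zpowers, hord, pow_one])
    have hnd' : ¬ p ∣ Nat.card (orbit K (∞ : X)) := by rwa [Nat.card_coe_set_eq]
    obtain ⟨y', hy'fix⟩ := hP.nonempty_fixed_point_of_prime_not_dvd_card (orbit K (∞ : X)) hnd'
    have h1 := MulAction.mem_fixedPoints.mp hy'fix ⟨γ, Subgroup.mem_zpowers γ⟩
    have h3 : g' • (y' : X) = y' := by
      have := congrArg Subtype.val h1
      exact this
    have hg'2 : g' ≠ -1 := by
      intro h
      rw [h, tr_neg, tr_one] at ht'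
      apply h2
      have h4 : (2 : F) * 2 = 0 := by linear_combination -ht'
      exact mul_self_eq_zero.mp h4
    obtain ⟨x, hx⟩ := exists_unique_fixed_of_para h2 hg'1 hg'2 (by rw [ht']; norm_num)
    have e1 := (hx y).mp hy'
    have e2 := (hx y').mp h3
    rw [e1, ← e2]
    exact y'.2
  have hcases : tr g = 2 ∨ tr g = -2 := by
    have : (tr g - 2) * (tr g + 2) = 0 := by linear_combination ht
    rcases mul_eq_zero.mp this with h | h
    · left; linear_combination h
    · right; linear_combination h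
  rcases hcases with h | h
  · exact key g hgK hg1 h hy
  · refine key (-g) (neg_mem_K hneg hgK) ?_ (by rw [tr_neg, h, neg_neg]) (by rw [neg_smul_eq, hy])
    intro h'
    apply hg2
    rw [← h', neg_neg]

/-! ### The main count -/

omit [DecidableEq F] in
theorem two_ne_zero_of_char (p : ℕ) [Fact p.Prime] [CharP F p] (hp : p ≠ 2) : (2 : F) ≠ 0 := by
  intro h
  have h' : ((2 : ℕ) : F) = 0 := by exact_mod_cast h
  have h1 := (CharP.cast_eq_zero_iff F p 2).mp h'
  have hp2 := (Fact.out : p.Prime).two_le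
  have := Nat.le_of_dvd (by norm_num) h1
  omega

/-- **The count.** Either `q = 3` or the orbit of `∞` is `{∞}` plus a single coset of `A`. -/
theorem count_main (p : ℕ) [Fact p.Prime] [CharP F p] (hp : p ≠ 2) [Finite K] (hneg : -1 ∈ K)
    (hsq : ∀ g ∈ K, IsSquare (tr g ^ 2 - 4)) {b₀ : F} (hb₀ : b₀ ≠ 0) (hb₀K : upper b₀ ∈ K)
    (hmove : ∃ g ∈ K, g 1 0 ≠ 0) :
    Nat.card (addA K) = 3 ∨ ∀ z₁ ∈ omega0 K, ∀ z₂ ∈ omega0 K, upper (z₁ - z₂) ∈ K := by
  classical
  have : Fintype K := Fintype.ofFinite K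
  have h2 : (2 : F) ≠ 0 := two_ne_zero_of_char p hp
  obtain ⟨k, hk1, hk2, hBcard⟩ := card_stab_infty K h2 hneg hb₀ hb₀K
  obtain ⟨s, hs1, hΩ₀, hs⟩ := exists_s K hmove
  have hpq : p ∣ Nat.card (addA K) := p_dvd_card_addA K p hb₀ hb₀K
  have hwtp := wtp_infty K h2 hneg
  obtain ⟨q, hq⟩ : ∃ q, q = Nat.card (addA K) := ⟨_, rfl⟩
  rw [← hq] at hk2 hBcard hΩ₀ hpq hwtp ⊢
  have hωcard : (orbF K (∞ : X)).card = q * s + 1 := by
    rw [card_orbF, ncard_orbit_infty, hΩ₀]
  have hnd : ¬ p ∣ (orbit K (∞ : X)).ncard := by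
    rw [ncard_orbit_infty, hΩ₀]
    intro h
    have h1 : p ∣ q * s := Dvd.dvd.mul_right hpq s
    have := (Nat.dvd_add_right h1).mp h
    exact (Fact.out : p.Prime).one_lt.ne' (Nat.dvd_one.mp this)
  have hq3 : 3 ≤ q := by
    have hp3 : 3 ≤ p := by
      have := (Fact.out : p.Prime).two_le
      omega
    have hqpos : 0 < q := by omega
    exact le_trans hp3 (Nat.le_of_dvd hqpos hpq)
  by_cases hq3' : q = 3
  · left; exact hq3'
  right
  apply hs
  -- Klein count
  set z : K := ⟨-1, hneg⟩ with hz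
  have hz1 : z ≠ 1 := fun h => neg_one_ne_one h2 (Subtype.ext_iff.mp h)
  have hz2 : z * z = 1 := Subtype.ext (by simp [hz])
  have hzc : ∀ h : K, h * z * h⁻¹ = z := fun h => Subtype.ext (by simp [hz])
  have hzfix : ∀ x : X, z • x = x := fun x => by
    show (-1 : G) • x = x
    rw [neg_smul_eq, one_smul]
  have hω2 : 2 ≤ q * s + 1 := by
    have : 0 < q * s := Nat.mul_pos (by omega) hs1
    omega
  have hpos : (orbF K (∞ : X)).card * (2 * q - 2) + 4 <
      ((stabF K (∞ : X)).card + 2) * (orbF K (∞ : X)).card := by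
    rw [hωcard, hBcard]
    have h2q : 2 * q - 2 + 4 = 2 * q + 2 := by omega
    have hk' : 2 * q + 2 ≤ 2 * q * k + 2 := by
      have : 2 * q * 1 ≤ 2 * q * k := Nat.mul_le_mul_left _ hk1
      omega
    calc (q * s + 1) * (2 * q - 2) + 4
        < (q * s + 1) * (2 * q - 2) + 4 * (q * s + 1) := by omega
      _ = (q * s + 1) * (2 * q - 2 + 4) := by ring
      _ = (q * s + 1) * (2 * q + 2) := by rw [h2q]
      _ ≤ (q * s + 1) * (2 * q * k + 2) := Nat.mul_le_mul_left _ hk'
      _ = (2 * q * k + 2) * (q * s + 1) := by ring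
  obtain ⟨x₀, -, hm, hn₀, hmn⟩ := klein_count z hz1 hz2 hzc hzfix
    (fun g : K => tr (g : G) ^ 2 = 4)
    (fun h g => by simp only [Subgroup.coe_mul, Subgroup.coe_inv, tr_conj])
    (fun g hg1 hgz hpar => exists_unique_fixed_of_para h2 (g := (g : G))
      (fun h => hg1 (Subtype.ext h)) (fun h => hgz (Subtype.ext h)) hpar)
    (fun g hg1 hgz hnpar => exists_two_fixed_of_hyp h2 (hsq g g.2) hnpar)
    (∞ : X)
    (fun g hg1 hgz hpar y hy => para_fixed_mem_orbit K p h2 hneg hnd g.2
      (fun h => hg1 (Subtype.ext h)) (fun h => hgz (Subtype.ext h)) hpar hy)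
    (2 * q - 2) (by omega) (by omega) hpos
  have hK : (orbF K (∞ : X)).card * (stabF K (∞ : X)).card = Fintype.card K :=
    card_orbF_mul_card_stabF _
  obtain ⟨c, hc⟩ := hn₀
  obtain ⟨r, rfl⟩ : ∃ r, q = r + 2 := ⟨q - 2, by omega⟩
  rw [hωcard] at hm hK
  rw [hBcard] at hK
  rw [hc] at hmn
  have h2r : 2 * (r + 2) - 2 = 2 * r + 2 := by omega
  rw [h2r] at hm
  set W := (r + 2) * s + 1 with hW
  set m := (orbF K x₀).card with hm_def
  have e : W * (2 * r + 2) = 2 * (r * W) + 2 * W := by ring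
  have hm' : m = r * W + 2 := by omega
  have hEq : m * (2 * c) = W * (2 * (r + 2) * k) := hmn.trans hK.symm
  rw [hm', hW] at hEq
  have E : (2 * (r + 2)) * (c * (1 + s * r)) = (2 * (r + 2)) * (k * (1 + (r + 2) * s)) := by
    calc (2 * (r + 2)) * (c * (1 + s * r))
        = (r * ((r + 2) * s + 1) + 2) * (2 * c) := by ring
      _ = ((r + 2) * s + 1) * (2 * (r + 2) * k) := hEq
      _ = (2 * (r + 2)) * (k * (1 + (r + 2) * s)) := by ring
  have E' := Nat.eq_of_mul_eq_mul_left (by omega : 0 < 2 * (r + 2)) E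
  exact ArithB81.s_eq_one (by omega) hs1 hk1 (by omega) E'

end Fermat.Agent.TW.Dickson.Count81
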