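import Fermat.Agent.TW.Dickson.Defs81

/-!
# Dickson–Borel brick: `SL(2,F)` acting on `OnePoint F`

The Möbius action of `SL(2,F)` on the projective line `OnePoint F` (pulled back from Mathlib's
`GL(2,F)`-action), the trace, and the classification of fixed points of non-central elements:
exactly one fixed point if `tr² = 4`, exactly two if `tr² - 4` is a non-zero square.
Mathlib only.
-/

namespace Fermat.Agent.TW.Dickson.Mobius81

open Matrix OnePoint Fermat.Agent.TW.Dickson.Defs81

variable {F : Type*} [Field F] [DecidableEq F]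

local notation "G" => SpecialLinearGroup (Fin 2) F

/-- `SL(2,F)` acts on the projective line through `GL(2,F)`. -/
instance instSLAction : MulAction G (OnePoint F) :=
  MulAction.compHom (OnePoint F) (SpecialLinearGroup.toGL : G →* GL (Fin 2) F)

theorem smul_eq_toGL_smul (g : G) (x : OnePoint F) :
    g • x = (SpecialLinearGroup.toGL g : GL (Fin 2) F) • x := rfl

theorem smul_infty (g : G) :
    g • (∞ : OnePoint F) = if g 1 0 = 0 then ∞ else ((g 0 0 / g 1 0 : F) : OnePoint F) := by
  rw [smul_eq_toGL_smul, OnePoint.smul_infty_eq_ite]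
  rfl

theorem smul_coe (g : G) (z : F) :
    g • (z : OnePoint F) = if g 1 0 * z + g 1 1 = 0 then ∞
      else (((g 0 0 * z + g 0 1) / (g 1 0 * z + g 1 1) : F) : OnePoint F) := by
  rw [smul_eq_toGL_smul, OnePoint.smul_some_eq_ite]
  rfl

theorem smul_infty_eq_infty_iff (g : G) : g • (∞ : OnePoint F) = ∞ ↔ g 1 0 = 0 := by
  rw [smul_infty]
  by_cases h : g 1 0 = 0 <;> simp [h]

theorem smul_infty_of_ne {g : G} (h : g 1 0 ≠ 0) :
    g • (∞ : OnePoint F) = ((g 0 0 / g 1 0 : F) : OnePoint F) := by
  rw [smul_infty, if_neg h]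

theorem neg_smul_eq (g : G) (x : OnePoint F) : (-g) • x = g • x := by
  induction x using OnePoint.rec with
  | infty =>
    rw [smul_infty, smul_infty]
    by_cases h : g 1 0 = 0
    · simp [h]
    · simp [h, neg_div_neg_eq]
  | coe z =>
    rw [smul_coe, smul_coe]
    have e1 : (-g) 1 0 * z + (-g) 1 1 = - (g 1 0 * z + g 1 1) := by simp; ring
    have e2 : (-g) 0 0 * z + (-g) 0 1 = - (g 0 0 * z + g 0 1) := by simp; ring
    simp only [e1, e2, neg_eq_zero, neg_div_neg_eq]

theorem upper_smul_infty (b : F) : upper b • (∞ : OnePoint F) = ∞ := by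
  rw [smul_infty_eq_infty_iff]; simp

theorem upper_smul_coe (b z : F) : upper b • (z : OnePoint F) = ((z + b : F) : OnePoint F) := by
  rw [smul_coe]; simp

/-- The element `[[0,1],[-1,z]]`, which sends `z` to `∞`. -/
def toInf (z : F) : G := ⟨!![0, 1; -1, z], by simp [det_fin_two]⟩

omit [DecidableEq F] in
@[simp] theorem toInf_10 (z : F) : toInf z 1 0 = -1 := rfl
omit [DecidableEq F] in
@[simp] theorem toInf_11 (z : F) : toInf z 1 1 = z := rfl

/-- `SL(2,F)` is transitive on the projective line. -/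
theorem exists_smul_eq_infty (x : OnePoint F) : ∃ h : G, h • x = ∞ := by
  induction x using OnePoint.rec with
  | infty => exact ⟨1, one_smul _ _⟩
  | coe z =>
    refine ⟨toInf z, ?_⟩
    rw [smul_coe]
    simp

/-- A finite point is fixed iff it is a root of the fixed point quadric. -/
theorem smul_coe_eq_coe_iff (g : G) (z : F) :
    g • (z : OnePoint F) = z ↔ g 1 0 * z ^ 2 + (g 1 1 - g 0 0) * z - g 0 1 = 0 := by
  rw [smul_coe]
  have hd := det_entries g
  by_cases h : g 1 0 * z + g 1 1 = 0
  · rw [if_pos h]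
    constructor
    · intro h'; exact absurd h' (OnePoint.infty_ne_coe z)
    · intro hq
      exfalso
      have h1 : g 0 0 * z + g 0 1 = 0 := by linear_combination z * h - hq
      have : (1 : F) = 0 := by
        linear_combination (-1 : F) * hd + g 0 0 * h - g 1 0 * h1
      exact one_ne_zero this
  · rw [if_neg h, OnePoint.coe_eq_coe, div_eq_iff h]
    constructor
    · intro h'; linear_combination -h'
    · intro h'; linear_combination -h'

/-! ### The trace -/

/-- The trace of an element of `SL(2,F)`. -/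
def tr (g : G) : F := g 0 0 + g 1 1

omit [DecidableEq F] in
theorem tr_eq_trace (g : G) : tr g = Matrix.trace (g : Matrix (Fin 2) (Fin 2) F) := by
  rw [trace_fin_two]; rfl

omit [DecidableEq F] in
theorem tr_conj (h g : G) : tr (h * g * h⁻¹) = tr g := by
  have hd := det_entries h
  unfold tr
  rw [mul_00, mul_11, mul_00, mul_01, mul_10, mul_11, inv_00, inv_01, inv_10, inv_11]
  linear_combination (g 0 0 + g 1 1) * hd

omit [DecidableEq F] in
theorem tr_neg (g : G) : tr (-g) = - tr g := by
  unfold tr; simp; ring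

omit [DecidableEq F] in
@[simp] theorem tr_one : tr (1 : G) = 2 := by
  unfold tr; simp; norm_num

omit [DecidableEq F] in
@[simp] theorem tr_upper (b : F) : tr (upper b) = 2 := by
  unfold tr; simp; norm_num

/-! ### Upper triangular elements -/

omit [DecidableEq F] in
/-- An upper triangular element with `tr² = 4` is `± upper b`. -/
theorem tri_para {g : G} (h10 : g 1 0 = 0) (ht : tr g ^ 2 = 4) :
    g = upper (g 0 1) ∨ g = - upper (- g 0 1) := by
  have hd := det_entries g
  rw [h10, mul_zero, sub_zero] at hd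
  unfold tr at ht
  have h1 : (g 0 0 - g 1 1) ^ 2 = 0 := by linear_combination ht - 4 * hd
  have h2 : g 0 0 = g 1 1 := by
    have := pow_eq_zero_iff (two_ne_zero) |>.mp h1
    exact sub_eq_zero.mp this
  have h3 : (g 0 0 - 1) * (g 0 0 + 1) = 0 := by rw [← h2] at hd; linear_combination hd
  rcases mul_eq_zero.mp h3 with h | h
  · left
    exact eq_upper_of h10 (sub_eq_zero.mp h)
  · right
    have h00 : (-g) 0 0 = 1 := by rw [neg_00]; linear_combination -h
    have h10' : (-g) 1 0 = 0 := by rw [neg_10, h10, neg_zero]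
    have := eq_upper_of h10' h00
    rw [neg_01] at this
    rw [← this, neg_neg]

theorem upper_smul_eq_self_iff {b : F} (hb : b ≠ 0) (x : OnePoint F) :
    upper b • x = x ↔ x = ∞ := by
  induction x using OnePoint.rec with
  | infty => simp [upper_smul_infty]
  | coe z =>
    rw [upper_smul_coe, OnePoint.coe_eq_coe]
    constructor
    · intro h; exact absurd (by linear_combination h) hb
    · intro h; exact absurd h (OnePoint.coe_ne_infty z)

/-- Fixed points of an upper triangular element with distinct diagonal entries. -/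
theorem tri_hyp_smul_eq_self_iff {g : G} (h10 : g 1 0 = 0) (hne : g 0 0 ≠ g 1 1)
    (x : OnePoint F) :
    g • x = x ↔ x = ∞ ∨ x = ((g 0 1 / (g 1 1 - g 0 0) : F) : OnePoint F) := by
  have hd := det_entries g
  rw [h10, mul_zero, sub_zero] at hd
  have hsub : g 1 1 - g 0 0 ≠ 0 := sub_ne_zero.mpr (Ne.symm hne)
  induction x using OnePoint.rec with
  | infty => simp [smul_infty_eq_infty_iff, h10]
  | coe z =>
    rw [smul_coe_eq_coe_iff, h10]
    simp only [OnePoint.coe_ne_infty, false_or, OnePoint.coe_eq_coe]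
    rw [eq_div_iff hsub]
    constructor
    · intro h; linear_combination h
    · intro h; linear_combination h

/-! ### Existence of fixed points -/

/-- If `tr² - 4` is a square (and `2 ≠ 0`), the element has a fixed point. -/
theorem exists_smul_eq_self (h2 : (2 : F) ≠ 0) {g : G} (hsq : IsSquare (tr g ^ 2 - 4)) :
    ∃ x : OnePoint F, g • x = x := by
  by_cases hc : g 1 0 = 0
  · exact ⟨∞, (smul_infty_eq_infty_iff g).mpr hc⟩
  · obtain ⟨s, hs⟩ := hsq
    have hd := det_entries g
    unfold tr at hs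
    refine ⟨(((g 0 0 - g 1 1 + s) / (2 * g 1 0) : F) : OnePoint F), ?_⟩
    rw [smul_coe_eq_coe_iff]
    have h2c : 2 * g 1 0 ≠ 0 := mul_ne_zero h2 hc
    set z : F := (g 0 0 - g 1 1 + s) / (2 * g 1 0) with hz
    have hz' : 2 * g 1 0 * z - (g 0 0 - g 1 1 + s) = 0 := by
      rw [hz]; field_simp; ring
    have key : (2 * (2 * g 1 0)) * (g 1 0 * z ^ 2 + (g 1 1 - g 0 0) * z - g 0 1) = 0 := by
      linear_combination (2 * g 1 0 * z + (g 0 0 - g 1 1 + s) + 2 * (g 1 1 - g 0 0)) * hz'
        - hs + 4 * hd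
    exact (mul_eq_zero.mp key).resolve_left (mul_ne_zero h2 h2c)

/-! ### Classification of fixed points -/

theorem conj_smul_iff (h g : G) (y : OnePoint F) :
    (h * g * h⁻¹) • (h • y) = h • y ↔ g • y = y := by
  rw [← mul_smul, mul_assoc, inv_mul_cancel, mul_one, mul_smul]
  exact (MulAction.injective h).eq_iff

omit [DecidableEq F] in
theorem conj_eq_one_iff (h g : G) : h * g * h⁻¹ = 1 ↔ g = 1 := by
  constructor
  · intro e
    have : g = h⁻¹ * (h * g * h⁻¹) * h := by group
    rw [this, e]; group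
  · rintro rfl; group

omit [DecidableEq F] in
theorem conj_eq_neg_one_iff (h g : G) : h * g * h⁻¹ = -1 ↔ g = -1 := by
  constructor
  · intro e
    have : g = h⁻¹ * (h * g * h⁻¹) * h := by group
    rw [this, e]; simp
  · rintro rfl; simp

/-- Normal form of an element with a fixed point: it is conjugate to an upper triangular one. -/
theorem exists_conj_tri (h2 : (2 : F) ≠ 0) {g : G} (hsq : IsSquare (tr g ^ 2 - 4)) :
    ∃ h : G, (h * g * h⁻¹) 1 0 = 0 := by
  obtain ⟨x, hx⟩ := exists_smul_eq_self h2 hsq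
  obtain ⟨h, hh⟩ := exists_smul_eq_infty x
  refine ⟨h, ?_⟩
  rw [← smul_infty_eq_infty_iff, ← hh, conj_smul_iff, hx]

/-- A non-central element with `tr² = 4` has exactly one fixed point. -/
theorem exists_unique_fixed_of_para (h2 : (2 : F) ≠ 0) {g : G} (hg1 : g ≠ 1) (hg2 : g ≠ -1)
    (ht : tr g ^ 2 = 4) : ∃ x : OnePoint F, ∀ y, g • y = y ↔ y = x := by
  obtain ⟨h, hh⟩ := exists_conj_tri h2 (g := g) (by rw [ht, sub_self]; exact ⟨0, by simp⟩)
  have ht' : tr (h * g * h⁻¹) ^ 2 = 4 := by rw [tr_conj, ht]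
  refine ⟨h⁻¹ • ∞, fun y => ?_⟩
  rw [← conj_smul_iff h g y, eq_inv_smul_iff]
  rcases tri_para hh ht' with e | e
  · have hb : (h * g * h⁻¹) 0 1 ≠ 0 := by
      intro h0
      rw [h0, upper_zero, conj_eq_one_iff] at e
      exact hg1 e
    rw [e]
    exact upper_smul_eq_self_iff hb _
  · have hb : - (h * g * h⁻¹) 0 1 ≠ 0 := by
      intro h0
      rw [h0, upper_zero, conj_eq_neg_one_iff] at e
      exact hg2 e
    rw [e, neg_smul_eq]
    exact upper_smul_eq_self_iff hb _

/-- An element with `tr² - 4` a non-zero square has exactly two fixed points. -/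
theorem exists_two_fixed_of_hyp (h2 : (2 : F) ≠ 0) {g : G} (hsq : IsSquare (tr g ^ 2 - 4))
    (ht : tr g ^ 2 ≠ 4) :
    ∃ x₁ x₂ : OnePoint F, x₁ ≠ x₂ ∧ ∀ y, g • y = y ↔ y = x₁ ∨ y = x₂ := by
  obtain ⟨h, hh⟩ := exists_conj_tri h2 hsq
  have ht' : tr (h * g * h⁻¹) ^ 2 ≠ 4 := by rw [tr_conj]; exact ht
  have hd := det_entries (h * g * h⁻¹)
  rw [hh, mul_zero, sub_zero] at hd
  have hne : (h * g * h⁻¹) 0 0 ≠ (h * g * h⁻¹) 1 1 := by
    intro e
    apply ht'
    unfold tr
    rw [← e] at hd ⊢
    linear_combination 4 * hd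
  refine ⟨h⁻¹ • ∞, h⁻¹ • (((h * g * h⁻¹) 0 1 / ((h * g * h⁻¹) 1 1 - (h * g * h⁻¹) 0 0) : F) :
    OnePoint F), ?_, fun y => ?_⟩
  · intro e
    have := (MulAction.injective h⁻¹) e
    exact OnePoint.infty_ne_coe _ this
  · rw [← conj_smul_iff h g y, eq_inv_smul_iff, eq_inv_smul_iff]
    exact tri_hyp_smul_eq_self_iff hh hne _

/-! ### Elements of order `p` -/

omit [DecidableEq F] in
theorem upper_pow (b : F) (n : ℕ) : upper b ^ n = upper (n • b) := by
  induction n with
  | zero => simp [upper_zero]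
  | succ n ih => rw [pow_succ, ih, succ_nsmul, upper_add]

/-- Elements of trace `2` are killed by `p` in characteristic `p`. -/
theorem pow_char_eq_one_of_tr_eq_two (p : ℕ) [CharP F p] (h2 : (2 : F) ≠ 0) {g : G}
    (ht : tr g = 2) : g ^ p = 1 := by
  obtain ⟨h, hh⟩ := exists_conj_tri h2 (g := g)
    (by rw [ht]; exact ⟨0, by norm_num⟩)
  have ht' : tr (h * g * h⁻¹) ^ 2 = 4 := by rw [tr_conj, ht]; norm_num
  have key : (h * g * h⁻¹) ^ p = 1 := by
    rcases tri_para hh ht' with e | e
    · rw [e, upper_pow, nsmul_eq_mul, CharP.cast_eq_zero, zero_mul, upper_zero]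
    · exfalso
      have := congrArg tr e
      rw [tr_conj, ht, tr_neg, tr_upper] at this
      have h4 : (2 : F) * 2 = 0 := by linear_combination this
      exact h2 (mul_self_eq_zero.mp h4)
  rw [conj_pow, conj_eq_one_iff] at key
  exact key

omit [DecidableEq F] in
/-- Elements killed by `p` have trace `2` in characteristic `p`. -/
theorem tr_eq_two_of_pow_char (p : ℕ) [Fact p.Prime] [CharP F p] {g : G} (hg : g ^ p = 1) :
    tr g = 2 := by
  have h0 : (g : Matrix (Fin 2) (Fin 2) F) ^ p = 1 := by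
    have e := congrArg (fun x : G => (x : Matrix (Fin 2) (Fin 2) F)) hg
    simpa using e
  have h1 : ((g : Matrix (Fin 2) (Fin 2) F) - 1) ^ p = 0 := by
    rw [sub_pow_char_of_commute _ (Commute.one_right _), one_pow, h0, sub_self]
  have h3 : IsNilpotent ((g : Matrix (Fin 2) (Fin 2) F) - 1) := ⟨p, h1⟩
  have h4 := (Matrix.isNilpotent_trace_of_isNilpotent h3).eq_zero
  rw [Matrix.trace_sub, Matrix.trace_one, ← tr_eq_trace] at h4
  simp only [Fintype.card_fin, Nat.cast_ofNat] at h4
  exact sub_eq_zero.mp h4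

end Fermat.Agent.TW.Dickson.Mobius81
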