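/-
Dickson–Borel brick (WP8(c) of the TW program): the Klein–Burnside count for finite subgroups
of `SL(2,F)`, obtained by instantiating the abstract count `DicksonCount40.dickson_count` with
helper81's Möbius geometry (`Mobius81`).  Main results: `setup` (the `Setup` structure for
`K ≤ SL(2,F)` acting on `OnePoint F`), `card_stabilizer`, `card_orbit_infty` (the orbit of `∞`
has `q + 1` points when `q > 3`) and `upper_mem_of_orbit` (`s = 1`, the hypothesis `hOmega` of the
endgame `Endgame40.endgame`).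
-/
import Fermat.Agent.TW.Select.DicksonCount40
import Fermat.Agent.TW.Dickson.Mobius81

namespace Fermat.Agent.TW.Dickson.CountInst40

open Fermat.Agent.TW.Select.DicksonCount40

section Abstract

variable {Γ X : Type*} [Group Γ] [MulAction Γ X]

/-- The orbit of `x₀` has `1 + m q` points, if the non-trivial elements of `U` fix only `x₀`. -/
theorem natCard_orbit_eq [Finite Γ] (U : Subgroup Γ) (x₀ : X)
    (hU : ∀ u ∈ U, u ≠ 1 → ∀ y : X, u • y = y ↔ y = x₀) :
    ∃ m, Nat.card (MulAction.orbit Γ x₀) = 1 + m * Nat.card U := by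
  classical
  have := Fintype.ofFinite Γ
  rw [natCard_orbit, natCard_subgroup]
  have hstab : ∀ u ∈ U, u • x₀ = x₀ := by
    intro u hu
    by_cases h1 : u = 1
    · rw [h1, one_smul]
    · exact (hU u hu h1 x₀).2 rfl
  have hdvd : (Finset.univ.filter (· ∈ U)).card ∣ ((orbF Γ x₀).erase x₀).card := by
    apply card_dvd_of_free U
    · intro u hu x hx
      rw [Finset.mem_erase] at hx ⊢
      obtain ⟨g, rfl⟩ := mem_orbF.1 hx.2
      refine ⟨fun h => hx.1 ?_, mem_orbF.2 ⟨u * g, mul_smul _ _ _⟩⟩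
      have h2 : u⁻¹ • x₀ = x₀ := hstab _ (U.inv_mem hu)
      have h3 : g • x₀ = u⁻¹ • x₀ := by rw [eq_inv_smul_iff]; exact h
      rw [h3, h2]
    · intro u hu hu1 x hx h
      exact (Finset.mem_erase.1 hx).1 ((hU u hu hu1 x).1 h)
  rw [Finset.card_erase_of_mem (self_mem_orbF x₀)] at hdvd
  obtain ⟨m, hm⟩ := hdvd
  have hpos : 0 < (orbF Γ x₀).card := Finset.card_pos.2 ⟨x₀, self_mem_orbF x₀⟩
  exact ⟨m, by rw [mul_comm m]; omega⟩

/-- An element of order dividing `p` fixes a point of the orbit of `x₀`. -/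
theorem exists_fixed_in_orbit [Finite Γ] (p : ℕ) [Fact p.Prime] (U : Subgroup Γ) (x₀ : X)
    (hU : ∀ u ∈ U, u ≠ 1 → ∀ y : X, u • y = y ↔ y = x₀) (hpU : p ∣ Nat.card U)
    (δ : Γ) (hδ : δ ^ p = 1) : ∃ k : Γ, δ • (k • x₀) = k • x₀ := by
  obtain ⟨m, hm⟩ := natCard_orbit_eq U x₀ hU
  have hpG : IsPGroup p (Subgroup.zpowers δ) := by
    rintro ⟨g, hg⟩
    obtain ⟨n, rfl⟩ := Subgroup.mem_zpowers_iff.1 hg
    refine ⟨1, ?_⟩
    ext
    simp only [pow_one, Subgroup.coe_pow, Subgroup.coe_one]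
    rw [← zpow_natCast, ← zpow_mul, mul_comm, zpow_mul, zpow_natCast, hδ, one_zpow]
  have hnd : ¬ p ∣ Nat.card (MulAction.orbit Γ x₀) := by
    rw [hm]
    intro h
    have h2 : p ∣ m * Nat.card U := Dvd.dvd.mul_left hpU m
    have h3 : p ∣ 1 := (Nat.dvd_add_left h2).1 h
    exact (Fact.out : p.Prime).one_lt.ne' (Nat.dvd_one.1 h3)
  obtain ⟨⟨y, hy⟩, hfix⟩ := hpG.nonempty_fixed_point_of_prime_not_dvd_card
    (MulAction.orbit Γ x₀) hnd
  obtain ⟨k, rfl⟩ := MulAction.mem_orbit_iff.1 hy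
  refine ⟨k, ?_⟩
  have := hfix ⟨δ, Subgroup.mem_zpowers δ⟩
  exact congrArg Subtype.val this

end Abstract

open Matrix OnePoint Fermat.Agent.TW.Dickson.Defs81 Fermat.Agent.TW.Dickson.Mobius81

section Mat

variable {F : Type*} [Field F] [DecidableEq F]

local notation "G" => SpecialLinearGroup (Fin 2) F

/-- The kernel of the Möbius action is `{±1}`. -/
theorem forall_smul_eq_iff (g : G) : (∀ x : OnePoint F, g • x = x) ↔ g = 1 ∨ g = -1 := by
  constructor
  · intro h
    have h10 : g 1 0 = 0 := (smul_infty_eq_infty_iff g).1 (h ∞)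
    have h0 := (smul_coe_eq_coe_iff g 0).1 (h _)
    have h1 := (smul_coe_eq_coe_iff g 1).1 (h _)
    have hd := det_entries g
    have h01 : g 0 1 = 0 := by linear_combination -h0
    have h11 : g 1 1 = g 0 0 := by linear_combination h1 - h10 + h01
    rw [h01, h11, zero_mul, sub_zero] at hd
    have h3 : (g 0 0 - 1) * (g 0 0 + 1) = 0 := by linear_combination hd
    rcases mul_eq_zero.1 h3 with h | h
    · left
      have h00 : g 0 0 = 1 := by linear_combination h
      apply ext4 <;> simp [h00, h01, h10, h11]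
    · right
      have h00 : g 0 0 = -1 := by linear_combination h
      apply ext4 <;> simp [h00, h01, h10, h11]
  · rintro (rfl | rfl) x
    · exact one_smul _ _
    · rw [neg_smul_eq, one_smul]

omit [DecidableEq F] in
theorem two_ne_zero_of_char (p : ℕ) [Fact p.Prime] [CharP F p] (hp : p ≠ 2) : (2 : F) ≠ 0 := by
  intro h
  have h2 : ((2 : ℕ) : F) = 0 := by exact_mod_cast h
  rw [CharP.cast_eq_zero_iff F p 2] at h2
  exact hp ((Nat.prime_dvd_prime_iff_eq Fact.out Nat.prime_two).1 h2)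

omit [DecidableEq F] in
theorem upper_pow_char (p : ℕ) [CharP F p] (y : F) : upper y ^ p = 1 := by
  rw [upper_pow, nsmul_eq_mul, CharP.cast_eq_zero, zero_mul, upper_zero]

omit [DecidableEq F] in
theorem neg_upper_pow_char (p : ℕ) [Fact p.Prime] [CharP F p] (hp : p ≠ 2) (y : F) :
    (-upper y) ^ p = -1 := by
  have hodd : Odd p := (Fact.out : p.Prime).odd_of_ne_two hp
  rw [neg_pow, hodd.neg_one_pow, upper_pow_char, mul_one]

variable (K : Subgroup (SpecialLinearGroup (Fin 2) F))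

/-- The kernel of the action of `K`. -/
noncomputable def Zk : Subgroup K := (MulAction.toPermHom K (OnePoint F)).ker

theorem mem_Zk_iff' (k : K) : k ∈ Zk K ↔ ∀ x : OnePoint F, k • x = x := by
  rw [Zk, MonoidHom.mem_ker]
  constructor
  · intro h x
    have := congrArg (fun σ : Equiv.Perm (OnePoint F) => σ x) h
    simpa using this
  · intro h
    ext x
    simpa using h x

theorem mem_Zk_iff (k : K) : k ∈ Zk K ↔ (k : G) = 1 ∨ (k : G) = -1 := by
  rw [mem_Zk_iff', ← forall_smul_eq_iff]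
  rfl

/-- The upper unipotent elements of `K`. -/
def Uk : Subgroup K := (upperHom (F := F)).range.subgroupOf K

omit [DecidableEq F] in
theorem mem_Uk_iff (k : K) : k ∈ Uk K ↔ ∃ x : F, (k : G) = upper x := by
  rw [Uk, Subgroup.mem_subgroupOf, MonoidHom.mem_range]
  constructor
  · rintro ⟨m, hm⟩; exact ⟨m.toAdd, hm.symm⟩
  · rintro ⟨x, hx⟩; exact ⟨Multiplicative.ofAdd x, hx.symm⟩

end Mat

section Mat2

variable {F : Type*} [Field F] [DecidableEq F]

local notation "G" => SpecialLinearGroup (Fin 2) F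

variable (K : Subgroup (SpecialLinearGroup (Fin 2) F))
variable {p : ℕ} [Fact p.Prime] [CharP F p]

theorem smul_def' (k : K) (x : OnePoint F) : k • x = (k : G) • x := rfl

omit [DecidableEq F] in
/-- an upper triangular element of `K` with `k 0 0 = -1` forces `-1 ∈ K`. -/
theorem neg_one_mem_of (hp : p ≠ 2) {k : G} (hk : k ∈ K) (h10 : k 1 0 = 0) (h00 : k 0 0 = -1) :
    (-1 : G) ∈ K ∧ ∃ y : F, k = -upper y := by
  have h2 : (2 : F) ≠ 0 := two_ne_zero_of_char p hp
  have hd := det_entries k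
  rw [h10, h00, mul_zero, sub_zero] at hd
  have h11 : k 1 1 = -1 := by linear_combination -hd
  have ht : tr k ^ 2 = 4 := by unfold tr; rw [h00, h11]; ring
  rcases tri_para h10 ht with e | e
  · exfalso
    have := congrArg (fun g : G => g 0 0) e
    simp only [upper_00] at this
    rw [h00] at this
    apply h2
    linear_combination -this
  · refine ⟨?_, _, e⟩
    have h3 := neg_upper_pow_char p hp (-k 0 1)
    rw [← e] at h3
    rw [← h3]
    exact K.pow_mem hk p

theorem not_mem_Zk_iff (k : K) : k ∉ Zk K ↔ (k : G) ≠ 1 ∧ (k : G) ≠ -1 := by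
  rw [mem_Zk_iff, not_or]

/-- non-central elements with `tr² = 4` are parabolic, the others hyperbolic -/
theorem isPar_or_isHyp (hp : p ≠ 2) (hsq : ∀ g ∈ K, IsSquare (tr g ^ 2 - 4)) (k : K)
    (hk : k ∉ Zk K) :
    (tr (k : G) ^ 2 = 4 ∧ IsPar (OnePoint F) k) ∨ (tr (k : G) ^ 2 ≠ 4 ∧ IsHyp (OnePoint F) k) := by
  have h2 : (2 : F) ≠ 0 := two_ne_zero_of_char p hp
  rw [not_mem_Zk_iff] at hk
  by_cases ht : tr (k : G) ^ 2 = 4
  · exact Or.inl ⟨ht, exists_unique_fixed_of_para h2 hk.1 hk.2 ht⟩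
  · exact Or.inr ⟨ht, exists_two_fixed_of_hyp h2 (hsq _ k.2) ht⟩

theorem tr_sq_of_isPar (hp : p ≠ 2) (hsq : ∀ g ∈ K, IsSquare (tr g ^ 2 - 4)) (k : K)
    (hk : k ∉ Zk K) (hpar : IsPar (OnePoint F) k) : tr (k : G) ^ 2 = 4 := by
  rcases isPar_or_isHyp K hp hsq k hk with h | h
  · exact h.1
  · exact absurd hpar (not_isPar_of_isHyp h.2)

theorem hU_field (u : K) (hu : u ∈ Uk K) (hu1 : u ≠ 1) (y : OnePoint F) :
    u • y = y ↔ y = ∞ := by
  obtain ⟨x, hx⟩ := (mem_Uk_iff K u).1 hu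
  have hx0 : x ≠ 0 := by
    rintro rfl
    apply hu1
    ext1
    rw [hx, upper_zero]; rfl
  rw [smul_def', hx]
  exact upper_smul_eq_self_iff hx0 y

/-- a parabolic element of `K`, up to sign, is killed by `p`. -/
theorem exists_pow_eq_one_of_isPar (hp : p ≠ 2) (hsq : ∀ g ∈ K, IsSquare (tr g ^ 2 - 4)) (k : K)
    (hk : k ∉ Zk K) (hpar : IsPar (OnePoint F) k) :
    ∃ δ : K, δ ^ p = 1 ∧ ∀ y : OnePoint F, δ • y = y ↔ k • y = y := by
  have h2 : (2 : F) ≠ 0 := two_ne_zero_of_char p hp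
  have ht := tr_sq_of_isPar K hp hsq k hk hpar
  have h3 : (tr (k : G) - 2) * (tr (k : G) + 2) = 0 := by linear_combination ht
  rcases mul_eq_zero.1 h3 with h | h
  · refine ⟨k, ?_, fun y => Iff.rfl⟩
    ext1
    rw [Subgroup.coe_pow]
    exact pow_char_eq_one_of_tr_eq_two p h2 (by linear_combination h)
  · have h4 : (-(k : G)) ^ p = 1 :=
      pow_char_eq_one_of_tr_eq_two p h2 (by rw [tr_neg]; linear_combination -h)
    have hodd : Odd p := (Fact.out : p.Prime).odd_of_ne_two hp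
    have h5 : (k : G) ^ p = -1 := by
      rw [neg_pow, hodd.neg_one_pow] at h4
      have : (k : G) ^ p = -(-1 * (k : G) ^ p) := by simp
      rw [this, h4]
    have h6 : (-1 : G) ∈ K := by rw [← h5]; exact K.pow_mem k.2 p
    have h7 : -(k : G) ∈ K := by
      have : -(k : G) = (-1 : G) * k := by simp
      rw [this]; exact K.mul_mem h6 k.2
    refine ⟨⟨-(k : G), h7⟩, ?_, fun y => ?_⟩
    · ext1
      rw [Subgroup.coe_pow]
      exact h4
    · rw [smul_def', smul_def']
      show (-(k : G)) • y = y ↔ _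
      rw [neg_smul_eq]

end Mat2

section Mat3

variable {F : Type*} [Field F] [DecidableEq F]

local notation "G" => SpecialLinearGroup (Fin 2) F

variable (K : Subgroup (SpecialLinearGroup (Fin 2) F))
variable {p : ℕ} [Fact p.Prime] [CharP F p]

theorem hparB_field (hp : p ≠ 2) (hsq : ∀ g ∈ K, IsSquare (tr g ^ 2 - 4)) (k : K)
    (hfix : k • (∞ : OnePoint F) = ∞) (hk : k ∉ Zk K) :
    IsPar (OnePoint F) k ↔ ∃ ζ ∈ Zk K, ζ * k ∈ Uk K := by
  have h10 : (k : G) 1 0 = 0 := (smul_infty_eq_infty_iff (k : G)).1 hfix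
  constructor
  · intro hpar
    have ht := tr_sq_of_isPar K hp hsq k hk hpar
    rcases tri_para h10 ht with e | e
    · exact ⟨1, (Zk K).one_mem, by rw [one_mul, mem_Uk_iff]; exact ⟨_, e⟩⟩
    · have h00 : (k : G) 0 0 = -1 := by
        have := congrArg (fun g : G => g 0 0) e
        simpa using this
      obtain ⟨hneg, -⟩ := neg_one_mem_of K hp k.2 h10 h00
      refine ⟨⟨-1, hneg⟩, (mem_Zk_iff K _).2 (Or.inr rfl), ?_⟩
      rw [mem_Uk_iff]
      refine ⟨-(k : G) 0 1, ?_⟩
      rw [Subgroup.coe_mul]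
      show (-1 : G) * (k : G) = _
      rw [e]; simp
  · rintro ⟨ζ, hζ, hu⟩
    obtain ⟨x, hx⟩ := (mem_Uk_iff K _).1 hu
    rw [Subgroup.coe_mul] at hx
    have hx0 : x ≠ 0 := by
      rintro rfl
      apply hk
      have h1 : k = ζ⁻¹ := by
        apply eq_inv_of_mul_eq_one_right
        ext1
        rw [Subgroup.coe_mul, hx, upper_zero]; rfl
      rw [h1]; exact (Zk K).inv_mem hζ
    refine ⟨∞, fun y => ?_⟩
    have h1 : ∀ y : OnePoint F, k • y = (ζ * k) • y := by
      intro y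
      rw [mul_smul, (mem_Zk_iff' K ζ).1 hζ]
    rw [h1, smul_def', Subgroup.coe_mul, hx]
    exact upper_smul_eq_self_iff hx0 y

omit [DecidableEq F] in
theorem card_Uk_dvd (hb : ∃ b : F, b ≠ 0 ∧ upper b ∈ K) : p ∣ Nat.card (Uk K) := by
  obtain ⟨b, hb0, hbK⟩ := hb
  set u : Uk K := ⟨⟨upper b, hbK⟩, (mem_Uk_iff K _).2 ⟨b, rfl⟩⟩ with hu
  have h1 : u ^ p = 1 := by
    ext1; ext1
    simp only [Subgroup.coe_pow, Subgroup.coe_one, hu]
    exact upper_pow_char p b
  have h2 : u ≠ 1 := by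
    intro h
    have := congrArg (fun v : Uk K => ((v : K) : G)) h
    simp only [hu, Subgroup.coe_one] at this
    exact hb0 (upper_eq_one_iff.1 this)
  rw [← orderOf_eq_prime h1 h2]
  exact orderOf_dvd_natCard u

/-- The `Setup` of the counting argument for a finite subgroup of `SL(2,F)`. -/
theorem setup [Finite K] (hp : p ≠ 2) (hsq : ∀ g ∈ K, IsSquare (tr g ^ 2 - 4))
    (hmove : ∃ g ∈ K, g 1 0 ≠ 0) (hb : ∃ b : F, b ≠ 0 ∧ upper b ∈ K) :
    Setup (X := OnePoint F) (Zk K) (Uk K) ∞ where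
  hZ := mem_Zk_iff' K
  hfix := by
    intro k hk
    rcases isPar_or_isHyp K hp hsq k hk with h | h
    · exact Or.inl h.2
    · exact Or.inr h.2
  hU := hU_field K
  hUnt := by
    obtain ⟨b, hb0, hbK⟩ := hb
    refine ⟨⟨upper b, hbK⟩, (mem_Uk_iff K _).2 ⟨b, rfl⟩, ?_⟩
    intro h
    have := congrArg (fun v : K => (v : G)) h
    simp only [Subgroup.coe_one] at this
    exact hb0 (upper_eq_one_iff.1 this)
  hmove := by
    obtain ⟨g, hg, h10⟩ := hmove
    refine ⟨⟨g, hg⟩, ?_⟩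
    rw [smul_def']
    exact fun h => h10 ((smul_infty_eq_infty_iff g).1 h)
  hpar := by
    intro k hk hpar
    obtain ⟨δ, hδ, hfix⟩ := exists_pow_eq_one_of_isPar K hp hsq k hk hpar
    obtain ⟨j, hj⟩ := exists_fixed_in_orbit p (Uk K) (∞ : OnePoint F) (hU_field K)
      (card_Uk_dvd K hb) δ hδ
    exact ⟨j, (hfix _).1 hj⟩
  hparB := hparB_field K hp hsq

end Mat3

section Mat4

open scoped Classical
open Finset

variable {F : Type*} [Field F] [DecidableEq F]

local notation "G" => SpecialLinearGroup (Fin 2) F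

variable (K : Subgroup (SpecialLinearGroup (Fin 2) F))
variable {p : ℕ} [Fact p.Prime] [CharP F p]

/-- elements of `Z U`: upper triangular with diagonal entries `±1`. -/
theorem mem_ZU_iff (hp : p ≠ 2) (m : K) :
    (∃ ζ ∈ Zk K, ζ * m ∈ Uk K) ↔ (m : G) 1 0 = 0 ∧ (m : G) 0 0 ^ 2 = 1 := by
  constructor
  · rintro ⟨ζ, hζ, hu⟩
    obtain ⟨x, hx⟩ := (mem_Uk_iff K _).1 hu
    rw [Subgroup.coe_mul] at hx
    rcases (mem_Zk_iff K ζ).1 hζ with h | h
    · rw [h, one_mul] at hx
      rw [hx]; simp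
    · rw [h] at hx
      have : (m : G) = -upper x := by rw [← hx]; simp
      rw [this]; simp
  · rintro ⟨h10, h00⟩
    have h3 : ((m : G) 0 0 - 1) * ((m : G) 0 0 + 1) = 0 := by linear_combination h00
    rcases mul_eq_zero.1 h3 with h | h
    · refine ⟨1, (Zk K).one_mem, ?_⟩
      rw [one_mul, mem_Uk_iff]
      exact ⟨_, eq_upper_of h10 (by linear_combination h)⟩
    · obtain ⟨hneg, y, hy⟩ := neg_one_mem_of K hp m.2 h10 (by linear_combination h)
      refine ⟨⟨-1, hneg⟩, (mem_Zk_iff K _).2 (Or.inr rfl), ?_⟩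
      rw [mem_Uk_iff]
      refine ⟨y, ?_⟩
      rw [Subgroup.coe_mul]
      show (-1 : G) * (m : G) = _
      rw [hy]; simp

/-- The order of the stabiliser of `∞`. -/
theorem card_stabilizer [Finite K] (hp : p ≠ 2) (hsq : ∀ g ∈ K, IsSquare (tr g ^ 2 - 4))
    (hmove : ∃ g ∈ K, g 1 0 ≠ 0) (hb : ∃ b : F, b ≠ 0 ∧ upper b ∈ K) :
    ∃ e : ℕ, e ≤ Nat.card (Uk K) - 1 ∧
      Nat.card (MulAction.stabilizer K (∞ : OnePoint F)) =
        Nat.card (Zk K) * Nat.card (Uk K) * e := by
  have := Fintype.ofFinite K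
  have S := setup K hp hsq hmove hb
  obtain ⟨b, hb0, hbK⟩ := hb
  have hP0 := S.card_ZU
  rw [Finset.card_product, ← natCard_subgroup, ← natCard_subgroup] at hP0
  rw [natCard_stabilizer]
  set f : K → F := fun k => (k : G) 0 0 ^ 2 with hf
  have hfib := Finset.card_eq_sum_card_fiberwise (s := stabF K (∞ : OnePoint F))
    (t := (stabF K (∞ : OnePoint F)).image f) (f := f)
    (fun k hk => Finset.mem_image_of_mem f hk)
  have hfiber : ∀ s ∈ (stabF K (∞ : OnePoint F)).image f,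
      ((stabF K (∞ : OnePoint F)).filter (fun k => f k = s)).card =
        Nat.card (Zk K) * Nat.card (Uk K) := by
    intro s hs
    obtain ⟨k₀, hk₀, rfl⟩ := Finset.mem_image.1 hs
    rw [mem_stabF, smul_def', smul_infty_eq_infty_iff] at hk₀
    have hd₀ := det_entries (k₀ : G)
    rw [hk₀, mul_zero, sub_zero] at hd₀
    rw [hP0]
    refine Finset.card_bij (fun k _ => k₀⁻¹ * k) ?_ ?_ ?_
    · intro k hk
      simp only [mem_filter, mem_stabF, hf] at hk
      rw [smul_def', smul_infty_eq_infty_iff] at hk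
      simp only [mem_filter, mem_univ, true_and]
      rw [mem_ZU_iff K hp]
      have hd := det_entries (k : G)
      rw [hk.1, mul_zero, sub_zero] at hd
      constructor
      · rw [Subgroup.coe_mul, Subgroup.coe_inv, mul_10, inv_10, inv_11, hk₀, hk.1]; ring
      · rw [Subgroup.coe_mul, Subgroup.coe_inv, mul_00, inv_00, inv_01, hk.1, mul_zero, add_zero,
          mul_pow, hk.2]
        rw [← mul_pow, mul_comm, hd₀, one_pow]
    · intro a _ c _ h
      exact mul_left_cancel h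
    · intro m hm
      simp only [mem_filter, mem_univ, true_and] at hm
      rw [mem_ZU_iff K hp] at hm
      refine ⟨k₀ * m, ?_, by group⟩
      simp only [mem_filter, mem_stabF, hf]
      rw [smul_def', smul_infty_eq_infty_iff]
      constructor
      · rw [Subgroup.coe_mul, mul_10, hk₀, hm.1]; ring
      · rw [Subgroup.coe_mul, mul_00, hm.1, mul_zero, add_zero, mul_pow, hm.2, mul_one]
  rw [Finset.sum_congr rfl hfiber, Finset.sum_const, smul_eq_mul] at hfib
  refine ⟨((stabF K (∞ : OnePoint F)).image f).card, ?_, by rw [hfib, mul_comm]⟩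
  -- the bound `e ≤ q - 1`
  set A : Finset F := (univ.filter (· ∈ Uk K)).image (fun u : K => (u : G) 0 1) with hA
  have hAcard : A.card = Nat.card (Uk K) := by
    rw [natCard_subgroup, hA]
    apply Finset.card_image_of_injOn
    intro u hu v hv huv
    simp only [coe_filter, mem_univ, true_and, Set.mem_ofPred_eq] at hu hv
    obtain ⟨x, hx⟩ := (mem_Uk_iff K u).1 hu
    obtain ⟨y, hy⟩ := (mem_Uk_iff K v).1 hv
    have huv' : (u : G) 0 1 = (v : G) 0 1 := huv
    rw [hx, hy, upper_01, upper_01] at huv'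
    ext1
    rw [hx, hy, huv']
  have h0A : (0 : F) ∈ A := by
    rw [hA, Finset.mem_image]
    exact ⟨1, by simp [(Uk K).one_mem], by simp⟩
  have hsub : ((stabF K (∞ : OnePoint F)).image f).image (fun s => s * b) ⊆ A.erase 0 := by
    intro t ht
    obtain ⟨s, hs, rfl⟩ := Finset.mem_image.1 ht
    obtain ⟨k, hk, rfl⟩ := Finset.mem_image.1 hs
    rw [mem_stabF, smul_def', smul_infty_eq_infty_iff] at hk
    have hd := det_entries (k : G)
    rw [hk, mul_zero, sub_zero] at hd
    have hk00 : (k : G) 0 0 ≠ 0 := by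
      intro h; rw [h, zero_mul] at hd; exact zero_ne_one hd
    rw [Finset.mem_erase]
    refine ⟨mul_ne_zero (pow_ne_zero 2 hk00) hb0, ?_⟩
    rw [hA, Finset.mem_image]
    refine ⟨k * ⟨upper b, hbK⟩ * k⁻¹, ?_, ?_⟩
    · simp only [mem_filter, mem_univ, true_and]
      rw [mem_Uk_iff]
      refine ⟨(k : G) 0 0 ^ 2 * b, ?_⟩
      rw [Subgroup.coe_mul, Subgroup.coe_mul, Subgroup.coe_inv]
      exact conj_upper_of_upperTri hk b
    · show ((k * ⟨upper b, hbK⟩ * k⁻¹ : K) : G) 0 1 = f k * b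
      rw [Subgroup.coe_mul, Subgroup.coe_mul, Subgroup.coe_inv]
      show ((k : G) * upper b * (k : G)⁻¹) 0 1 = _
      rw [conj_upper_of_upperTri hk b, upper_01]
  have hle := Finset.card_le_card hsub
  rw [Finset.card_image_of_injective _ (mul_left_injective₀ hb0),
    Finset.card_erase_of_mem h0A, hAcard] at hle
  exact hle

end Mat4

section Mat5

variable {F : Type*} [Field F] [DecidableEq F]

local notation "G" => SpecialLinearGroup (Fin 2) F

variable (K : Subgroup (SpecialLinearGroup (Fin 2) F))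
variable {p : ℕ} [Fact p.Prime] [CharP F p]

/-- **The Klein–Burnside count for `SL(2,F)`**: if `K` is finite, has eigenvalues in `F`, moves
`∞`, contains `upper b` with `b ≠ 0`, and `q = #(K ∩ upper) > 3`, then the orbit of `∞` has
`q + 1` points. -/
theorem card_orbit_infty [Finite K] (hp : p ≠ 2) (hsq : ∀ g ∈ K, IsSquare (tr g ^ 2 - 4))
    (hmove : ∃ g ∈ K, g 1 0 ≠ 0) (hb : ∃ b : F, b ≠ 0 ∧ upper b ∈ K)
    (hq3 : 3 < Nat.card (Uk K)) :
    Nat.card (MulAction.orbit K (∞ : OnePoint F)) = Nat.card (Uk K) + 1 := by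
  obtain ⟨e, he, hstab⟩ := card_stabilizer K hp hsq hmove hb
  exact (dickson_count (Zk K) (Uk K) (∞ : OnePoint F) (setup K hp hsq hmove hb)
    _ _ e rfl rfl hstab he hq3).1

omit [DecidableEq F] in
/-- `K ∩ upper` is in bijection with `{x | upper x ∈ K}`. -/
theorem card_Uk_eq : Nat.card (Uk K) = Set.ncard {x : F | upper x ∈ K} := by
  rw [← Nat.card_coe_set_eq]
  refine Nat.card_congr
    { toFun := fun u => ⟨((u : K) : G) 0 1, ?_⟩
      invFun := fun x => ⟨⟨upper x.1, x.2⟩, (mem_Uk_iff K _).2 ⟨x.1, rfl⟩⟩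
      left_inv := ?_
      right_inv := ?_ }
  · obtain ⟨x, hx⟩ := (mem_Uk_iff K u.1).1 u.2
    show upper (((u : K) : G) 0 1) ∈ K
    rw [hx, upper_01, ← hx]
    exact u.1.2
  · intro u
    obtain ⟨x, hx⟩ := (mem_Uk_iff K u.1).1 u.2
    ext1; ext1
    show upper (((u : K) : G) 0 1) = _
    rw [hx, upper_01]
  · intro x
    ext1
    show (upper x.1) 0 1 = _
    rw [upper_01]

/-- **`s = 1`**: if moreover `0` is in the orbit of `∞`, the orbit is `{∞} ∪ A`. -/
theorem upper_mem_of_orbit [Finite K] (hp : p ≠ 2) (hsq : ∀ g ∈ K, IsSquare (tr g ^ 2 - 4))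
    (hb : ∃ b : F, b ≠ 0 ∧ upper b ∈ K) (hq3 : 3 < Set.ncard {x : F | upper x ∈ K})
    (h0 : ∃ g ∈ K, g • (∞ : OnePoint F) = ((0 : F) : OnePoint F)) :
    ∀ g ∈ K, g 1 0 ≠ 0 → upper (g 0 0 / g 1 0) ∈ K := by
  have hmove : ∃ g ∈ K, g 1 0 ≠ 0 := by
    obtain ⟨g, hg, hg0⟩ := h0
    refine ⟨g, hg, fun h => ?_⟩
    rw [(smul_infty_eq_infty_iff g).2 h] at hg0
    exact OnePoint.infty_ne_coe _ hg0
  rw [← card_Uk_eq] at hq3
  have hN := card_orbit_infty K hp hsq hmove hb hq3
  rw [card_Uk_eq, Nat.card_coe_set_eq] at hN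
  set A : Set F := {x : F | upper x ∈ K} with hA
  set S : Set (OnePoint F) := insert ∞ ((fun x : F => (x : OnePoint F)) '' A) with hS
  have hfinO : (MulAction.orbit K (∞ : OnePoint F)).Finite := by
    apply Set.finite_of_ncard_ne_zero
    rw [hN]; omega
  have hSO : S ⊆ MulAction.orbit K (∞ : OnePoint F) := by
    intro y hy
    rcases hy with rfl | ⟨x, hx, rfl⟩
    · exact MulAction.mem_orbit_self _
    · obtain ⟨g, hg, hg0⟩ := h0
      refine MulAction.mem_orbit_iff.2 ⟨⟨upper x, hx⟩ * ⟨g, hg⟩, ?_⟩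
      rw [mul_smul, smul_def', smul_def']
      show upper x • g • (∞ : OnePoint F) = _
      rw [hg0, upper_smul_coe, zero_add]
  have hScard : S.ncard = A.ncard + 1 := by
    have hAfin : A.Finite := by
      apply Set.finite_of_ncard_ne_zero
      rw [← card_Uk_eq]; omega
    rw [hS, Set.ncard_insert_of_notMem ?_ (hAfin.image _),
      Set.ncard_image_of_injective _ OnePoint.coe_injective]
    rintro ⟨x, -, hx⟩
    exact OnePoint.coe_ne_infty x hx
  have hEq : S = MulAction.orbit K (∞ : OnePoint F) :=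
    Set.eq_of_subset_of_ncard_le hSO (by rw [hN, hScard]) hfinO
  intro g hg h10
  have hmem : (⟨g, hg⟩ : K) • (∞ : OnePoint F) ∈ MulAction.orbit K (∞ : OnePoint F) :=
    MulAction.mem_orbit _ _
  rw [← hEq, smul_def'] at hmem
  change g • (∞ : OnePoint F) ∈ S at hmem
  rw [smul_infty_of_ne h10] at hmem
  rcases hmem with h | ⟨x, hx, hxe⟩
  · exact absurd h (OnePoint.coe_ne_infty _)
  · have : x = g 0 0 / g 1 0 := OnePoint.coe_injective hxe
    rw [← this]; exact hx

end Mat5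


end Fermat.Agent.TW.Dickson.CountInst40
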