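import Mathlib

/-!
# Dickson–Borel brick: basic elements of `SL(2, F)`

`upper x = [[1,x],[0,1]]`, `lower y = [[1,0],[y,1]]`, `mono b = [[0,b],[-b⁻¹,0]]`,
`diag t = [[t,0],[0,t⁻¹]]` and their elementary algebra.  Mathlib only.
-/

namespace Fermat.Agent.TW.Dickson.Defs81

open Matrix

variable {F : Type*} [Field F]

/-- The upper unipotent matrix `[[1,x],[0,1]]`. -/
def upper (x : F) : SpecialLinearGroup (Fin 2) F :=
  ⟨!![1, x; 0, 1], by simp [det_fin_two]⟩

/-- The lower unipotent matrix `[[1,0],[y,1]]`. -/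
def lower (y : F) : SpecialLinearGroup (Fin 2) F :=
  ⟨!![1, 0; y, 1], by simp [det_fin_two]⟩

/-- The monomial matrix `[[0,b],[-b⁻¹,0]]` (`b ≠ 0`). -/
def mono (b : F) (hb : b ≠ 0) : SpecialLinearGroup (Fin 2) F :=
  ⟨!![0, b; -b⁻¹, 0], by simp [det_fin_two, hb]⟩

/-- The diagonal matrix `[[t,0],[0,t⁻¹]]` (`t ≠ 0`). -/
def diag (t : F) (ht : t ≠ 0) : SpecialLinearGroup (Fin 2) F :=
  ⟨!![t, 0; 0, t⁻¹], by simp [det_fin_two, ht]⟩

@[simp] theorem upper_00 (x : F) : upper x 0 0 = 1 := rfl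
@[simp] theorem upper_01 (x : F) : upper x 0 1 = x := rfl
@[simp] theorem upper_10 (x : F) : upper x 1 0 = 0 := rfl
@[simp] theorem upper_11 (x : F) : upper x 1 1 = 1 := rfl
@[simp] theorem lower_00 (x : F) : lower x 0 0 = 1 := rfl
@[simp] theorem lower_01 (x : F) : lower x 0 1 = 0 := rfl
@[simp] theorem lower_10 (x : F) : lower x 1 0 = x := rfl
@[simp] theorem lower_11 (x : F) : lower x 1 1 = 1 := rfl
@[simp] theorem mono_00 (b : F) (hb : b ≠ 0) : mono b hb 0 0 = 0 := rfl
@[simp] theorem mono_01 (b : F) (hb : b ≠ 0) : mono b hb 0 1 = b := rfl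
@[simp] theorem mono_10 (b : F) (hb : b ≠ 0) : mono b hb 1 0 = -b⁻¹ := rfl
@[simp] theorem mono_11 (b : F) (hb : b ≠ 0) : mono b hb 1 1 = 0 := rfl
@[simp] theorem diag_00 (b : F) (hb : b ≠ 0) : diag b hb 0 0 = b := rfl
@[simp] theorem diag_01 (b : F) (hb : b ≠ 0) : diag b hb 0 1 = 0 := rfl
@[simp] theorem diag_10 (b : F) (hb : b ≠ 0) : diag b hb 1 0 = 0 := rfl
@[simp] theorem diag_11 (b : F) (hb : b ≠ 0) : diag b hb 1 1 = b⁻¹ := rfl

/-- Extensionality for `SL(2,F)` by the four entries. -/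
theorem ext4 {g h : SpecialLinearGroup (Fin 2) F} (h00 : g 0 0 = h 0 0) (h01 : g 0 1 = h 0 1)
    (h10 : g 1 0 = h 1 0) (h11 : g 1 1 = h 1 1) : g = h := by
  ext i j
  fin_cases i <;> fin_cases j <;> assumption

/-- The determinant relation in terms of entries. -/
theorem det_entries (g : SpecialLinearGroup (Fin 2) F) :
    g 0 0 * g 1 1 - g 0 1 * g 1 0 = 1 := by
  have := g.det_coe
  rwa [det_fin_two] at this

theorem mul_00 (g h : SpecialLinearGroup (Fin 2) F) :
    (g * h) 0 0 = g 0 0 * h 0 0 + g 0 1 * h 1 0 := by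
  simp [mul_apply, Fin.sum_univ_two]
theorem mul_01 (g h : SpecialLinearGroup (Fin 2) F) :
    (g * h) 0 1 = g 0 0 * h 0 1 + g 0 1 * h 1 1 := by
  simp [mul_apply, Fin.sum_univ_two]
theorem mul_10 (g h : SpecialLinearGroup (Fin 2) F) :
    (g * h) 1 0 = g 1 0 * h 0 0 + g 1 1 * h 1 0 := by
  simp [mul_apply, Fin.sum_univ_two]
theorem mul_11 (g h : SpecialLinearGroup (Fin 2) F) :
    (g * h) 1 1 = g 1 0 * h 0 1 + g 1 1 * h 1 1 := by
  simp [mul_apply, Fin.sum_univ_two]

theorem inv_00 (g : SpecialLinearGroup (Fin 2) F) : g⁻¹ 0 0 = g 1 1 := by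
  simp [adjugate_fin_two]
theorem inv_01 (g : SpecialLinearGroup (Fin 2) F) : g⁻¹ 0 1 = - g 0 1 := by
  simp [adjugate_fin_two]
theorem inv_10 (g : SpecialLinearGroup (Fin 2) F) : g⁻¹ 1 0 = - g 1 0 := by
  simp [adjugate_fin_two]
theorem inv_11 (g : SpecialLinearGroup (Fin 2) F) : g⁻¹ 1 1 = g 0 0 := by
  simp [adjugate_fin_two]

@[simp] theorem one_00 : (1 : SpecialLinearGroup (Fin 2) F) 0 0 = 1 := by simp
@[simp] theorem one_01 : (1 : SpecialLinearGroup (Fin 2) F) 0 1 = 0 := by simp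
@[simp] theorem one_10 : (1 : SpecialLinearGroup (Fin 2) F) 1 0 = 0 := by simp
@[simp] theorem one_11 : (1 : SpecialLinearGroup (Fin 2) F) 1 1 = 1 := by simp

theorem neg_00 (g : SpecialLinearGroup (Fin 2) F) : (-g) 0 0 = - g 0 0 := by simp
theorem neg_01 (g : SpecialLinearGroup (Fin 2) F) : (-g) 0 1 = - g 0 1 := by simp
theorem neg_10 (g : SpecialLinearGroup (Fin 2) F) : (-g) 1 0 = - g 1 0 := by simp
theorem neg_11 (g : SpecialLinearGroup (Fin 2) F) : (-g) 1 1 = - g 1 1 := by simp

theorem upper_zero : upper (0 : F) = 1 := by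
  apply ext4 <;> simp

theorem upper_add (x y : F) : upper (x + y) = upper x * upper y := by
  apply ext4 <;> simp [mul_00, mul_01, mul_10, mul_11, add_comm]

theorem upper_neg (x : F) : upper (-x) = (upper x)⁻¹ := by
  apply ext4 <;> simp [inv_00, inv_01, inv_10, inv_11]

theorem upper_sub (x y : F) : upper (x - y) = upper x * (upper y)⁻¹ := by
  rw [sub_eq_add_neg, upper_add, upper_neg]

theorem upper_injective : Function.Injective (upper : F → SpecialLinearGroup (Fin 2) F) := by
  intro x y h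
  have := congrArg (fun g : SpecialLinearGroup (Fin 2) F => g 0 1) h
  simpa using this

theorem upper_eq_one_iff {x : F} : upper x = 1 ↔ x = 0 := by
  rw [← upper_zero]; exact upper_injective.eq_iff

theorem lower_zero : lower (0 : F) = 1 := by
  apply ext4 <;> simp

theorem lower_add (x y : F) : lower (x + y) = lower x * lower y := by
  apply ext4 <;> simp [mul_00, mul_01, mul_10, mul_11]

theorem lower_neg (x : F) : lower (-x) = (lower x)⁻¹ := by
  apply ext4 <;> simp [inv_00, inv_01, inv_10, inv_11]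

theorem lower_injective : Function.Injective (lower : F → SpecialLinearGroup (Fin 2) F) := by
  intro x y h
  have := congrArg (fun g : SpecialLinearGroup (Fin 2) F => g 1 0) h
  simpa using this

/-- The upper unipotent matrices as a monoid hom from `Multiplicative F`. -/
def upperHom : Multiplicative F →* SpecialLinearGroup (Fin 2) F where
  toFun x := upper x.toAdd
  map_one' := upper_zero
  map_mul' _ _ := upper_add _ _

@[simp] theorem upperHom_apply (x : Multiplicative F) : upperHom x = upper x.toAdd := rfl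

/-- An element with `g 1 0 = 0` and `g 0 0 = 1` is `upper (g 0 1)`. -/
theorem eq_upper_of {g : SpecialLinearGroup (Fin 2) F} (h10 : g 1 0 = 0) (h00 : g 0 0 = 1) :
    g = upper (g 0 1) := by
  have hd := det_entries g
  rw [h10, h00] at hd
  apply ext4 <;> simp [h10, h00]
  linear_combination hd

/-- Conjugating `upper x` by an upper triangular `g`: `g u_x g⁻¹ = u_{a² x}`. -/
theorem conj_upper_of_upperTri {g : SpecialLinearGroup (Fin 2) F} (h10 : g 1 0 = 0) (x : F) :
    g * upper x * g⁻¹ = upper ((g 0 0) ^ 2 * x) := by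
  have hd := det_entries g
  rw [h10] at hd
  apply ext4 <;>
    simp [mul_00, mul_01, mul_10, mul_11, inv_00, inv_01, inv_10, inv_11, h10]
  · linear_combination hd
  · ring
  · linear_combination hd

/-- `mono b * upper x * mono b = - lower (-x / b^2)`, stated entrywise-free:
`mono b * upper x * (mono b)⁻¹ = lower (-x / b ^ 2)`. -/
theorem mono_conj_upper (b : F) (hb : b ≠ 0) (x : F) :
    mono b hb * upper x * (mono b hb)⁻¹ = lower (-x / b ^ 2) := by
  apply ext4 <;>
    simp [mul_00, mul_01, mul_10, mul_11, inv_00, inv_01, inv_10, inv_11, hb]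
  field_simp

/-- Conjugation by `diag t`: `diag t * upper x * (diag t)⁻¹ = upper (t^2 x)`. -/
theorem diag_conj_upper (t : F) (ht : t ≠ 0) (x : F) :
    diag t ht * upper x * (diag t ht)⁻¹ = upper (t ^ 2 * x) := by
  rw [conj_upper_of_upperTri (by simp)]; simp

/-- Conjugation by `diag t`: `diag t * lower y * (diag t)⁻¹ = lower (y / t^2)`. -/
theorem diag_conj_lower (t : F) (ht : t ≠ 0) (y : F) :
    diag t ht * lower y * (diag t ht)⁻¹ = lower (y / t ^ 2) := by
  apply ext4 <;>
    simp [mul_00, mul_01, mul_10, mul_11, inv_00, inv_01, inv_10, inv_11, ht]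
  field_simp

end Fermat.Agent.TW.Dickson.Defs81
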