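import Mathlib

/-!
# TW / Dickson : additive subgroups of a field closed under inversion (helper81)

Let `F` be a field with `2 ≠ 0` and `A` a finite nonzero additive subgroup of `F` which is closed
under `x ↦ x⁻¹`.  By Hua's identity `a - (a⁻¹ + (b⁻¹ - a)⁻¹)⁻¹ = a b a` the group `A` is closed
under `(a, b) ↦ a ^ 2 * b`; hence `E = {r | r A ⊆ A}` is a finite subfield, and `A = E a₀` for every
nonzero `a₀ ∈ A`, with `a₀ ^ 2 ∈ E`.
-/

set_option autoImplicit false

namespace Fermat.Agent.TW.Dickson.Hua81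

variable {F : Type*} [Field F]

/-- Hua's identity: closure under inversion gives closure under `(a, b) ↦ a * b * a`. -/
theorem mul_mul_mem (A : AddSubgroup F) (hinv : ∀ x ∈ A, x⁻¹ ∈ A) {a b : F} (ha : a ∈ A)
    (hb : b ∈ A) : a * b * a ∈ A := by
  by_cases ha0 : a = 0
  · rw [ha0]; simp [A.zero_mem]
  by_cases hb0 : b = 0
  · rw [hb0]; simp [A.zero_mem]
  by_cases hab : b⁻¹ = a
  · rw [← hab, inv_mul_cancel₀ hb0, one_mul]
    exact hinv b hb
  have h1 : b⁻¹ - a ∈ A := A.sub_mem (hinv b hb) ha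
  have h1' : b⁻¹ - a ≠ 0 := sub_ne_zero.mpr hab
  have h2 : a⁻¹ + (b⁻¹ - a)⁻¹ ∈ A := A.add_mem (hinv a ha) (hinv _ h1)
  have h3 : a - (a⁻¹ + (b⁻¹ - a)⁻¹)⁻¹ ∈ A := A.sub_mem ha (hinv _ h2)
  have hne : 1 - a * b ≠ 0 := by
    intro h
    apply h1'
    have : b⁻¹ - a = b⁻¹ * (1 - a * b) := by
      field_simp
    rw [this, h, mul_zero]
  have h4 : a - (a⁻¹ + (b⁻¹ - a)⁻¹)⁻¹ = a * b * a := by
    have h5 : b⁻¹ - a = b⁻¹ * (1 - a * b) := by
      field_simp
    have h6 : a⁻¹ + (b⁻¹ - a)⁻¹ = (a * (1 - a * b))⁻¹ := by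
      rw [h5]
      field_simp
      ring
    rw [h6, inv_inv]
    ring
  rwa [h4] at h3

/-- The multiplier ring of an additive subgroup. -/
def multiplierSubring (A : AddSubgroup F) : Subring F where
  carrier := {r | ∀ x ∈ A, r * x ∈ A}
  mul_mem' := fun {r s} hr hs x hx => by rw [mul_assoc]; exact hr _ (hs x hx)
  one_mem' := fun x hx => by rwa [one_mul]
  add_mem' := fun {r s} hr hs x hx => by rw [add_mul]; exact A.add_mem (hr x hx) (hs x hx)
  zero_mem' := fun x _ => by rw [zero_mul]; exact A.zero_mem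
  neg_mem' := fun {r} hr x hx => by rw [neg_mul]; exact A.neg_mem (hr x hx)

theorem mem_multiplierSubring (A : AddSubgroup F) (r : F) :
    r ∈ multiplierSubring A ↔ ∀ x ∈ A, r * x ∈ A := Iff.rfl

theorem finite_multiplierSubring (A : AddSubgroup F) (hfin : (A : Set F).Finite) {a₀ : F}
    (ha₀ : a₀ ∈ A) (ha₀0 : a₀ ≠ 0) : (multiplierSubring A : Set F).Finite := by
  have hinj : Set.InjOn (fun r : F => r * a₀) (multiplierSubring A : Set F) := by
    intro r _ s _ h
    exact mul_right_cancel₀ ha₀0 h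
  refine Set.Finite.of_finite_image (hfin.subset ?_) hinj
  rintro _ ⟨r, hr, rfl⟩
  exact hr a₀ ha₀

/-- A finite subring of a field is closed under inversion. -/
theorem inv_mem_of_finite (R : Subring F) (hfin : (R : Set F).Finite) {r : F} (hr : r ∈ R) :
    r⁻¹ ∈ R := by
  by_cases hr0 : r = 0
  · rw [hr0, inv_zero]; exact R.zero_mem
  have hnotinj : ¬ Function.Injective (fun n : ℕ => r ^ n) := by
    intro hinj
    have : (Set.range fun n : ℕ => r ^ n).Infinite := Set.infinite_range_of_injective hinj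
    refine this (hfin.subset ?_)
    rintro _ ⟨n, rfl⟩
    exact R.pow_mem hr n
  rw [Function.Injective] at hnotinj
  push Not at hnotinj
  obtain ⟨i, j, hij, hne⟩ := hnotinj
  wlog hlt : i < j generalizing i j
  · exact this j i hij.symm (Ne.symm hne) (lt_of_le_of_ne (not_lt.mp hlt) (Ne.symm hne))
  obtain ⟨d, rfl⟩ := Nat.exists_eq_add_of_lt hlt
  -- r ^ i = r ^ (i + d + 1) → r ^ (d + 1) = 1
  have h1 : r ^ (d + 1) = 1 := by
    have h2 : r ^ i * r ^ (d + 1) = r ^ i * 1 := by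
      rw [mul_one, ← pow_add, ← add_assoc]; exact hij.symm
    exact mul_left_cancel₀ (pow_ne_zero i hr0) h2
  have h3 : r⁻¹ = r ^ d := by
    have h4 : r * r ^ d = 1 := by rw [← pow_succ', h1]
    exact inv_eq_of_mul_eq_one_right h4
  rw [h3]
  exact R.pow_mem hr d

/-- **Structure of additive subgroups closed under inversion.** -/
theorem exists_subfield_smul (h2 : (2 : F) ≠ 0) (A : AddSubgroup F) (hfin : (A : Set F).Finite)
    (hinv : ∀ x ∈ A, x⁻¹ ∈ A) {a₀ : F} (ha₀ : a₀ ∈ A) (ha₀0 : a₀ ≠ 0) :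
    ∃ E : Subfield F, (E : Set F).Finite ∧ a₀ ^ 2 ∈ E ∧ ∀ x : F, x ∈ A ↔ ∃ r ∈ E, x = r * a₀ := by
  set R := multiplierSubring A with hR
  have hRfin : (R : Set F).Finite := finite_multiplierSubring A hfin ha₀ ha₀0
  let E : Subfield F :=
    { R with inv_mem' := fun r hr => inv_mem_of_finite R hRfin hr }
  have hER : ∀ r : F, r ∈ E ↔ r ∈ R := fun r => Iff.rfl
  -- squares of elements of `A` are multipliers
  have hsq : ∀ a ∈ A, a ^ 2 ∈ R := by
    intro a ha x hx
    have := mul_mul_mem A hinv ha hx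
    have e : a ^ 2 * x = a * x * a := by ring
    rw [e]; exact this
  have hprod : ∀ a ∈ A, ∀ b ∈ A, a * b ∈ R := by
    intro a ha b hb
    have h3 : (2 : F) ∈ R := by
      have : (2 : F) = 1 + 1 := by norm_num
      rw [this]; exact R.add_mem R.one_mem R.one_mem
    have h4 : (2 : F)⁻¹ ∈ R := inv_mem_of_finite R hRfin h3
    have h5 : (a + b) ^ 2 - a ^ 2 - b ^ 2 ∈ R :=
      R.sub_mem (R.sub_mem (hsq _ (A.add_mem ha hb)) (hsq a ha)) (hsq b hb)
    have e : a * b = (2 : F)⁻¹ * ((a + b) ^ 2 - a ^ 2 - b ^ 2) := by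
      field_simp
      ring
    rw [e]; exact R.mul_mem h4 h5
  refine ⟨E, hRfin, (hER _).mpr (hsq a₀ ha₀), fun x => ⟨fun hx => ?_, ?_⟩⟩
  · refine ⟨x * a₀ * (a₀⁻¹) ^ 2, (hER _).mpr (R.mul_mem (hprod x hx a₀ ha₀) (hsq _ (hinv a₀ ha₀))), ?_⟩
    field_simp
  · rintro ⟨r, hr, rfl⟩
    exact (hER r).mp hr a₀ ha₀

end Fermat.Agent.TW.Dickson.Hua81
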