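/-
Dickson–Borel brick (WP8(c) of the TW program): the ENDGAME (E) of report #562.
If the `K`-orbit of `∞` is contained in `{∞} ∪ A`, `A = {x | upper x ∈ K}` finite and non-zero,
then `A = lam⁻¹ E` for a finite subfield `E`, and `lower (lam * y) ∈ K` for all `y ∈ E`.
Pure matrix algebra on top of helper81's `Defs81` and `Hua81`.
-/
import Fermat.Agent.TW.Dickson.Defs81
import Fermat.Agent.TW.Dickson.Hua81

namespace Fermat.Agent.TW.Dickson.Endgame40

open Matrix Fermat.Agent.TW.Dickson.Defs81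

variable {F : Type*} [Field F]

local notation "G" => SpecialLinearGroup (Fin 2) F

/-- The additive group `A = {x | upper x ∈ K}`. -/
def upperSet (K : Subgroup G) : AddSubgroup F where
  carrier := {x | upper x ∈ K}
  zero_mem' := by
    show upper (0 : F) ∈ K
    rw [upper_zero]; exact K.one_mem
  add_mem' := by
    intro x y hx hy
    show upper (x + y) ∈ K
    rw [upper_add]; exact K.mul_mem hx hy
  neg_mem' := by
    intro x hx
    show upper (-x) ∈ K
    rw [upper_neg]; exact K.inv_mem hx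

theorem mem_upperSet (K : Subgroup G) (x : F) : x ∈ upperSet K ↔ upper x ∈ K := Iff.rfl

/-- `A` scaled by `β⁻¹`. -/
def scaledSet (K : Subgroup G) (β : F) : AddSubgroup F where
  carrier := {y | upper (β * y) ∈ K}
  zero_mem' := by
    show upper (β * 0) ∈ K
    rw [mul_zero, upper_zero]; exact K.one_mem
  add_mem' := by
    intro x y hx hy
    show upper (β * (x + y)) ∈ K
    rw [mul_add, upper_add]; exact K.mul_mem hx hy
  neg_mem' := by
    intro x hx
    show upper (β * (-x)) ∈ K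
    rw [mul_neg, upper_neg]; exact K.inv_mem hx

theorem mem_scaledSet (K : Subgroup G) (β y : F) : y ∈ scaledSet K β ↔ upper (β * y) ∈ K :=
  Iff.rfl

/-- Step 1: a monomial matrix in `K`. -/
theorem exists_mono_mem (K : Subgroup G) (hmove : ∃ g ∈ K, g 1 0 ≠ 0)
    (hOmega : ∀ g ∈ K, g 1 0 ≠ 0 → upper (g 0 0 / g 1 0) ∈ K) :
    ∃ (β : F) (hβ : β ≠ 0), mono β hβ ∈ K := by
  obtain ⟨g, hgK, hc⟩ := hmove
  have hd := det_entries g
  have h1 : upper (g 0 0 / g 1 0) ∈ K := hOmega g hgK hc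
  -- g₁ = upper (-a/c) * g
  set g₁ : G := upper (-(g 0 0 / g 1 0)) * g with hg₁
  have hg₁K : g₁ ∈ K := K.mul_mem (by rw [upper_neg]; exact K.inv_mem h1) hgK
  have e00 : g₁ 0 0 = 0 := by
    rw [hg₁, mul_00]; simp; field_simp; ring
  have e10 : g₁ 1 0 = g 1 0 := by rw [hg₁, mul_10]; simp
  have e11 : g₁ 1 1 = g 1 1 := by rw [hg₁, mul_11]; simp
  have hd₁ := det_entries g₁
  rw [e00, e10, zero_mul, zero_sub] at hd₁
  -- the inverse sends ∞ to -d/c
  have h2 : upper (g₁⁻¹ 0 0 / g₁⁻¹ 1 0) ∈ K := by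
    apply hOmega _ (K.inv_mem hg₁K)
    rw [inv_10, e10]; exact neg_ne_zero.mpr hc
  rw [inv_00, inv_10, e10, e11] at h2
  -- g₂ = g₁ * upper (-d/c)
  have h3 : upper (-(g 1 1 / g 1 0)) ∈ K := by
    have : -(g 1 1 / g 1 0) = g 1 1 / -(g 1 0) := by rw [div_neg]
    rw [this]; exact h2
  have hβ : (-(g 1 0)⁻¹ : F) ≠ 0 := neg_ne_zero.mpr (inv_ne_zero hc)
  refine ⟨-(g 1 0)⁻¹, hβ, ?_⟩
  have e : mono (-(g 1 0)⁻¹) hβ = g₁ * upper (-(g 1 1 / g 1 0)) := by
    apply ext4
    · rw [mul_00]; simp [e00]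
    · rw [mul_01]; simp [e00]
      have : g₁ 0 1 * g 1 0 = -1 := by linear_combination -hd₁
      field_simp
      linear_combination -this
    · rw [mul_10]; simp [e10]
    · rw [mul_11]; simp [e10, e11]; field_simp; ring
  rw [e]
  exact K.mul_mem hg₁K h3

/-- Step 2: `A` is stable under `x ↦ β² / x`. -/
theorem sq_div_mem (K : Subgroup G) (hOmega : ∀ g ∈ K, g 1 0 ≠ 0 → upper (g 0 0 / g 1 0) ∈ K)
    {β : F} (hβ : β ≠ 0) (hn : mono β hβ ∈ K) {x : F} (hx : upper x ∈ K) (hx0 : x ≠ 0) :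
    upper (β ^ 2 / x) ∈ K := by
  set h : G := mono β hβ * upper x * mono β hβ with hh
  have hK : h ∈ K := K.mul_mem (K.mul_mem hn hx) hn
  have e00 : h 0 0 = -1 := by
    rw [hh, mul_00, mul_00, mul_01]; simp; field_simp
  have e10 : h 1 0 = x / β ^ 2 := by
    rw [hh, mul_10, mul_10, mul_11]; simp; field_simp
  have h1 := hOmega h hK (by rw [e10]; exact div_ne_zero hx0 (pow_ne_zero 2 hβ))
  rw [e00, e10] at h1
  have e : β ^ 2 / x = -(-1 / (x / β ^ 2)) := by field_simp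
  rw [e, upper_neg]
  exact K.inv_mem h1

/-- **ENDGAME (E)** of report #562. -/
theorem endgame (h2 : (2 : F) ≠ 0) (K : Subgroup G) (hfin : {x : F | upper x ∈ K}.Finite)
    (hb : ∃ b : F, b ≠ 0 ∧ upper b ∈ K) (hmove : ∃ g ∈ K, g 1 0 ≠ 0)
    (hOmega : ∀ g ∈ K, g 1 0 ≠ 0 → upper (g 0 0 / g 1 0) ∈ K) :
    ∃ (lam : F) (E : Subfield F), lam ≠ 0 ∧ (E : Set F).Finite ∧
      (∀ x, upper x ∈ K ↔ lam * x ∈ E) ∧ (∀ y ∈ E, lower (lam * y) ∈ K) := by
  obtain ⟨β, hβ, hn⟩ := exists_mono_mem K hmove hOmega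
  obtain ⟨b, hb0, hbK⟩ := hb
  -- the scaled set is finite and closed under inversion
  have hfin' : ((scaledSet K β : AddSubgroup F) : Set F).Finite := by
    have hinj : Set.InjOn (fun y : F => β * y) ((scaledSet K β : AddSubgroup F) : Set F) := by
      intro y _ y' _ h
      exact mul_left_cancel₀ hβ h
    refine Set.Finite.of_finite_image (hfin.subset ?_) hinj
    rintro _ ⟨y, hy, rfl⟩
    exact hy
  have hinv : ∀ y ∈ scaledSet K β, y⁻¹ ∈ scaledSet K β := by
    intro y hy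
    by_cases hy0 : y = 0
    · rw [hy0, _root_.inv_zero]; exact (scaledSet K β).zero_mem
    rw [mem_scaledSet] at hy ⊢
    have := sq_div_mem K hOmega hβ hn hy (mul_ne_zero hβ hy0)
    have e : β ^ 2 / (β * y) = β * y⁻¹ := by field_simp
    rwa [e] at this
  have ha₀ : b / β ∈ scaledSet K β := by
    rw [mem_scaledSet]
    have : β * (b / β) = b := by field_simp
    rwa [this]
  have ha₀0 : b / β ≠ 0 := div_ne_zero hb0 hβ
  obtain ⟨E, hEfin, hsqE, hE⟩ :=
    Hua81.exists_subfield_smul h2 (scaledSet K β) hfin' hinv ha₀ ha₀0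
  set a₀ := b / β with ha₀def
  have hlam : (β * a₀)⁻¹ ≠ 0 := inv_ne_zero (mul_ne_zero hβ ha₀0)
  have key : ∀ x, upper x ∈ K ↔ (β * a₀)⁻¹ * x ∈ E := by
    intro x
    have h1 : upper x ∈ K ↔ x / β ∈ scaledSet K β := by
      rw [mem_scaledSet]
      have : β * (x / β) = x := by field_simp
      rw [this]
    rw [h1, hE]
    constructor
    · rintro ⟨r, hr, hxr⟩
      have : (β * a₀)⁻¹ * x = r := by
        have hx : x = r * a₀ * β := by
          field_simp at hxr
          linear_combination hxr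
        rw [hx]; field_simp
      rw [this]; exact hr
    · intro hr
      refine ⟨(β * a₀)⁻¹ * x, hr, ?_⟩
      field_simp
  refine ⟨(β * a₀)⁻¹, E, hlam, hEfin, key, ?_⟩
  intro y hy
  -- lower (lam y) = n * upper x * n⁻¹ with x = -β² lam y
  have hx : upper (-(β ^ 2 * ((β * a₀)⁻¹ * y))) ∈ K := by
    rw [key]
    have e : (β * a₀)⁻¹ * -(β ^ 2 * ((β * a₀)⁻¹ * y)) = -(y * (a₀ ^ 2)⁻¹) := by
      field_simp
    rw [e]
    exact E.neg_mem (E.mul_mem hy (E.inv_mem hsqE))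
  have := K.mul_mem (K.mul_mem hn hx) (K.inv_mem hn)
  rw [mono_conj_upper] at this
  have e : -(-(β ^ 2 * ((β * a₀)⁻¹ * y))) / β ^ 2 = (β * a₀)⁻¹ * y := by
    field_simp
  rwa [e] at this

end Fermat.Agent.TW.Dickson.Endgame40
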