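/-
Dickson–Borel brick (WP8(c) of the TW program): the FINAL structure theorem (T) of report #562,
`dickson_borel`, assembled from the count (`CountInst40`), the endgame (`Endgame40`) and
conjugation bookkeeping; plus the Sylow statement `not_dvd_index_Uk`, the exceptional case
`exceptional` (`p = 3 = q`), and the corollaries `mono_mem`, `diag_mem`, `neg_one_mem`.
-/
import Fermat.Agent.TW.Dickson.CountInst40
import Fermat.Agent.TW.Dickson.Endgame40

namespace Fermat.Agent.TW.Dickson.Final40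

open Matrix OnePoint Fermat.Agent.TW.Dickson.Defs81 Fermat.Agent.TW.Dickson.Mobius81
open Fermat.Agent.TW.Dickson.CountInst40 Fermat.Agent.TW.Dickson.Endgame40

section Conj

variable {F : Type*} [Field F]

local notation "G" => SpecialLinearGroup (Fin 2) F

/-- The conjugate subgroup `gam⁻¹ K gam`. -/
def conjK (gam : SpecialLinearGroup (Fin 2) F) (K : Subgroup (SpecialLinearGroup (Fin 2) F)) :
    Subgroup (SpecialLinearGroup (Fin 2) F) :=
  K.comap (MulAut.conj gam).toMonoidHom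

theorem mem_conjK (gam : G) (K : Subgroup (SpecialLinearGroup (Fin 2) F)) (g : G) :
    g ∈ conjK gam K ↔ gam * g * gam⁻¹ ∈ K := by
  rw [conjK, Subgroup.mem_comap]
  rfl

/-- The isomorphism `gam⁻¹ K gam ≃* K`. -/
def conjEquiv (gam : SpecialLinearGroup (Fin 2) F)
    (K : Subgroup (SpecialLinearGroup (Fin 2) F)) : conjK gam K ≃* K where
  toFun k := ⟨gam * k * gam⁻¹, (mem_conjK gam K k).1 k.2⟩
  invFun k := ⟨gam⁻¹ * k * gam, by
    rw [mem_conjK]
    have : gam * (gam⁻¹ * (k : G) * gam) * gam⁻¹ = k := by group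
    rw [this]; exact k.2⟩
  left_inv k := by
    ext1
    show gam⁻¹ * (gam * (k : G) * gam⁻¹) * gam = k
    group
  right_inv k := by
    ext1
    show gam * (gam⁻¹ * (k : G) * gam) * gam⁻¹ = k
    group
  map_mul' a b := by
    ext1
    show gam * ((a : G) * (b : G)) * gam⁻¹ = gam * (a : G) * gam⁻¹ * (gam * (b : G) * gam⁻¹)
    group

theorem conjEquiv_apply (gam : G) (K : Subgroup (SpecialLinearGroup (Fin 2) F))
    (k : conjK gam K) : ((conjEquiv gam K k : K) : G) = gam * k * gam⁻¹ := rfl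

instance (gam : G) (K : Subgroup (SpecialLinearGroup (Fin 2) F)) [Finite K] :
    Finite (conjK gam K) :=
  Finite.of_equiv K (conjEquiv gam K).symm.toEquiv

end Conj

section Normalized

variable {F : Type*} [Field F] [DecidableEq F]

local notation "G" => SpecialLinearGroup (Fin 2) F

variable (K : Subgroup (SpecialLinearGroup (Fin 2) F))
variable {p : ℕ} [Fact p.Prime] [CharP F p]

omit [DecidableEq F] in
theorem finite_upperSet [Finite K] : {x : F | upper x ∈ K}.Finite := by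
  have hK : (K : Set G).Finite := Set.toFinite _
  exact hK.preimage (Set.injOn_of_injective upper_injective)

omit [DecidableEq F] in
/-- The exceptional case: if `A = {x | upper x ∈ K}` has at most `3` elements, then `p = 3` and
`A = F₃ b`. -/
theorem exceptional [Finite K] (hp : p ≠ 2) {b : F} (hb0 : b ≠ 0) (hbK : upper b ∈ K)
    (hq3 : ¬ 3 < Set.ncard {x : F | upper x ∈ K}) :
    p = 3 ∧ Nat.card (⊥ : Subfield F) = 3 ∧ ∀ x, upper x ∈ K ↔ b⁻¹ * x ∈ (⊥ : Subfield F) := by
  have hAfin := finite_upperSet K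
  set A : Set F := {x : F | upper x ∈ K} with hA
  have hcard := Subfield.card_bot F p
  have hEfin : ((⊥ : Subfield F) : Set F).Finite := by
    have : Finite (⊥ : Subfield F) := Nat.finite_of_card_ne_zero (by
      rw [hcard]; exact (Fact.out : p.Prime).ne_zero)
    exact Set.toFinite _
  set S : Set F := (fun n => n * b) '' ((⊥ : Subfield F) : Set F) with hS
  have hSA : S ⊆ A := by
    rintro _ ⟨n, hn, rfl⟩
    obtain ⟨m, rfl⟩ := (mem_bot_iff_intCast p F).1 hn
    have h1 : m • b ∈ upperSet K := (upperSet K).zsmul_mem hbK m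
    rw [zsmul_eq_mul] at h1
    exact h1
  have hScard : S.ncard = p := by
    rw [hS, Set.ncard_image_of_injective _ (mul_left_injective₀ hb0), ← hcard]
    exact (Nat.card_coe_set_eq ((⊥ : Subfield F) : Set F)).symm
  have hle : S.ncard ≤ A.ncard := Set.ncard_le_ncard hSA hAfin
  have hp3 : 3 ≤ p := by
    have h2 := (Fact.out : p.Prime).two_le
    omega
  have hp3' : p = 3 := by omega
  have hSA' : S = A := Set.eq_of_subset_of_ncard_le hSA (by omega) hAfin
  refine ⟨hp3', by rw [hcard, hp3'], fun x => ?_⟩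
  have h1 : upper x ∈ K ↔ x ∈ S := by rw [hSA']; rfl
  rw [h1, hS]
  constructor
  · rintro ⟨n, hn, rfl⟩
    have : b⁻¹ * (n * b) = n := by field_simp
    rw [this]; exact hn
  · intro h
    exact ⟨b⁻¹ * x, h, by field_simp⟩

/-- The structure theorem in normalised position. -/
theorem normalized [Finite K] (hp : p ≠ 2) (hsq : ∀ g ∈ K, IsSquare (tr g ^ 2 - 4))
    (hb : ∃ b : F, b ≠ 0 ∧ upper b ∈ K)
    (h0 : ∃ g ∈ K, g • (∞ : OnePoint F) = ((0 : F) : OnePoint F)) :
    ∃ (lam : F) (E : Subfield F), lam ≠ 0 ∧ (E : Set F).Finite ∧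
      (∀ x, upper x ∈ K ↔ lam * x ∈ E) ∧
      ((p = 3 ∧ Nat.card E = 3) ∨ ∀ y ∈ E, lower (lam * y) ∈ K) := by
  have h2 : (2 : F) ≠ 0 := two_ne_zero_of_char p hp
  by_cases hq3 : 3 < Set.ncard {x : F | upper x ∈ K}
  · have hOmega := upper_mem_of_orbit K hp hsq hb hq3 h0
    have hmove : ∃ g ∈ K, g 1 0 ≠ 0 := by
      obtain ⟨g, hg, hg0⟩ := h0
      refine ⟨g, hg, fun h => ?_⟩
      rw [(smul_infty_eq_infty_iff g).2 h] at hg0
      exact OnePoint.infty_ne_coe _ hg0
    obtain ⟨lam, E, hlam, hEfin, hE, hlow⟩ :=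
      endgame h2 K (finite_upperSet K) hb hmove hOmega
    exact ⟨lam, E, hlam, hEfin, hE, Or.inr hlow⟩
  · obtain ⟨b, hb0, hbK⟩ := hb
    obtain ⟨h3, hc, hE⟩ := exceptional K hp hb0 hbK hq3
    have hEfin : ((⊥ : Subfield F) : Set F).Finite := by
      have : Finite (⊥ : Subfield F) := Nat.finite_of_card_ne_zero (by rw [hc]; norm_num)
      exact Set.toFinite _
    exact ⟨b⁻¹, ⊥, inv_ne_zero hb0, hEfin, hE, Or.inl ⟨h3, hc⟩⟩

/-- The structure theorem in normalised position, with the orbit statement `K ∞ = P¹(E)` in the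
non-exceptional case. -/
theorem normalized' [Finite K] (hp : p ≠ 2) (hsq : ∀ g ∈ K, IsSquare (tr g ^ 2 - 4))
    (hb : ∃ b : F, b ≠ 0 ∧ upper b ∈ K)
    (h0 : ∃ g ∈ K, g • (∞ : OnePoint F) = ((0 : F) : OnePoint F)) :
    ∃ (lam : F) (E : Subfield F), lam ≠ 0 ∧ (E : Set F).Finite ∧
      (∀ x, upper x ∈ K ↔ lam * x ∈ E) ∧
      ((p = 3 ∧ Nat.card E = 3) ∨
        ((∀ y ∈ E, lower (lam * y) ∈ K) ∧
          ∀ g ∈ K, g 1 0 ≠ 0 → upper (g 0 0 / g 1 0) ∈ K)) := by
  have h2 : (2 : F) ≠ 0 := two_ne_zero_of_char p hp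
  by_cases hq3 : 3 < Set.ncard {x : F | upper x ∈ K}
  · have hOmega := upper_mem_of_orbit K hp hsq hb hq3 h0
    have hmove : ∃ g ∈ K, g 1 0 ≠ 0 := by
      obtain ⟨g, hg, hg0⟩ := h0
      refine ⟨g, hg, fun h => ?_⟩
      rw [(smul_infty_eq_infty_iff g).2 h] at hg0
      exact OnePoint.infty_ne_coe _ hg0
    obtain ⟨lam, E, hlam, hEfin, hE, hlow⟩ :=
      endgame h2 K (finite_upperSet K) hb hmove hOmega
    exact ⟨lam, E, hlam, hEfin, hE, Or.inr ⟨hlow, hOmega⟩⟩
  · obtain ⟨b, hb0, hbK⟩ := hb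
    obtain ⟨h3, hc, hE⟩ := exceptional K hp hb0 hbK hq3
    have hEfin : ((⊥ : Subfield F) : Set F).Finite := by
      have : Finite (⊥ : Subfield F) := Nat.finite_of_card_ne_zero (by rw [hc]; norm_num)
      exact Set.toFinite _
    exact ⟨b⁻¹, ⊥, inv_ne_zero hb0, hEfin, hE, Or.inl ⟨h3, hc⟩⟩

end Normalized

section Sylow

variable {F : Type*} [Field F] [DecidableEq F]

local notation "G" => SpecialLinearGroup (Fin 2) F

variable (K : Subgroup (SpecialLinearGroup (Fin 2) F))
variable {p : ℕ} [Fact p.Prime] [CharP F p]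

omit [DecidableEq F] in
theorem pow_upperTri {g : G} (h10 : g 1 0 = 0) (n : ℕ) :
    (g ^ n) 1 0 = 0 ∧ (g ^ n) 0 0 = g 0 0 ^ n := by
  induction n with
  | zero => simp
  | succ n ih =>
    rw [pow_succ, mul_10, mul_00, ih.1, ih.2, h10]
    constructor
    · ring
    · ring

omit [DecidableEq F] in
theorem eq_one_of_pow_char_pow {x : F} {n : ℕ} (h : x ^ p ^ n = 1) : x = 1 := by
  have h1 : (x - 1) ^ p ^ n = 0 := by
    rw [sub_pow_char_pow, h, one_pow, sub_self]
  exact sub_eq_zero.1 (pow_eq_zero_iff (pow_ne_zero n (Fact.out : p.Prime).ne_zero) |>.1 h1)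

omit [DecidableEq F] [Fact (Nat.Prime p)] in
theorem isPGroup_Uk : IsPGroup p (Uk K) := by
  intro u
  refine ⟨1, ?_⟩
  obtain ⟨x, hx⟩ := (mem_Uk_iff K u.1).1 u.2
  ext1; ext1
  simp only [pow_one, Subgroup.coe_pow, Subgroup.coe_one]
  rw [hx]
  exact upper_pow_char p x

/-- `K ∩ upper` is a Sylow `p`-subgroup of `K`: its index is prime to `p`. -/
theorem not_dvd_index_Uk [Finite K] (hb : ∃ b : F, b ≠ 0 ∧ upper b ∈ K) :
    ¬ p ∣ (Uk K).index := by
  obtain ⟨S, hS⟩ := (isPGroup_Uk (p := p) K).exists_le_sylow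
  have hSU : (S : Subgroup K) ≤ Uk K := by
    -- `S` fixes a point of the orbit of `∞`
    obtain ⟨m, hm⟩ := natCard_orbit_eq (Uk K) (∞ : OnePoint F) (hU_field K)
    have hnd : ¬ p ∣ Nat.card (MulAction.orbit K (∞ : OnePoint F)) := by
      rw [hm]
      intro h
      have h2 : p ∣ m * Nat.card (Uk K) := Dvd.dvd.mul_left (card_Uk_dvd K hb) m
      have h3 : p ∣ 1 := (Nat.dvd_add_left h2).1 h
      exact (Fact.out : p.Prime).one_lt.ne' (Nat.dvd_one.1 h3)
    obtain ⟨⟨y, hy⟩, hfix⟩ := S.isPGroup'.nonempty_fixed_point_of_prime_not_dvd_card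
      (MulAction.orbit K (∞ : OnePoint F)) hnd
    have hfix' : ∀ s : K, s ∈ (S : Subgroup K) → s • y = y := by
      intro s hs
      have := hfix ⟨s, hs⟩
      exact congrArg Subtype.val this
    -- the fixed point is `∞`
    obtain ⟨b, hb0, hbK⟩ := hb
    have hu : (⟨upper b, hbK⟩ : K) ∈ Uk K := (mem_Uk_iff K _).2 ⟨b, rfl⟩
    have hu1 : (⟨upper b, hbK⟩ : K) ≠ 1 := by
      intro h
      have := congrArg (fun v : K => (v : G)) h
      simp only [Subgroup.coe_one] at this
      exact hb0 (upper_eq_one_iff.1 this)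
    have hyinf : y = ∞ := (hU_field K _ hu hu1 y).1 (hfix' _ (hS hu))
    intro s hs
    have h10 : (s : G) 1 0 = 0 := by
      rw [← smul_infty_eq_infty_iff]
      have := hfix' s hs
      rw [hyinf] at this
      exact this
    obtain ⟨n, hn⟩ := (S.isPGroup' ⟨s, hs⟩)
    have hn' : (s : G) ^ p ^ n = 1 := by
      have := congrArg (fun v : (S : Subgroup K) => ((v : K) : G)) hn
      simpa using this
    have h00 : (s : G) 0 0 = 1 := by
      have h1 := (pow_upperTri h10 (p ^ n)).2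
      rw [hn'] at h1
      simp only [one_00] at h1
      exact eq_one_of_pow_char_pow (p := p) h1.symm
    exact (mem_Uk_iff K s).2 ⟨_, eq_upper_of h10 h00⟩
  have hEq : (S : Subgroup K) = Uk K := le_antisymm hSU hS
  rw [← hEq]
  exact S.not_dvd_index

end Sylow

section Final

variable {F : Type*} [Field F] [DecidableEq F]

local notation "G" => SpecialLinearGroup (Fin 2) F

variable (K : Subgroup (SpecialLinearGroup (Fin 2) F))
variable {p : ℕ} [Fact p.Prime] [CharP F p]

omit [DecidableEq F] [Fact p.Prime] [CharP F p] in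
theorem neg_one_ne_one (h2 : (2 : F) ≠ 0) : (-1 : G) ≠ 1 := by
  intro h
  have := congrArg (fun g : G => g 0 0) h
  simp only [neg_00, one_00] at this
  apply h2
  linear_combination -this

/-- **Dickson–Borel structure theorem** (statement (T) of report #562).
`K` a finite subgroup of `SL(2,F)`, `char F = p` odd, every element of `K` has its eigenvalues in
`F`, `K` fixes no point of `P¹(F)`, and `p ∣ #K`.  Then after a change of basis `gam`, the upper
unipotent elements of `K` are `upper x`, `x ∈ lam⁻¹ E`, for a finite subfield `E` of `F`; they form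
a subgroup of index prime to `p`; and either `p = 3 = #E`, or `K` contains the lower unipotent
elements `lower (lam y)`, `y ∈ E` (so `K ⊇` a conjugate of `SL(2,E)`). -/
theorem dickson_borel [Finite K] (hp : p ≠ 2) (hsq : ∀ g ∈ K, IsSquare (tr g ^ 2 - 4))
    (hirr : ∀ x : OnePoint F, ∃ g ∈ K, g • x ≠ x)
    (hpK : ∃ g ∈ K, g ≠ 1 ∧ g ^ p = 1) :
    ∃ (gam : G) (lam : F) (E : Subfield F), lam ≠ 0 ∧ (E : Set F).Finite ∧
      (∀ x, gam * upper x * gam⁻¹ ∈ K ↔ lam * x ∈ E) ∧
      ((p = 3 ∧ Nat.card E = 3) ∨ ∀ y ∈ E, gam * lower (lam * y) * gam⁻¹ ∈ K) ∧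
      (∀ S : Subgroup K, (∀ k : K, k ∈ S ↔ ∃ x, (k : G) = gam * upper x * gam⁻¹) →
        ¬ p ∣ S.index) := by
  have h2 : (2 : F) ≠ 0 := two_ne_zero_of_char p hp
  obtain ⟨g₀, hg₀K, hg₀1, hg₀p⟩ := hpK
  have htr : tr g₀ = 2 := tr_eq_two_of_pow_char p hg₀p
  have hg₀n : g₀ ≠ -1 := by
    rintro rfl
    have hodd : Odd p := (Fact.out : p.Prime).odd_of_ne_two hp
    rw [hodd.neg_one_pow] at hg₀p
    exact neg_one_ne_one h2 hg₀p
  obtain ⟨x₀, hx₀⟩ := exists_unique_fixed_of_para h2 hg₀1 hg₀n (by rw [htr]; norm_num)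
  obtain ⟨k₁, hk₁K, hk₁⟩ := hirr x₀
  obtain ⟨h, hh⟩ := exists_smul_eq_infty x₀
  have hne : h • k₁ • x₀ ≠ ∞ := by
    rw [← hh]
    exact fun e => hk₁ (MulAction.injective h e)
  obtain ⟨y₀, hy₀⟩ := OnePoint.ne_infty_iff_exists.1 hne
  set gam : G := h⁻¹ * upper y₀ with hgam
  have hgam_inf : gam • (∞ : OnePoint F) = x₀ := by
    rw [hgam, mul_smul, upper_smul_infty, ← hh, inv_smul_smul]
  have hgam_zero : gam • (((0 : F) : OnePoint F)) = k₁ • x₀ := by
    rw [hgam, mul_smul, upper_smul_coe, zero_add, hy₀, inv_smul_smul]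
  -- the normalised group
  set K' := conjK gam K with hK'
  have hsq' : ∀ g ∈ K', IsSquare (tr g ^ 2 - 4) := by
    intro g hg
    have := hsq _ ((mem_conjK gam K g).1 hg)
    rwa [tr_conj] at this
  have hconj : ∀ k ∈ K, gam⁻¹ * k * gam ∈ K' := by
    intro k hk
    rw [hK', mem_conjK]
    have : gam * (gam⁻¹ * k * gam) * gam⁻¹ = k := by group
    rwa [this]
  have hb' : ∃ b : F, b ≠ 0 ∧ upper b ∈ K' := by
    set g₀' : G := gam⁻¹ * g₀ * gam with hg₀'
    have hg₀'K : g₀' ∈ K' := hconj g₀ hg₀K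
    have hfix : g₀' • (∞ : OnePoint F) = ∞ := by
      rw [hg₀', mul_smul, mul_smul, hgam_inf, (hx₀ x₀).2 rfl, ← hgam_inf, inv_smul_smul]
    have h10 : g₀' 1 0 = 0 := (smul_infty_eq_infty_iff g₀').1 hfix
    have htr' : tr g₀' = 2 := by
      have : g₀' = gam⁻¹ * g₀ * (gam⁻¹)⁻¹ := by rw [inv_inv]
      rw [this, tr_conj, htr]
    rcases tri_para h10 (by rw [htr']; norm_num) with e | e
    · refine ⟨g₀' 0 1, ?_, by rw [← e]; exact hg₀'K⟩
      intro h0
      rw [h0, upper_zero] at e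
      apply hg₀1
      have : g₀ = gam * g₀' * gam⁻¹ := by rw [hg₀']; group
      rw [this, e]; group
    · exfalso
      have := congrArg tr e
      rw [htr', tr_neg, tr_upper] at this
      apply h2
      have h4 : (2 : F) * 2 = 0 := by linear_combination this
      exact mul_self_eq_zero.1 h4
  have h0' : ∃ g ∈ K', g • (∞ : OnePoint F) = ((0 : F) : OnePoint F) := by
    refine ⟨gam⁻¹ * k₁ * gam, hconj k₁ hk₁K, ?_⟩
    rw [mul_smul, mul_smul, hgam_inf, ← hgam_zero, inv_smul_smul]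
  obtain ⟨lam, E, hlam, hEfin, hE, hcase⟩ := normalized K' hp hsq' hb' h0'
  refine ⟨gam, lam, E, hlam, hEfin, ?_, ?_, ?_⟩
  · intro x
    rw [← hE x, hK', mem_conjK]
  · rcases hcase with h3 | hlow
    · exact Or.inl h3
    · refine Or.inr fun y hy => ?_
      have := hlow y hy
      rwa [hK', mem_conjK] at this
  · intro S hS
    have hidx := not_dvd_index_Uk (p := p) K' hb'
    have hSeq : S = (Uk K').map (conjEquiv gam K).toMonoidHom := by
      ext k
      rw [hS k, Subgroup.mem_map]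
      constructor
      · rintro ⟨x, hx⟩
        have hxK' : upper x ∈ K' := by
          rw [hK', mem_conjK, ← hx]; exact k.2
        refine ⟨⟨upper x, hxK'⟩, (mem_Uk_iff K' _).2 ⟨x, rfl⟩, ?_⟩
        ext1
        rw [hx]
        rfl
      · rintro ⟨k', hk', rfl⟩
        obtain ⟨x, hx⟩ := (mem_Uk_iff K' k').1 hk'
        refine ⟨x, ?_⟩
        show gam * (k' : G) * gam⁻¹ = _
        rw [hx]
    rw [hSeq]
    have := Subgroup.index_map_equiv (Uk K') (conjEquiv gam K)
    rw [show ((conjEquiv gam K : conjK gam K ≃* K) : conjK gam K →* K) =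
      (conjEquiv gam K).toMonoidHom from rfl] at this
    rw [this]
    exact hidx

/-- **Dickson–Borel structure theorem**, strengthened form: in the non-exceptional case also
`K' ∞ = P¹(E)`, i.e. `lam * (g 0 0 / g 1 0) ∈ E` for all `g ∈ K' = gam⁻¹ K gam` with `g 1 0 ≠ 0`.
Original docstring: (statement (T) of report #562).
`K` a finite subgroup of `SL(2,F)`, `char F = p` odd, every element of `K` has its eigenvalues in
`F`, `K` fixes no point of `P¹(F)`, and `p ∣ #K`.  Then after a change of basis `gam`, the upper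
unipotent elements of `K` are `upper x`, `x ∈ lam⁻¹ E`, for a finite subfield `E` of `F`; they form
a subgroup of index prime to `p`; and either `p = 3 = #E`, or `K` contains the lower unipotent
elements `lower (lam y)`, `y ∈ E` (so `K ⊇` a conjugate of `SL(2,E)`). -/
theorem dickson_borel' [Finite K] (hp : p ≠ 2) (hsq : ∀ g ∈ K, IsSquare (tr g ^ 2 - 4))
    (hirr : ∀ x : OnePoint F, ∃ g ∈ K, g • x ≠ x)
    (hpK : ∃ g ∈ K, g ≠ 1 ∧ g ^ p = 1) :
    ∃ (gam : G) (lam : F) (E : Subfield F), lam ≠ 0 ∧ (E : Set F).Finite ∧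
      (∀ x, gam * upper x * gam⁻¹ ∈ K ↔ lam * x ∈ E) ∧
      ((p = 3 ∧ Nat.card E = 3) ∨
        ((∀ y ∈ E, gam * lower (lam * y) * gam⁻¹ ∈ K) ∧
          ∀ g : G, gam * g * gam⁻¹ ∈ K → g 1 0 ≠ 0 → lam * (g 0 0 / g 1 0) ∈ E)) ∧
      (∀ S : Subgroup K, (∀ k : K, k ∈ S ↔ ∃ x, (k : G) = gam * upper x * gam⁻¹) →
        ¬ p ∣ S.index) := by
  have h2 : (2 : F) ≠ 0 := two_ne_zero_of_char p hp
  obtain ⟨g₀, hg₀K, hg₀1, hg₀p⟩ := hpK
  have htr : tr g₀ = 2 := tr_eq_two_of_pow_char p hg₀p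
  have hg₀n : g₀ ≠ -1 := by
    rintro rfl
    have hodd : Odd p := (Fact.out : p.Prime).odd_of_ne_two hp
    rw [hodd.neg_one_pow] at hg₀p
    exact neg_one_ne_one h2 hg₀p
  obtain ⟨x₀, hx₀⟩ := exists_unique_fixed_of_para h2 hg₀1 hg₀n (by rw [htr]; norm_num)
  obtain ⟨k₁, hk₁K, hk₁⟩ := hirr x₀
  obtain ⟨h, hh⟩ := exists_smul_eq_infty x₀
  have hne : h • k₁ • x₀ ≠ ∞ := by
    rw [← hh]
    exact fun e => hk₁ (MulAction.injective h e)
  obtain ⟨y₀, hy₀⟩ := OnePoint.ne_infty_iff_exists.1 hne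
  set gam : G := h⁻¹ * upper y₀ with hgam
  have hgam_inf : gam • (∞ : OnePoint F) = x₀ := by
    rw [hgam, mul_smul, upper_smul_infty, ← hh, inv_smul_smul]
  have hgam_zero : gam • (((0 : F) : OnePoint F)) = k₁ • x₀ := by
    rw [hgam, mul_smul, upper_smul_coe, zero_add, hy₀, inv_smul_smul]
  -- the normalised group
  set K' := conjK gam K with hK'
  have hsq' : ∀ g ∈ K', IsSquare (tr g ^ 2 - 4) := by
    intro g hg
    have := hsq _ ((mem_conjK gam K g).1 hg)
    rwa [tr_conj] at this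
  have hconj : ∀ k ∈ K, gam⁻¹ * k * gam ∈ K' := by
    intro k hk
    rw [hK', mem_conjK]
    have : gam * (gam⁻¹ * k * gam) * gam⁻¹ = k := by group
    rwa [this]
  have hb' : ∃ b : F, b ≠ 0 ∧ upper b ∈ K' := by
    set g₀' : G := gam⁻¹ * g₀ * gam with hg₀'
    have hg₀'K : g₀' ∈ K' := hconj g₀ hg₀K
    have hfix : g₀' • (∞ : OnePoint F) = ∞ := by
      rw [hg₀', mul_smul, mul_smul, hgam_inf, (hx₀ x₀).2 rfl, ← hgam_inf, inv_smul_smul]
    have h10 : g₀' 1 0 = 0 := (smul_infty_eq_infty_iff g₀').1 hfix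
    have htr' : tr g₀' = 2 := by
      have : g₀' = gam⁻¹ * g₀ * (gam⁻¹)⁻¹ := by rw [inv_inv]
      rw [this, tr_conj, htr]
    rcases tri_para h10 (by rw [htr']; norm_num) with e | e
    · refine ⟨g₀' 0 1, ?_, by rw [← e]; exact hg₀'K⟩
      intro h0
      rw [h0, upper_zero] at e
      apply hg₀1
      have : g₀ = gam * g₀' * gam⁻¹ := by rw [hg₀']; group
      rw [this, e]; group
    · exfalso
      have := congrArg tr e
      rw [htr', tr_neg, tr_upper] at this
      apply h2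
      have h4 : (2 : F) * 2 = 0 := by linear_combination this
      exact mul_self_eq_zero.1 h4
  have h0' : ∃ g ∈ K', g • (∞ : OnePoint F) = ((0 : F) : OnePoint F) := by
    refine ⟨gam⁻¹ * k₁ * gam, hconj k₁ hk₁K, ?_⟩
    rw [mul_smul, mul_smul, hgam_inf, ← hgam_zero, inv_smul_smul]
  obtain ⟨lam, E, hlam, hEfin, hE, hcase⟩ := normalized' K' hp hsq' hb' h0'
  refine ⟨gam, lam, E, hlam, hEfin, ?_, ?_, ?_⟩
  · intro x
    rw [← hE x, hK', mem_conjK]
  · rcases hcase with h3 | hlow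
    · exact Or.inl h3
    · refine Or.inr ⟨fun y hy => ?_, fun g hg h10 => ?_⟩
      · have := hlow.1 y hy
        rwa [hK', mem_conjK] at this
      · rw [← hE]
        exact hlow.2 g (by rw [hK', mem_conjK]; exact hg) h10
  · intro S hS
    have hidx := not_dvd_index_Uk (p := p) K' hb'
    have hSeq : S = (Uk K').map (conjEquiv gam K).toMonoidHom := by
      ext k
      rw [hS k, Subgroup.mem_map]
      constructor
      · rintro ⟨x, hx⟩
        have hxK' : upper x ∈ K' := by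
          rw [hK', mem_conjK, ← hx]; exact k.2
        refine ⟨⟨upper x, hxK'⟩, (mem_Uk_iff K' _).2 ⟨x, rfl⟩, ?_⟩
        ext1
        rw [hx]
        rfl
      · rintro ⟨k', hk', rfl⟩
        obtain ⟨x, hx⟩ := (mem_Uk_iff K' k').1 hk'
        refine ⟨x, ?_⟩
        show gam * (k' : G) * gam⁻¹ = _
        rw [hx]
    rw [hSeq]
    have := Subgroup.index_map_equiv (Uk K') (conjEquiv gam K)
    rw [show ((conjEquiv gam K : conjK gam K ≃* K) : conjK gam K →* K) =
      (conjEquiv gam K).toMonoidHom from rfl] at this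
    rw [this]
    exact hidx

end Final

section Corollaries

variable {F : Type*} [Field F]

local notation "G" => SpecialLinearGroup (Fin 2) F

variable (K : Subgroup (SpecialLinearGroup (Fin 2) F))

/-- `mono s = upper s * lower (-1/s) * upper s`. -/
theorem mono_eq (s : F) (hs : s ≠ 0) : mono s hs = upper s * lower (-s⁻¹) * upper s := by
  apply ext4
  · rw [mul_00, mul_00, mul_01]; simp [hs]
  · rw [mul_01, mul_00, mul_01]; simp [hs]
  · rw [mul_10, mul_10, mul_11]; simp
  · rw [mul_11, mul_10, mul_11]; simp [hs]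

theorem mono_mul_mono_inv (s s' : F) (hs : s ≠ 0) (hs' : s' ≠ 0) :
    mono s hs * (mono s' hs')⁻¹ = diag (s / s') (div_ne_zero hs hs') := by
  apply ext4
  · rw [mul_00, inv_00, inv_10]; simp; field_simp
  · rw [mul_01, inv_01, inv_11]; simp
  · rw [mul_10, inv_00, inv_10]; simp
  · rw [mul_11, inv_01, inv_11]; simp; field_simp

theorem mono_sq (s : F) (hs : s ≠ 0) : mono s hs * mono s hs = -1 := by
  apply ext4
  · rw [mul_00]; simp [hs]
  · rw [mul_01]; simp
  · rw [mul_10]; simp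
  · rw [mul_11]; simp [hs]

variable {K} {lam : F} {E : Subfield F}

/-- In the non-exceptional case `K` contains the monomial matrices `mono (t / lam)`, `t ∈ Eˣ`. -/
theorem mono_mem (hlam : lam ≠ 0) (hE : ∀ x, upper x ∈ K ↔ lam * x ∈ E)
    (hlow : ∀ y ∈ E, lower (lam * y) ∈ K) {t : F} (ht : t ∈ E) (ht0 : t ≠ 0) :
    mono (t / lam) (div_ne_zero ht0 hlam) ∈ K := by
  rw [mono_eq]
  have h1 : upper (t / lam) ∈ K := by
    rw [hE]
    have : lam * (t / lam) = t := by field_simp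
    rwa [this]
  have h2 : lower (-(t / lam)⁻¹) ∈ K := by
    have : -(t / lam)⁻¹ = lam * (-t⁻¹) := by field_simp
    rw [this]
    exact hlow _ (E.neg_mem (E.inv_mem ht))
  exact K.mul_mem (K.mul_mem h1 h2) h1

/-- In the non-exceptional case `K` contains the torus `diag t`, `t ∈ Eˣ`. -/
theorem diag_mem (hlam : lam ≠ 0) (hE : ∀ x, upper x ∈ K ↔ lam * x ∈ E)
    (hlow : ∀ y ∈ E, lower (lam * y) ∈ K) {t : F} (ht : t ∈ E) (ht0 : t ≠ 0) :
    diag t ht0 ∈ K := by
  have h1 := mono_mem hlam hE hlow ht ht0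
  have h2 := mono_mem hlam hE hlow E.one_mem one_ne_zero
  have h3 := K.mul_mem h1 (K.inv_mem h2)
  rw [mono_mul_mono_inv] at h3
  have : diag (t / lam / (1 / lam)) (div_ne_zero (div_ne_zero ht0 hlam)
      (div_ne_zero one_ne_zero hlam)) = diag t ht0 := by
    apply ext4 <;> simp <;> field_simp
  rwa [this] at h3

/-- In the non-exceptional case `-1 ∈ K`. -/
theorem neg_one_mem (hlam : lam ≠ 0) (hE : ∀ x, upper x ∈ K ↔ lam * x ∈ E)
    (hlow : ∀ y ∈ E, lower (lam * y) ∈ K) : (-1 : G) ∈ K := by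
  have h1 := mono_mem hlam hE hlow E.one_mem one_ne_zero
  rw [← mono_sq (1 / lam) (div_ne_zero one_ne_zero hlam)]
  exact K.mul_mem h1 h1

end Corollaries


end Fermat.Agent.TW.Dickson.Final40
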