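import Fermat.Agent.TW.Dickson.Reduce81
import Fermat.Agent.TW.Dickson.Endgame40

/-!
# Dickson–Borel: the structure theorem

`F` a field of odd characteristic `p`, `K ≤ SL(2,F)` a finite subgroup all of whose elements have
their eigenvalues in `F`, stabilising no line of `F²` and containing an element of order `p`.
Then, after conjugating by some `γ ∈ SL(2,F)`, the upper unipotent elements of `K` are exactly the
`upper x` with `lam * x ∈ E` for a finite subfield `E` of `F` and some `lam ≠ 0`, and either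
`p = 3` and `E = 𝔽₃`, or `K` also contains all `lower (lam * y)`, `y ∈ E`
(so a conjugate of `K` contains a `GL₂(F)`-conjugate of `SL(2,E)`).
-/

namespace Fermat.Agent.TW.Dickson.Main81

open Matrix OnePoint MulAction
open Fermat.Agent.TW.Dickson.Defs81 Fermat.Agent.TW.Dickson.Mobius81
open Fermat.Agent.TW.Dickson.Count81 Fermat.Agent.TW.Dickson.Reduce81

variable {F : Type*} [Field F]

local notation "G" => SpecialLinearGroup (Fin 2) F

/-- The prime field in characteristic `3`. -/
theorem mem_bot_char_three [CharP F 3] (y : F) :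
    y ∈ (⊥ : Subfield F) ↔ y = 0 ∨ y = 1 ∨ y = -1 := by
  have : Fact (Nat.Prime 3) := ⟨Nat.prime_three⟩
  have h2 : (2 : F) ≠ 0 := two_ne_zero_of_char 3 (by norm_num)
  have hsub : ({0, 1, -1} : Set F) ⊆ ((⊥ : Subfield F) : Set F) := by
    intro x hx
    rcases hx with rfl | rfl | rfl
    · exact (⊥ : Subfield F).zero_mem
    · exact (⊥ : Subfield F).one_mem
    · exact (⊥ : Subfield F).neg_mem (⊥ : Subfield F).one_mem
  have hne1 : (0 : F) ≠ 1 := zero_ne_one
  have hne2 : (0 : F) ≠ -1 := by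
    intro h; apply one_ne_zero (α := F); rw [← neg_neg (1 : F), ← h, neg_zero]
  have hne3 : (1 : F) ≠ -1 := by
    intro h
    apply h2
    linear_combination h
  have hcard : ({0, 1, -1} : Set F).ncard = 3 :=
    Set.ncard_eq_three.mpr ⟨0, 1, -1, hne1, hne2, hne3, rfl⟩
  have hfin : ((⊥ : Subfield F) : Set F).Finite := by
    have : Finite (⊥ : Subfield F) := (Subfield.fintypeBot F 3).finite
    exact Set.finite_coe_iff.mp this
  have hB : ((⊥ : Subfield F) : Set F).ncard = 3 := by
    rw [← Subfield.card_bot F 3, ← Nat.card_coe_set_eq]; rfl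
  have heq := Set.eq_of_subset_of_ncard_le hsub (by rw [hB, hcard]) hfin
  constructor
  · intro hy
    have : y ∈ ({0, 1, -1} : Set F) := by rw [heq]; exact hy
    exact this
  · intro hy
    have : y ∈ ((⊥ : Subfield F) : Set F) := by rw [← heq]; exact hy
    exact this

theorem finite_upper_set (K : Subgroup (SpecialLinearGroup (Fin 2) F)) [Finite K] :
    {x : F | upper x ∈ K}.Finite := by
  have : Finite (addA K) := inferInstance
  exact Set.finite_coe_iff.mp this

/-- **Dickson–Borel structure theorem**, irreducibility stated on the projective line. -/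
theorem dickson_borel_onePoint [DecidableEq F] (p : ℕ) [Fact p.Prime] [CharP F p] (hp : p ≠ 2)
    (K : Subgroup (SpecialLinearGroup (Fin 2) F)) [Finite K]
    (hsq : ∀ g ∈ K, IsSquare (tr g ^ 2 - 4)) (hirr : ∀ x : OnePoint F, ∃ g ∈ K, g • x ≠ x)
    (hpK : ∃ g ∈ K, g ≠ 1 ∧ g ^ p = 1) :
    ∃ (γ : G) (lam : F) (E : Subfield F), lam ≠ 0 ∧ (E : Set F).Finite ∧
      (∀ x, γ * upper x * γ⁻¹ ∈ K ↔ lam * x ∈ E) ∧
      ((p = 3 ∧ Nat.card E = 3) ∨ ∀ y ∈ E, γ * lower (lam * y) * γ⁻¹ ∈ K) := by
  have h2 : (2 : F) ≠ 0 := two_ne_zero_of_char p hp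
  have hodd : Odd p := (Fact.out : p.Prime).odd_of_ne_two hp
  obtain ⟨γ, K', rfl, hfinK', ⟨b, hb0, hbK'⟩, hmove, hcase⟩ := reduce p hp K hsq hirr hpK
  have transfer : ∀ u : G, u ^ p = 1 → (u ∈ conjBy γ (pm K) ↔ γ * u * γ⁻¹ ∈ K) := by
    intro u hu
    rw [mem_conjBy]
    constructor
    · intro h
      apply mem_of_mem_pm_of_pow hodd _ h
      rw [conj_pow, hu, mul_one, mul_inv_cancel]
    · intro h; exact Or.inl h
  rcases hcase with ⟨hp3, b₁, hb₁, hA⟩ | hOmega
  · -- exceptional case: `E` is the prime field `𝔽₃`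
    subst hp3
    refine ⟨γ, b₁⁻¹, ⊥, inv_ne_zero hb₁, ?_, ?_, Or.inl ⟨rfl, Subfield.card_bot F 3⟩⟩
    · have : Finite (⊥ : Subfield F) := (Subfield.fintypeBot F 3).finite
      exact Set.finite_coe_iff.mp this
    · intro x
      rw [← transfer _ (upper_pow_char 3 x), hA, mem_bot_char_three]
      constructor
      · rintro (rfl | rfl | rfl)
        · left; simp
        · right; left; exact inv_mul_cancel₀ hb₁
        · right; right; rw [mul_neg, inv_mul_cancel₀ hb₁]
      · rintro (h | h | h)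
        · left
          rcases mul_eq_zero.mp h with h' | h'
          · exact absurd h' (inv_ne_zero hb₁)
          · exact h'
        · right; left
          have : x = b₁ * (b₁⁻¹ * x) := by rw [← mul_assoc, mul_inv_cancel₀ hb₁, one_mul]
          rw [this, h, mul_one]
        · right; right
          have : x = b₁ * (b₁⁻¹ * x) := by rw [← mul_assoc, mul_inv_cancel₀ hb₁, one_mul]
          rw [this, h, mul_neg, mul_one]
  · -- main case
    obtain ⟨lam, E, hlam, hEfin, hkey, hlower⟩ :=
      Endgame40.endgame h2 (conjBy γ (pm K)) (finite_upper_set _) ⟨b, hb0, hbK'⟩ hmove hOmega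
    refine ⟨γ, lam, E, hlam, hEfin, ?_, Or.inr ?_⟩
    · intro x
      rw [← transfer _ (upper_pow_char p x), hkey]
    · intro y hy
      rw [← transfer _ (lower_pow_char p h2 _)]
      exact hlower y hy

/-- **Dickson–Borel structure theorem**, irreducibility stated as "no stable line". -/
theorem dickson_borel (p : ℕ) [Fact p.Prime] [CharP F p] (hp : p ≠ 2)
    (K : Subgroup (SpecialLinearGroup (Fin 2) F)) [Finite K]
    (hsq : ∀ g ∈ K, IsSquare ((g 0 0 + g 1 1) ^ 2 - 4))
    (hirr : ∀ v : Fin 2 → F, v ≠ 0 →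
      ∃ g ∈ K, ∀ c : F, (g : Matrix (Fin 2) (Fin 2) F) *ᵥ v ≠ c • v)
    (hpK : ∃ g ∈ K, g ≠ 1 ∧ g ^ p = 1) :
    ∃ (γ : G) (lam : F) (E : Subfield F), lam ≠ 0 ∧ (E : Set F).Finite ∧
      (∀ x, γ * upper x * γ⁻¹ ∈ K ↔ lam * x ∈ E) ∧
      ((p = 3 ∧ Nat.card E = 3) ∨ ∀ y ∈ E, γ * lower (lam * y) * γ⁻¹ ∈ K) := by
  classical
  exact dickson_borel_onePoint p hp K hsq (hirr_of_noStableLine K hirr) hpK

end Fermat.Agent.TW.Dickson.Main81
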