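import Fermat.Agent.TW.Dickson.Main81
import Fermat.Agent.TW.Dickson.Final40

/-!
# Dickson–Borel: the normal form, with all side facts for one and the same conjugation

Same hypotheses as `Main81.dickson_borel_onePoint`.  The conclusion is stated for the genuine
conjugate `K' = conjBy γ K = {g | γ g γ⁻¹ ∈ K}`:

* `upper x ∈ K' ↔ lam * x ∈ E`;
* either `p = 3 = #E`, or `lower (lam * y) ∈ K'` for `y ∈ E` **and** `K' • ∞ = {∞} ∪ lam⁻¹ E`
  (i.e. `g ∈ K'`, `g 1 0 ≠ 0` implies `lam * (g 0 0 / g 1 0) ∈ E`);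
* the upper unipotent subgroup `Uk K'` has index prime to `p` in `K'` (it is a Sylow subgroup).
-/

namespace Fermat.Agent.TW.Dickson.NormalForm81

open Matrix OnePoint MulAction
open Fermat.Agent.TW.Dickson.Defs81 Fermat.Agent.TW.Dickson.Mobius81
open Fermat.Agent.TW.Dickson.Count81 Fermat.Agent.TW.Dickson.Reduce81
open Fermat.Agent.TW.Dickson.Main81

variable {F : Type*} [Field F]

local notation "G" => SpecialLinearGroup (Fin 2) F

/-- **Normal form** of a finite irreducible subgroup of `SL(2,F)` of order divisible by `p`. -/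
theorem normal_form [DecidableEq F] (p : ℕ) [Fact p.Prime] [CharP F p] (hp : p ≠ 2)
    (K : Subgroup (SpecialLinearGroup (Fin 2) F)) [Finite K]
    (hsq : ∀ g ∈ K, IsSquare (tr g ^ 2 - 4)) (hirr : ∀ x : OnePoint F, ∃ g ∈ K, g • x ≠ x)
    (hpK : ∃ g ∈ K, g ≠ 1 ∧ g ^ p = 1) :
    ∃ (γ : G) (lam : F) (E : Subfield F), lam ≠ 0 ∧ (E : Set F).Finite ∧
      (∀ x, upper x ∈ conjBy γ K ↔ lam * x ∈ E) ∧
      ((p = 3 ∧ Nat.card E = 3) ∨
        ((∀ y ∈ E, lower (lam * y) ∈ conjBy γ K) ∧
          ∀ g ∈ conjBy γ K, g 1 0 ≠ 0 → lam * (g 0 0 / g 1 0) ∈ E)) ∧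
      ¬ p ∣ (CountInst40.Uk (conjBy γ K)).index := by
  have h2 : (2 : F) ≠ 0 := two_ne_zero_of_char p hp
  have hodd : Odd p := (Fact.out : p.Prime).odd_of_ne_two hp
  obtain ⟨γ, K', rfl, hfinK', ⟨b, hb0, hbK'⟩, hmove, hcase⟩ := reduce p hp K hsq hirr hpK
  have transfer : ∀ u : G, u ^ p = 1 → (u ∈ conjBy γ (pm K) ↔ u ∈ conjBy γ K) := by
    intro u hu
    rw [mem_conjBy, mem_conjBy]
    constructor
    · intro h
      apply mem_of_mem_pm_of_pow hodd _ h
      rw [conj_pow, hu, mul_one, mul_inv_cancel]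
    · intro h; exact Or.inl h
  have hsub : ∀ g : G, g ∈ conjBy γ K → g ∈ conjBy γ (pm K) := by
    intro g hg
    rw [mem_conjBy] at hg ⊢
    exact Or.inl hg
  have hb' : ∃ b : F, b ≠ 0 ∧ upper b ∈ conjBy γ K :=
    ⟨b, hb0, (transfer _ (upper_pow_char p b)).mp hbK'⟩
  have hidx := Final40.not_dvd_index_Uk (p := p) (conjBy γ K) hb'
  rcases hcase with ⟨hp3, b₁, hb₁, hA⟩ | hOmega
  · -- exceptional case: `E` is the prime field `𝔽₃`
    subst hp3
    refine ⟨γ, b₁⁻¹, ⊥, inv_ne_zero hb₁, ?_, ?_, Or.inl ⟨rfl, Subfield.card_bot F 3⟩, hidx⟩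
    · have : Finite (⊥ : Subfield F) := (Subfield.fintypeBot F 3).finite
      exact Set.finite_coe_iff.mp this
    · intro x
      rw [← transfer _ (upper_pow_char 3 x), hA, mem_bot_char_three]
      constructor
      · rintro (rfl | rfl | rfl)
        · left; simp
        · right; left; exact inv_mul_cancel₀ hb₁
        · right; right; rw [mul_neg, inv_mul_cancel₀ hb₁]
      · rintro (h | h | h)
        · left
          rcases mul_eq_zero.mp h with h' | h'
          · exact absurd h' (inv_ne_zero hb₁)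
          · exact h'
        · right; left
          have : x = b₁ * (b₁⁻¹ * x) := by rw [← mul_assoc, mul_inv_cancel₀ hb₁, one_mul]
          rw [this, h, mul_one]
        · right; right
          have : x = b₁ * (b₁⁻¹ * x) := by rw [← mul_assoc, mul_inv_cancel₀ hb₁, one_mul]
          rw [this, h, mul_neg, mul_one]
  · -- main case
    obtain ⟨lam, E, hlam, hEfin, hkey, hlower⟩ :=
      Endgame40.endgame h2 (conjBy γ (pm K)) (finite_upper_set _) ⟨b, hb0, hbK'⟩ hmove hOmega
    refine ⟨γ, lam, E, hlam, hEfin, ?_, Or.inr ⟨?_, ?_⟩, hidx⟩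
    · intro x
      rw [← transfer _ (upper_pow_char p x), hkey]
    · intro y hy
      rw [← transfer _ (lower_pow_char p h2 _)]
      exact hlower y hy
    · intro g hg h10
      rw [← hkey]
      exact hOmega g (hsub g hg) h10

end Fermat.Agent.TW.Dickson.NormalForm81
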