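import Fermat.Agent.TW.Dickson.Count81

/-!
# Dickson–Borel brick: the reductions (all WLOGs)

From a finite `K ≤ SL(2,F)` (char `p` odd, eigenvalues in `F`, no fixed point on the projective
line, containing an element of order `p`) we produce a conjugate `K'` of `±K` in normal form:
`K'` contains a non-trivial `upper b`, does not fix `∞`, and either `p = 3` and
`{x | upper x ∈ K'} = {0, b, -b}`, or `K' • ∞ ⊆ {∞} ∪ A`.
-/

namespace Fermat.Agent.TW.Dickson.Reduce81

open Matrix OnePoint MulAction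
open Fermat.Agent.TW.Dickson.Defs81 Fermat.Agent.TW.Dickson.Mobius81
open Fermat.Agent.TW.Dickson.Count81

variable {F : Type*} [Field F]

local notation "G" => SpecialLinearGroup (Fin 2) F

/-! ### `±K` -/

/-- The subgroup `K ⊔ {±1}`. -/
def pm (K : Subgroup (SpecialLinearGroup (Fin 2) F)) : Subgroup (SpecialLinearGroup (Fin 2) F) where
  carrier := {g | g ∈ K ∨ -g ∈ K}
  one_mem' := Or.inl K.one_mem
  mul_mem' := by
    rintro a b (ha | ha) (hb | hb)
    · exact Or.inl (K.mul_mem ha hb)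
    · right
      have := K.mul_mem ha hb
      rwa [← neg_mul_eq_mul_neg] at this
    · right
      have := K.mul_mem ha hb
      rwa [neg_mul] at this
    · left
      have := K.mul_mem ha hb
      rwa [neg_mul_neg] at this
  inv_mem' := by
    rintro a (ha | ha)
    · exact Or.inl (K.inv_mem ha)
    · right
      have := K.inv_mem ha
      rwa [inv_neg] at this

theorem mem_pm {K : Subgroup (SpecialLinearGroup (Fin 2) F)} {g : G} :
    g ∈ pm K ↔ g ∈ K ∨ -g ∈ K := Iff.rfl

theorem neg_one_mem_pm (K : Subgroup (SpecialLinearGroup (Fin 2) F)) : (-1 : G) ∈ pm K :=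
  Or.inr (by rw [neg_neg]; exact K.one_mem)

instance instFinitePm (K : Subgroup (SpecialLinearGroup (Fin 2) F)) [Finite K] :
    Finite (pm K) := by
  have h1 : (K : Set G).Finite := Set.toFinite _
  have h2 : ((fun g : G => -g) '' (K : Set G)).Finite := h1.image _
  have h3 : ((pm K : Subgroup G) : Set G) ⊆ (K : Set G) ∪ ((fun g : G => -g) '' (K : Set G)) := by
    intro g hg
    rcases hg with h | h
    · exact Or.inl h
    · exact Or.inr ⟨-g, h, neg_neg g⟩
  exact (Set.Finite.subset (h1.union h2) h3).to_subtype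

/-- An element killed by an odd number lies in `K` as soon as it lies in `±K`. -/
theorem mem_of_mem_pm_of_pow {K : Subgroup (SpecialLinearGroup (Fin 2) F)} {n : ℕ} (hn : Odd n)
    {g : G} (hg : g ^ n = 1) (h : g ∈ pm K) : g ∈ K := by
  rcases h with h | h
  · exact h
  · have h1 : (-g) ^ n ∈ K := K.pow_mem h n
    rw [hn.neg_pow, hg] at h1
    have := K.mul_mem h1 h
    rwa [neg_mul_neg, one_mul] at this

/-! ### Conjugates -/

/-- The conjugate `γ⁻¹ K γ`. -/
def conjBy (γ : G) (K : Subgroup (SpecialLinearGroup (Fin 2) F)) :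
    Subgroup (SpecialLinearGroup (Fin 2) F) :=
  K.comap (MulAut.conj γ).toMonoidHom

theorem mem_conjBy {γ g : G} {K : Subgroup (SpecialLinearGroup (Fin 2) F)} :
    g ∈ conjBy γ K ↔ γ * g * γ⁻¹ ∈ K := by
  simp [conjBy, Subgroup.mem_comap]

instance instFiniteConjBy (γ : G) (K : Subgroup (SpecialLinearGroup (Fin 2) F)) [Finite K] :
    Finite (conjBy γ K) :=
  Finite.of_injective (fun g : conjBy γ K => (⟨γ * g * γ⁻¹, mem_conjBy.mp g.2⟩ : K)) (by
    intro a b h
    have := Subtype.ext_iff.mp h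
    simp only at this
    exact Subtype.ext (mul_left_cancel (mul_right_cancel this)))

theorem conjBy_conjBy (γ δ : G) (K : Subgroup (SpecialLinearGroup (Fin 2) F)) :
    conjBy δ (conjBy γ K) = conjBy (γ * δ) K := by
  ext g
  simp only [mem_conjBy, _root_.mul_inv_rev, mul_assoc]

/-! ### Conjugation by `upper z` -/

theorem conj_upper_10 (z : F) (g : G) : (upper z * g * (upper z)⁻¹) 1 0 = g 1 0 := by
  simp [mul_10, mul_11, inv_00, inv_10]

theorem conj_upper_00 (z : F) (g : G) :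
    (upper z * g * (upper z)⁻¹) 0 0 = g 0 0 + z * g 1 0 := by
  simp [mul_00, mul_01, inv_00, inv_10]

theorem conj_upper_upper (z x : F) : upper z * upper x * (upper z)⁻¹ = upper x := by
  rw [← upper_add, ← upper_sub]; congr 1; ring

/-! ### Elements of order `p` -/

section Order

variable [DecidableEq F]

/-- An element of order `p` is conjugate to a non-trivial `upper b`. -/
theorem exists_conj_upper (p : ℕ) [Fact p.Prime] [CharP F p] (h2 : (2 : F) ≠ 0) {g₀ : G}
    (hg1 : g₀ ≠ 1) (hgp : g₀ ^ p = 1) : ∃ (γ : G) (b : F), b ≠ 0 ∧ γ * upper b * γ⁻¹ = g₀ := by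
  have ht : tr g₀ = 2 := tr_eq_two_of_pow_char p hgp
  obtain ⟨h, hh⟩ := exists_conj_tri h2 (g := g₀) (by rw [ht]; exact ⟨0, by norm_num⟩)
  have ht' : tr (h * g₀ * h⁻¹) ^ 2 = 4 := by rw [tr_conj, ht]; norm_num
  rcases tri_para hh ht' with e | e
  · refine ⟨h⁻¹, (h * g₀ * h⁻¹) 0 1, ?_, ?_⟩
    · intro h0
      rw [h0, upper_zero, Mobius81.conj_eq_one_iff] at e
      exact hg1 e
    · rw [← e]; group
  · exfalso
    have := congrArg tr e
    rw [tr_conj, ht, tr_neg, tr_upper] at this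
    have h4 : (2 : F) * 2 = 0 := by linear_combination this
    exact h2 (mul_self_eq_zero.mp h4)

omit [DecidableEq F] in
theorem upper_pow_char (p : ℕ) [CharP F p] (x : F) : upper x ^ p = 1 := by
  rw [upper_pow, nsmul_eq_mul, CharP.cast_eq_zero, zero_mul, upper_zero]

theorem lower_pow_char (p : ℕ) [CharP F p] (h2 : (2 : F) ≠ 0) (y : F) : lower y ^ p = 1 := by
  apply pow_char_eq_one_of_tr_eq_two p h2
  unfold tr; simp; norm_num

end Order

/-! ### The reduction -/

/-- **Reduction to normal form.** -/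
theorem reduce [DecidableEq F] (p : ℕ) [Fact p.Prime] [CharP F p] (hp : p ≠ 2)
    (K : Subgroup (SpecialLinearGroup (Fin 2) F)) [Finite K]
    (hsq : ∀ g ∈ K, IsSquare (tr g ^ 2 - 4)) (hirr : ∀ x : OnePoint F, ∃ g ∈ K, g • x ≠ x)
    (hpK : ∃ g ∈ K, g ≠ 1 ∧ g ^ p = 1) :
    ∃ (γ : G) (K' : Subgroup (SpecialLinearGroup (Fin 2) F)), K' = conjBy γ (pm K) ∧ Finite K' ∧
      (∃ b, b ≠ 0 ∧ upper b ∈ K') ∧ (∃ g ∈ K', g 1 0 ≠ 0) ∧
      ((p = 3 ∧ ∃ b, b ≠ 0 ∧ ∀ x, upper x ∈ K' ↔ (x = 0 ∨ x = b ∨ x = -b)) ∨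
        ∀ g ∈ K', g 1 0 ≠ 0 → upper (g 0 0 / g 1 0) ∈ K') := by
  have h2 : (2 : F) ≠ 0 := two_ne_zero_of_char p hp
  obtain ⟨g₀, hg₀K, hg₀1, hg₀p⟩ := hpK
  obtain ⟨γ₁, b₀, hb₀, hconj⟩ := exists_conj_upper p h2 hg₀1 hg₀p
  set K₂ := conjBy γ₁ (pm K) with hK₂
  have hb₀K₂ : upper b₀ ∈ K₂ := mem_conjBy.mpr (by rw [hconj]; exact Or.inl hg₀K)
  have hneg₂ : (-1 : G) ∈ K₂ := mem_conjBy.mpr (by
    have : γ₁ * (-1) * γ₁⁻¹ = -1 := by simp
    rw [this]; exact neg_one_mem_pm K)
  have hsq₂ : ∀ g ∈ K₂, IsSquare (tr g ^ 2 - 4) := by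
    intro g hg
    rcases mem_conjBy.mp hg with h | h
    · have := hsq _ h; rwa [tr_conj] at this
    · have := hsq _ h; rwa [tr_neg, neg_sq, tr_conj] at this
  have hmove₂ : ∃ g ∈ K₂, g 1 0 ≠ 0 := by
    obtain ⟨k, hk, hkx⟩ := hirr (γ₁ • ∞)
    refine ⟨γ₁⁻¹ * k * γ₁, mem_conjBy.mpr ?_, ?_⟩
    · have : γ₁ * (γ₁⁻¹ * k * γ₁) * γ₁⁻¹ = k := by group
      rw [this]; exact Or.inl hk
    · intro h10
      apply hkx
      have := (smul_infty_eq_infty_iff _).mpr h10
      rw [mul_smul, mul_smul, inv_smul_eq_iff] at this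
      exact this
  rcases count_main K₂ p hp hneg₂ hsq₂ hb₀ hb₀K₂ hmove₂ with hq3 | hcoset
  · -- the exceptional case
    refine ⟨γ₁, K₂, rfl, inferInstance, ⟨b₀, hb₀, hb₀K₂⟩, hmove₂, Or.inl ⟨?_, b₀, hb₀, ?_⟩⟩
    · have hpq := p_dvd_card_addA K₂ p hb₀ hb₀K₂
      rw [hq3] at hpq
      exact (Nat.prime_dvd_prime_iff_eq (Fact.out : p.Prime) Nat.prime_three).mp hpq
    · have hsub : ({0, b₀, -b₀} : Set F) ⊆ (addA K₂ : Set F) := by
        intro x hx
        rcases hx with rfl | rfl | rfl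
        · exact (addA K₂).zero_mem
        · exact hb₀K₂
        · exact (addA K₂).neg_mem hb₀K₂
      have hne1 : (0 : F) ≠ b₀ := Ne.symm hb₀
      have hne2 : (0 : F) ≠ -b₀ := by
        intro h; apply hb₀; rw [← neg_neg b₀, ← h, neg_zero]
      have hne3 : b₀ ≠ -b₀ := by
        intro h
        have : (2 : F) * b₀ = 0 := by linear_combination h
        rcases mul_eq_zero.mp this with h' | h'
        · exact h2 h'
        · exact hb₀ h'
      have hcard : ({0, b₀, -b₀} : Set F).ncard = 3 :=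
        Set.ncard_eq_three.mpr ⟨0, b₀, -b₀, hne1, hne2, hne3, rfl⟩
      have hfin : ((addA K₂ : AddSubgroup F) : Set F).Finite := by
        have : Finite (addA K₂) := inferInstance
        exact Set.finite_coe_iff.mp this
      have hA : ((addA K₂ : AddSubgroup F) : Set F).ncard = 3 := by
        rw [← hq3, ← Nat.card_coe_set_eq]; rfl
      have heq := Set.eq_of_subset_of_ncard_le hsub (by rw [hA, hcard]) hfin
      intro x
      constructor
      · intro hx
        have : x ∈ ({0, b₀, -b₀} : Set F) := by rw [heq]; exact hx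
        exact this
      · intro hx
        have : x ∈ ((addA K₂ : AddSubgroup F) : Set F) := by rw [← heq]; exact hx
        exact this
  · -- the main case
    obtain ⟨g₁, hg₁, hg₁10⟩ := hmove₂
    set z₀ := g₁ 0 0 / g₁ 1 0 with hz₀def
    have hz₀ : z₀ ∈ omega0 K₂ := entry_mem_omega0 K₂ hg₁ hg₁10
    set K₃ := conjBy (upper z₀) K₂ with hK₃
    have hupper : ∀ x, upper x ∈ K₃ ↔ upper x ∈ K₂ := fun x => by
      rw [hK₃, mem_conjBy, conj_upper_upper]
    refine ⟨γ₁ * upper z₀, K₃, conjBy_conjBy _ _ _, inferInstance, ⟨b₀, hb₀, (hupper b₀).mpr hb₀K₂⟩,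
      ?_, Or.inr ?_⟩
    · refine ⟨(upper z₀)⁻¹ * g₁ * upper z₀, mem_conjBy.mpr ?_, ?_⟩
      · have : upper z₀ * ((upper z₀)⁻¹ * g₁ * upper z₀) * (upper z₀)⁻¹ = g₁ := by group
        rw [this]; exact hg₁
      · have := conj_upper_10 (-z₀) g₁
        rw [upper_neg, inv_inv] at this
        rw [this]; exact hg₁10
    · intro g hg h10
      have hg' : upper z₀ * g * (upper z₀)⁻¹ ∈ K₂ := mem_conjBy.mp hg
      have h10' : (upper z₀ * g * (upper z₀)⁻¹) 1 0 ≠ 0 := by rw [conj_upper_10]; exact h10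
      have hmem := entry_mem_omega0 K₂ hg' h10'
      have := hcoset _ hmem _ hz₀
      rw [conj_upper_10, conj_upper_00] at this
      rw [hupper]
      have e : (g 0 0 + z₀ * g 1 0) / g 1 0 - z₀ = g 0 0 / g 1 0 := by
        field_simp; ring
      rwa [e] at this

/-! ### The "no stable line" form of irreducibility -/

/-- If `K` stabilises no line of `F²`, it has no fixed point on the projective line. -/
theorem hirr_of_noStableLine [DecidableEq F] (K : Subgroup (SpecialLinearGroup (Fin 2) F))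
    (h : ∀ v : Fin 2 → F, v ≠ 0 →
      ∃ g ∈ K, ∀ c : F, (g : Matrix (Fin 2) (Fin 2) F) *ᵥ v ≠ c • v) :
    ∀ x : OnePoint F, ∃ g ∈ K, g • x ≠ x := by
  intro x
  induction x using OnePoint.rec with
  | infty =>
    obtain ⟨g, hg, hc⟩ := h ![1, 0] (by
      intro h0
      have := congrFun h0 0
      simp at this)
    refine ⟨g, hg, fun hfix => hc (g 0 0) ?_⟩
    have h10 : g 1 0 = 0 := (smul_infty_eq_infty_iff g).mp hfix
    ext i
    fin_cases i
    · simp [Matrix.mulVec, dotProduct, Fin.sum_univ_two]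
    · simp [Matrix.mulVec, dotProduct, Fin.sum_univ_two, h10]
  | coe z =>
    obtain ⟨g, hg, hc⟩ := h ![z, 1] (by
      intro h0
      have := congrFun h0 1
      simp at this)
    refine ⟨g, hg, fun hfix => hc (g 1 0 * z + g 1 1) ?_⟩
    have hq := (smul_coe_eq_coe_iff g z).mp hfix
    ext i
    fin_cases i
    · simp [Matrix.mulVec, dotProduct, Fin.sum_univ_two]
      linear_combination -hq
    · simp [Matrix.mulVec, dotProduct, Fin.sum_univ_two]

end Fermat.Agent.TW.Dickson.Reduce81
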